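import Fermat.Agent.S28.Basic
import Fermat.Agent.S24.Embed
import Fermat.Agent.S24.DegreeLow
import Fermat.Agent.S24.Charts

/-!
# S28 [EMB] : the embeddings of S24 restricted to `FF N`
-/

set_option autoImplicit false

open UpperHalfPlane hiding I
open ModularCurve ModularCurve.IgusaScheme Polynomial Filter
open scoped MatrixGroups Manifold

namespace Fermat.Agent.S28Lib

open Fermat.Agent.S20Lib Fermat.Agent.S24Lib

/-- extension of the constants `ℚ → ℚ̄` on the function field -/
noncomputable def toBar (N : ℕ) [NeZero N] : FF N →+* FN N where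
  toFun x := ⟨coeffEmb Kb (x : LaurentSeries ℚ), coeffEmb_mem_laurentBaseChange Kb x.2⟩
  map_one' := Subtype.ext (map_one (coeffEmb Kb))
  map_zero' := Subtype.ext (map_zero (coeffEmb Kb))
  map_mul' _ _ := Subtype.ext (map_mul (coeffEmb Kb) _ _)
  map_add' _ _ := Subtype.ext (map_add (coeffEmb Kb) _ _)

theorem coe_toBar (N : ℕ) [NeZero N] (x : FF N) :
    (toBar N x : LaurentSeries Kb) = coeffEmb Kb (x : LaurentSeries ℚ) := rfl

theorem toBar_jFull (N : ℕ) [NeZero N] : toBar N (jFull N) = jj N := by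
  apply Subtype.ext
  show coeffEmb Kb jq = coeffEmb Kb (qExpand ℚ 1 jq)
  rw [qExpand_one_apply]

theorem toBar_tFull (N : ℕ) [NeZero N] : toBar N (tFull N) = gen N (dvTop N) := rfl

/-- change of the parameter `q = u^N` -/
theorem hasExp_qN_of_qN_one (N : ℕ) [NeZero N] {f : ℍ → ℂ} {ℓ : LaurentSeries ℂ}
    (h : HasExp atImInfty (qN 1) f ℓ) : HasExp atImInfty (qN N) f (qExpand ℂ N ℓ) := by
  have h1 := h.comp (s := id) tendsto_id 1 N (π' := qN N) (Eventually.of_forall fun τ => by
    simp only [qN, Function.Periodic.qParam, id, Units.val_one, one_mul, ← Complex.exp_nat_mul]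
    congr 1
    have hN : (N : ℂ) ≠ 0 := Nat.cast_ne_zero.2 (NeZero.ne N)
    push_cast
    field_simp)
  rwa [rot_one] at h1

theorem hasExp_jF_JJ (N : ℕ) [NeZero N] : HasExp atImInfty (qN N) jF (JJ ℂ N) := by
  have h := hasExp_qN_of_qN_one N (hasExp_jD 1)
  rw [qExpand_one_apply, ← jR_rat, coeffMap_jR, jD_one] at h
  exact h

theorem hasExp_eStd_tFull (N : ℕ) [NeZero N] :
    HasExp atImInfty (qN N) (jD N) (eStd N (tFull N)) :=
  hasExp_qN_of_qN_one N (hasExp_jD N)

theorem exists_sigma (N : ℕ) [NeZero N] :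
    ∃ σ : X0 N → FF N →+* LaurentSeries ℂ, (∀ x, σ x (jFull N) = JJ ℂ N) ∧
      ∀ x, HasExp atImInfty (qN N) (fun τ => cvec N (jD N) τ x) (σ x (tFull N)) := by
  obtain ⟨ι, -, h⟩ := exists_embeddings N (goodChart_infty N)
  refine ⟨fun x => (ι x).comp (toBar N), fun x => ?_, fun x => ?_⟩
  · show ι x (toBar N (jFull N)) = _
    rw [toBar_jFull]
    exact (hasExp_emb_jj h x).unique (isChart_infty N) (hasExp_jF_JJ N)
  · show HasExp _ _ _ (ι x (toBar N (tFull N)))
    rw [toBar_tFull, ← evq_X]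
    refine (h x (MvPolynomial.X (dvTop N))).congr (Eventually.of_forall fun τ => ?_)
    rw [vec_zero_eq_cvec, evan_X]
    rfl

end Fermat.Agent.S28Lib
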