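import Mathlib
import Fermat.Prelude.Def_GaloisRep_Flat

/-!
# S28 : basic facts on `ℤ_(ℓ) = GaloisRep.ratLocalizedAt ℓ`
-/

set_option autoImplicit false

namespace Fermat.Agent.S28Lib

open GaloisRep

variable (ℓ : ℕ) [Fact ℓ.Prime]

theorem mem_ratLocalizedAt_iff {ℓ : ℕ} {q : ℚ} : q ∈ ratLocalizedAt ℓ ↔ q.den.Coprime ℓ := Iff.rfl

theorem intCast_mem_ratLocalizedAt (ℓ : ℕ) (a : ℤ) : (a : ℚ) ∈ ratLocalizedAt ℓ :=
  intCast_mem _ a

theorem inv_natCast_mem_ratLocalizedAt {ℓ : ℕ} {b : ℕ} (hb : b.Coprime ℓ) :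
    ((b : ℚ))⁻¹ ∈ ratLocalizedAt ℓ := by
  rcases Nat.eq_zero_or_pos b with rfl | hb0
  · simp
  · rw [mem_ratLocalizedAt_iff, Rat.inv_natCast_den_of_pos hb0]
    exact hb

/-- an element of `ℤ_(ℓ)` is a unit or divisible by `ℓ` -/
theorem isUnit_or_dvd (x : ratLocalizedAt ℓ) : IsUnit x ∨ ∃ y : ratLocalizedAt ℓ, x = ℓ * y := by
  have hℓ : ℓ.Prime := Fact.out
  obtain ⟨q, hq⟩ := x
  by_cases h : (ℓ : ℤ) ∣ q.num
  · right
    obtain ⟨a, ha⟩ := h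
    refine ⟨⟨(a : ℚ) * (q.den : ℚ)⁻¹,
      mul_mem (intCast_mem_ratLocalizedAt ℓ a) (inv_natCast_mem_ratLocalizedAt hq)⟩, ?_⟩
    apply Subtype.ext
    show q = (ℓ : ℚ) * ((a : ℚ) * (q.den : ℚ)⁻¹)
    conv_lhs => rw [← Rat.num_div_den q, ha]
    push_cast
    ring
  · left
    have hq0 : q ≠ 0 := by
      rintro rfl
      simp at h
    have hinv : q⁻¹ ∈ ratLocalizedAt ℓ := by
      rw [mem_ratLocalizedAt_iff, Rat.den_inv_of_ne_zero hq0, Nat.coprime_comm,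
        hℓ.coprime_iff_not_dvd]
      intro hd
      exact h (Int.natCast_dvd.mpr hd)
    refine IsUnit.of_mul_eq_one ⟨q⁻¹, hinv⟩ ?_
    apply Subtype.ext
    show q * q⁻¹ = 1
    exact mul_inv_cancel₀ hq0

variable (K : Type*) [Field K] [CharP K ℓ] [Algebra (ratLocalizedAt ℓ) K]

theorem algebraMap_eq_zero_iff (x : ratLocalizedAt ℓ) :
    algebraMap (ratLocalizedAt ℓ) K x = 0 ↔ ∃ y : ratLocalizedAt ℓ, x = ℓ * y := by
  constructor
  · intro h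
    rcases isUnit_or_dvd ℓ x with hu | hd
    · exact absurd h (hu.map (algebraMap (ratLocalizedAt ℓ) K)).ne_zero
    · exact hd
  · rintro ⟨y, rfl⟩
    rw [map_mul, map_natCast, CharP.cast_eq_zero, zero_mul]

theorem isMaximal_ker : (RingHom.ker (algebraMap (ratLocalizedAt ℓ) K)).IsMaximal := by
  refine Ideal.isMaximal_iff.mpr ⟨?_, ?_⟩
  · rw [RingHom.mem_ker, map_one]
    exact one_ne_zero
  · intro J x _ hx hxJ
    rcases isUnit_or_dvd ℓ x with hu | hd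
    · exact (Ideal.eq_top_of_isUnit_mem J hxJ hu) ▸ Submodule.mem_top
    · exact absurd ((algebraMap_eq_zero_iff ℓ K x).mpr hd) hx

end Fermat.Agent.S28Lib
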