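import Fermat.Agent.S28.Defs
import Fermat.Agent.S28.ZlBasic

/-!
# S28 [V] : a valuation subring of `ℂ` above `ℓ`
-/

set_option autoImplicit false

open ModularCurve Polynomial

namespace Fermat.Agent.S28Lib

theorem exists_goodV (ℓ : ℕ) [Fact ℓ.Prime] : ∃ V : ValuationSubring ℂ, ((ℓ : ℂ))⁻¹ ∉ V := by
  have hℓ : ℓ.Prime := Fact.out
  let A : Subring ℂ := (Int.castRingHom ℂ).range
  let l : A := ⟨(ℓ : ℂ), ⟨(ℓ : ℤ), by simp⟩⟩
  have hI : Ideal.span {l} ≠ ⊤ := by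
    intro h
    rw [Ideal.span_singleton_eq_top] at h
    obtain ⟨⟨_, ⟨b, rfl⟩⟩, hb⟩ := h.exists_right_inv
    have h1 : ((ℓ : ℂ)) * ((b : ℤ) : ℂ) = 1 := congrArg Subtype.val hb
    have h2 : (ℓ : ℤ) * b = 1 := by exact_mod_cast h1
    have h3 : (ℓ : ℤ) ∣ 1 := Dvd.intro _ h2
    have h4 : ℓ ∣ 1 := by exact_mod_cast h3
    exact hℓ.one_lt.ne' (Nat.dvd_one.1 h4)
  obtain ⟨V, -, hV⟩ := Ideal.image_subset_nonunits_valuationSubring (Ideal.span {l}) hI
  refine ⟨V, fun h => ?_⟩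
  have h1 : (ℓ : ℂ) ∈ V.nonunits := hV ⟨l, Ideal.subset_span rfl, rfl⟩
  rw [ValuationSubring.mem_nonunits_iff_exists_mem_maximalIdeal] at h1
  obtain ⟨ha, hm⟩ := h1
  apply (IsLocalRing.mem_maximalIdeal _).1 hm
  refine IsUnit.of_mul_eq_one ⟨_, h⟩ ?_
  apply Subtype.ext
  have : (ℓ : ℂ) ≠ 0 := by exact_mod_cast hℓ.ne_zero
  exact mul_inv_cancel₀ this

section

variable {ℓ : ℕ} [Fact ℓ.Prime] {V : ValuationSubring ℂ}

omit [Fact ℓ.Prime] in
theorem val_natCast_lt_one (hV : ((ℓ : ℂ))⁻¹ ∉ V) : V.valuation (ℓ : ℂ) < 1 := by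
  have h1 : ¬ V.valuation ((ℓ : ℂ))⁻¹ ≤ 1 := fun h => hV ((V.valuation_le_one_iff _).1 h)
  rw [not_le, map_inv₀] at h1
  have h0 : V.valuation (ℓ : ℂ) ≠ 0 := by
    intro h
    rw [h] at h1
    simp at h1
  exact (one_lt_inv₀ (zero_lt_iff.2 h0)).1 h1

theorem natCast_inv_mem_V (hV : ((ℓ : ℂ))⁻¹ ∉ V)
    (m : ℕ) (hm : ¬ ℓ ∣ m) : ((m : ℂ))⁻¹ ∈ V := by
  have hℓ : ℓ.Prime := Fact.out
  by_contra h
  have h1 : ¬ V.valuation ((m : ℂ))⁻¹ ≤ 1 := fun h' => h ((V.valuation_le_one_iff _).1 h')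
  rw [not_le, map_inv₀] at h1
  have h0 : V.valuation (m : ℂ) ≠ 0 := by
    intro h'
    rw [h'] at h1
    simp at h1
  have h2 : V.valuation (m : ℂ) < 1 := (one_lt_inv₀ (zero_lt_iff.2 h0)).1 h1
  have h3 := val_natCast_lt_one hV
  have hcop : IsCoprime (ℓ : ℤ) (m : ℤ) := by
    rw [Nat.isCoprime_iff_coprime]
    exact (hℓ.coprime_iff_not_dvd).2 hm
  obtain ⟨a, b, hab⟩ := hcop
  have h4 : ((a : ℤ) : ℂ) * (ℓ : ℂ) + ((b : ℤ) : ℂ) * (m : ℂ) = 1 := by exact_mod_cast hab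
  have ha : V.valuation ((a : ℤ) : ℂ) ≤ 1 := (V.valuation_le_one_iff _).2 (intCast_mem _ a)
  have hb : V.valuation ((b : ℤ) : ℂ) ≤ 1 := (V.valuation_le_one_iff _).2 (intCast_mem _ b)
  have h5 : V.valuation (((a : ℤ) : ℂ) * (ℓ : ℂ) + ((b : ℤ) : ℂ) * (m : ℂ)) < 1 := by
    apply Valuation.map_add_lt
    · rw [map_mul]; exact mul_lt_one_of_nonneg_of_lt_one_right ha zero_le h3
    · rw [map_mul]; exact mul_lt_one_of_nonneg_of_lt_one_right hb zero_le h2
  rw [h4, map_one] at h5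
  exact lt_irrefl _ h5

theorem ratCast_mem_V_iff (hV : ((ℓ : ℂ))⁻¹ ∉ V)
    (q : ℚ) : (q : ℂ) ∈ V ↔ q ∈ GaloisRep.ratLocalizedAt ℓ := by
  have hℓ : ℓ.Prime := Fact.out
  constructor
  · intro h
    rw [mem_ratLocalizedAt_iff, Nat.coprime_comm, hℓ.coprime_iff_not_dvd]
    intro hd
    -- `ℓ ∣ den`, so `ℓ ∤ num`
    have hnum : ¬ ℓ ∣ q.num.natAbs := by
      intro hn
      have := Nat.dvd_gcd hn hd
      rw [q.reduced] at this
      exact hℓ.one_lt.ne' (Nat.dvd_one.1 this)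
    obtain ⟨c, hc⟩ := hd
    have hden : (q.den : ℂ) ≠ 0 := by exact_mod_cast q.den_ne_zero
    have hℓ0 : (ℓ : ℂ) ≠ 0 := by exact_mod_cast hℓ.ne_zero
    have h1 : (q : ℂ) * (q.den : ℂ) = (q.num : ℂ) := by
      have := Rat.mul_den_eq_num q
      exact_mod_cast congrArg (Rat.cast : ℚ → ℂ) this
    have h2 : ((q.num.natAbs : ℕ) : ℂ)⁻¹ ∈ V := natCast_inv_mem_V hV _ hnum
    have h3 : ((q.num : ℤ) : ℂ)⁻¹ ∈ V := by
      rcases Int.natAbs_eq q.num with h | h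
      · have : ((q.num : ℤ) : ℂ) = ((q.num.natAbs : ℕ) : ℂ) := by
          conv_lhs => rw [h]
          simp
        rw [this]; exact h2
      · have : ((q.num : ℤ) : ℂ) = -((q.num.natAbs : ℕ) : ℂ) := by
          conv_lhs => rw [h]
          simp
        rw [this, inv_neg]
        exact neg_mem h2
    apply hV
    have hnum0 : ((q.num : ℤ) : ℂ) ≠ 0 := by
      intro h0
      have : q.num = 0 := by exact_mod_cast h0
      rw [this] at hnum
      simp at hnum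
    have h4 : ((ℓ : ℂ))⁻¹ = (q : ℂ) * (c : ℂ) * ((q.num : ℤ) : ℂ)⁻¹ := by
      rw [← h1, hc]
      have hc0 : (c : ℂ) ≠ 0 := by
        intro h0
        apply hden
        rw [hc]
        push_cast
        rw [h0, mul_zero]
      have hq0 : (q : ℂ) ≠ 0 := by
        intro h0
        rw [h0, zero_mul] at h1
        exact hnum0 h1.symm
      push_cast
      field_simp
    rw [h4]
    exact mul_mem (mul_mem h (natCast_mem _ c)) h3
  · intro h
    rw [mem_ratLocalizedAt_iff, Nat.coprime_comm, hℓ.coprime_iff_not_dvd] at h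
    have h1 : (q : ℂ) = (q.num : ℂ) * ((q.den : ℕ) : ℂ)⁻¹ := by
      rw [← div_eq_mul_inv]
      exact_mod_cast congrArg (Rat.cast : ℚ → ℂ) (Rat.num_div_den q).symm
    rw [h1]
    exact mul_mem (intCast_mem _ _) (natCast_inv_mem_V hV _ h)

end

theorem rootOfUnity_mem_V (V : ValuationSubring ℂ) (ζ : ℂ) (n : ℕ) (hn : 0 < n) (h : ζ ^ n = 1) :
    ζ ∈ V := by
  rw [← V.valuation_le_one_iff]
  have h1 : V.valuation ζ ^ n = 1 := by rw [← map_pow, h, map_one]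
  rcases pow_eq_one_iff.1 h1 with h2 | h2
  · exact le_of_eq h2
  · omega

theorem one_sub_inv_mem_V {ℓ : ℕ} [Fact ℓ.Prime] {V : ValuationSubring ℂ} (hV : ((ℓ : ℂ))⁻¹ ∉ V)
    (N : ℕ) (hN : ¬ ℓ ∣ N) (ζ : ℂ) (h : ζ ^ N = 1) (h1 : ζ ≠ 1) : (1 - ζ)⁻¹ ∈ V := by
  have hN0 : 0 < N := by
    rcases Nat.eq_zero_or_pos N with rfl | h0
    · exact absurd (dvd_zero ℓ) hN
    · exact h0
  have hζ : ζ ∈ V := rootOfUnity_mem_V V ζ N hN0 h
  let z : V := ⟨ζ, hζ⟩
  let g : (V : Type)[X] := ∑ i ∈ Finset.range N, (X : (V : Type)[X]) ^ i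
  have hg1 : g.eval 1 = (N : V) := by
    simp [g, Polynomial.eval_finsetSum]
  have hz1 : z - 1 ≠ 0 := by
    intro h0
    apply h1
    have := congrArg Subtype.val (sub_eq_zero.1 h0)
    exact this
  have hgz : g.eval z = 0 := by
    have h2 : (∑ i ∈ Finset.range N, z ^ i) * (z - 1) = z ^ N - 1 := geom_sum_mul z N
    have h3 : z ^ N = 1 := Subtype.ext h
    rw [h3, sub_self] at h2
    have h4 := (mul_eq_zero.1 h2).resolve_right hz1
    simpa [g, Polynomial.eval_finsetSum] using h4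
  obtain ⟨c, hc⟩ := Polynomial.sub_dvd_eval_sub z 1 g
  rw [hgz, hg1] at hc
  have hc' : (0 : ℂ) - (N : ℂ) = (ζ - 1) * (c : ℂ) := by
    have := congrArg Subtype.val hc
    simpa using this
  have hNC : (N : ℂ) ≠ 0 := by exact_mod_cast hN0.ne'
  have h5 : (1 - ζ)⁻¹ = (c : ℂ) * ((N : ℂ))⁻¹ := by
    have h6 : (1 - ζ) ≠ 0 := sub_ne_zero.2 (Ne.symm h1)
    have h7 : (N : ℂ) = (1 - ζ) * (c : ℂ) := by linear_combination -hc'
    rw [h7, mul_inv]
    have hc0 : (c : ℂ) ≠ 0 := by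
      intro h0
      rw [h0, mul_zero] at h7
      exact hNC h7
    field_simp
  rw [h5]
  exact mul_mem c.2 (natCast_inv_mem_V hV N hN)

/-- `x ∈ V` reduces to `0` iff `x / ℓ`... only for rational `x` -/
theorem residue_ratCast_eq_zero_iff {ℓ : ℕ} [Fact ℓ.Prime] {V : ValuationSubring ℂ}
    (hV : ((ℓ : ℂ))⁻¹ ∉ V) (q : ℚ) (hq : (q : ℂ) ∈ V) :
    IsLocalRing.residue V ⟨(q : ℂ), hq⟩ = 0 ↔ ∃ r ∈ GaloisRep.ratLocalizedAt ℓ, q = ℓ * r := by
  have hℓ : ℓ.Prime := Fact.out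
  rw [IsLocalRing.residue_eq_zero_iff, IsLocalRing.mem_maximalIdeal, mem_nonunits_iff]
  constructor
  · intro h
    have hq' := (ratCast_mem_V_iff hV q).1 hq
    rcases isUnit_or_dvd ℓ ⟨q, hq'⟩ with hu | ⟨y, hy⟩
    · exfalso
      apply h
      obtain ⟨⟨r, hr⟩, hr1⟩ := hu.exists_right_inv
      have h1 : q * r = 1 := congrArg Subtype.val hr1
      refine IsUnit.of_mul_eq_one ⟨(r : ℂ), (ratCast_mem_V_iff hV r).2 hr⟩ ?_
      apply Subtype.ext
      change (q : ℂ) * (r : ℂ) = 1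
      exact_mod_cast congrArg (Rat.cast : ℚ → ℂ) h1
    · refine ⟨y.1, y.2, ?_⟩
      have := congrArg Subtype.val hy
      simpa using this
  · rintro ⟨r, hr, rfl⟩ hu
    obtain ⟨⟨c, hc⟩, hc1⟩ := hu.exists_right_inv
    have h1 : (((ℓ : ℚ) * r : ℚ) : ℂ) * c = 1 := congrArg Subtype.val hc1
    apply hV
    have hℓ0 : (ℓ : ℂ) ≠ 0 := by exact_mod_cast hℓ.ne_zero
    have h2 : ((ℓ : ℂ))⁻¹ = (r : ℂ) * c := by
      push_cast at h1
      field_simp
      linear_combination -h1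
    rw [h2]
    exact mul_mem ((ratCast_mem_V_iff hV r).2 hr) hc

theorem mem_OV_iff (V : ValuationSubring ℂ) (f : LaurentSeries ℂ) :
    f ∈ OV V ↔ ∀ n : ℤ, f.coeff n ∈ V := by
  constructor
  · rintro ⟨g, rfl⟩ n
    exact (g.coeff n).2
  · intro h
    refine ⟨⟨fun n => ⟨f.coeff n, h n⟩, ?_⟩, ?_⟩
    · refine f.isPWO_support.mono ?_
      intro n hn
      simp only [Function.mem_support, ne_eq] at hn ⊢
      intro h0
      apply hn
      exact Subtype.ext h0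
    · ext n
      rfl

theorem iV_injective (V : ValuationSubring ℂ) : Function.Injective (iV V) := by
  intro a b hab
  ext n
  have := congrArg (fun f : LaurentSeries ℂ => f.coeff n) hab
  exact this

/-- units of `V((u))` keep their order under reduction -/
theorem order_redV_of_isUnit (V : ValuationSubring ℂ) (g : LaurentSeries V) (hg : IsUnit g) :
    (redV V g).order = g.order := by
  have h1 : IsUnit g.leadingCoeff := HahnSeries.isUnit_iff.1 hg
  have hg0 : g ≠ 0 := hg.ne_zero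
  have h2 : (redV V g).coeff g.order ≠ 0 := by
    change IsLocalRing.residue V (g.coeff g.order) ≠ 0
    rw [← HahnSeries.leadingCoeff_eq]
    intro h0
    rw [IsLocalRing.residue_eq_zero_iff] at h0
    exact (IsLocalRing.mem_maximalIdeal _).1 h0 h1
  have h3 : redV V g ≠ 0 := by
    intro h0
    rw [h0] at h2
    simp at h2
  apply le_antisymm
  · exact HahnSeries.order_le_of_coeff_ne_zero h2
  · by_contra hlt
    rw [not_le] at hlt
    have h4 : (redV V g).coeff (redV V g).order ≠ 0 := fun h0 => h3 (HahnSeries.coeff_order_eq_zero.1 h0)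
    apply h4
    change IsLocalRing.residue V (g.coeff _) = 0
    rw [HahnSeries.coeff_eq_zero_of_lt_order hlt, map_zero]

end Fermat.Agent.S28Lib
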