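import Fermat.Agent.S28.Gauss
import Fermat.Agent.S28.Sigma
import Fermat.Agent.S28.Val
import Fermat.Agent.S24.LevelOnePoly

/-!
# S28 : [P]  level one functions with `V`-integral expansion are polynomials in `j` over `V`
-/

set_option autoImplicit false

open UpperHalfPlane hiding I
open ModularCurve Polynomial Filter ModularForm
open scoped MatrixGroups Manifold

namespace Fermat.Agent.S28Lib

open Fermat.Agent.S20Lib Fermat.Agent.S24Lib

theorem hasExp_eval_jF (N : ℕ) [NeZero N] (p : ℂ[X]) :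
    HasExp atImInfty (qN N) (fun τ => p.eval (jF τ)) (evJ ℂ N p) := by
  induction p using Polynomial.induction_on' with
  | add p q hp hq =>
    rw [map_add]
    refine (hp.add hq).congr (Eventually.of_forall fun τ => ?_)
    simp
  | monomial n a =>
    have h1 : evJ ℂ N (monomial n a) = HahnSeries.C a * JJ ℂ N ^ n := by
      show aeval (JJ ℂ N) (monomial n a) = _
      rw [aeval_monomial, algebraMap_eq_C]
    rw [h1]
    refine ((HasExp.const _ _ a).mul ((hasExp_jF_JJ N).pow n)).congr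
      (Eventually.of_forall fun τ => ?_)
    simp

theorem exists_bdd_of_hasExp (N : ℕ) [NeZero N] (h : ℍ → ℂ) (L : LaurentSeries ℂ)
    (hexp : HasExp atImInfty (qN N) h L) :
    ∃ t : ℕ, IsBoundedAtImInfty (fun τ => discriminant τ ^ t * h τ) := by
  by_cases hL : L = 0
  · refine ⟨0, ?_⟩
    have h0 : h =ᶠ[atImInfty] 0 := (hexp.eq_zero_iff (isChart_infty N)).mp hL
    have h1 : (fun τ => discriminant τ ^ 0 * h τ) =ᶠ[atImInfty] fun _ => (0 : ℂ) := by
      filter_upwards [h0] with τ hτ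
      rw [hτ]
      simp
    exact (tendsto_const_nhds.congr' h1.symm).isBigO_one ℝ
  · have h1 := hexp.lead (isChart_infty N) hL
    have h2 := (disc_lead_infty N).pow (qN_ev_ne_zero N) (-L.order).toNat
    have h3 := h2.mul (qN_ev_ne_zero N) h1
    refine ⟨(-L.order).toNat, bdd_of_lead_nonneg N h3 ?_⟩
    have hN : (1 : ℤ) ≤ N := by exact_mod_cast Nat.pos_of_ne_zero (NeZero.ne N)
    have h4 : -L.order ≤ ((-L.order).toNat : ℤ) := Int.self_le_toNat _
    have h5 : (0 : ℤ) ≤ ((-L.order).toNat : ℤ) := Int.natCast_nonneg _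
    nlinarith

theorem descent (N : ℕ) [NeZero N] (V : ValuationSubring ℂ) (h : ℍ → ℂ) (hh : MDiff h)
    (hinv : ∀ (γ : SL(2, ℤ)) (τ : ℍ), h (γ • τ) = h τ) (g : LaurentSeries V)
    (hexp : HasExp atImInfty (qN N) h (iV V g)) : ∃ p : (↥V)[X], g = evJ V N p := by
  obtain ⟨t, ht⟩ := exists_bdd_of_hasExp N h _ hexp
  obtain ⟨p₀, hp₀⟩ := levelOne_poly h hh hinv t ht
  have h1 : iV V g = evJ ℂ N p₀ := by
    refine hexp.unique (isChart_infty N) ((hasExp_eval_jF N p₀).congr
      (Eventually.of_forall fun τ => (hp₀ τ).symm))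
  have h2 : ∀ i, p₀.coeff i ∈ V.toSubring := by
    apply gauss_J N V.toSubring p₀
    intro n
    rw [← h1]
    exact (g.coeff n).2
  have h3 : p₀ ∈ Polynomial.lifts V.subtype := by
    rw [Polynomial.lifts_iff_coeff_lifts]
    intro i
    exact ⟨⟨p₀.coeff i, h2 i⟩, rfl⟩
  obtain ⟨p, hp⟩ := h3
  refine ⟨p, iV_injective V ?_⟩
  rw [h1, iV_evJ]
  congr 1
  exact hp.symm

end Fermat.Agent.S28Lib
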