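import Fermat.Agent.S28.SymAux
import Fermat.Agent.S28.Descent

/-!
# S28 [SYM] : symmetric functions of the conjugates
-/

set_option autoImplicit false

open UpperHalfPlane hiding I
open ModularCurve Polynomial Filter
open scoped MatrixGroups Manifold

namespace Fermat.Agent.S28Lib

open Fermat.Agent.S20Lib Fermat.Agent.S24Lib

theorem descentProp (N : ℕ) [NeZero N] (V : ValuationSubring ℂ) : DescentProp N V :=
  fun h hh hinv g hexp => descent N V h hh hinv g hexp

theorem sym_pol1 (N : ℕ) [NeZero N] (V : ValuationSubring ℂ) (T : ℍ → ℂ) (hT : MDiff T)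
    (hTinv : IsInv N T) (tV : X0 N → LaurentSeries V)
    (ht : ∀ x, HasExp atImInfty (qN N) (fun τ => cvec N T τ x) (iV V (tV x))) :
    ∃ P : (↥V)[X][X], P.map (evJ V N) = pol1 tV :=
  sym_pol1_aux N V (descentProp N V) T hT hTinv tV ht

theorem sym_pol2 (N : ℕ) [NeZero N] (V : ValuationSubring ℂ) (T W : ℍ → ℂ) (hT : MDiff T)
    (hW : MDiff W) (hTinv : IsInv N T) (hWinv : IsInv N W) (tV wV : X0 N → LaurentSeries V)
    (ht : ∀ x, HasExp atImInfty (qN N) (fun τ => cvec N T τ x) (iV V (tV x)))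
    (hw : ∀ x, HasExp atImInfty (qN N) (fun τ => cvec N W τ x) (iV V (wV x))) :
    ∃ P : (↥V)[X][X], P.map (evJ V N) = pol2 tV wV :=
  sym_pol2_aux N V (descentProp N V) T W hT hW hTinv hWinv tV wV ht hw

end Fermat.Agent.S28Lib
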