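import Fermat.Agent.S28.HCoefAux
import Fermat.Agent.S28.Sym

/-!
# S28 [HCOEF]
-/

set_option autoImplicit false

open UpperHalfPlane hiding I
open ModularCurve ModularCurve.IgusaScheme Polynomial Filter
open scoped MatrixGroups Manifold

namespace Fermat.Agent.S28Lib

open Fermat.Agent.S20Lib Fermat.Agent.S24Lib

theorem hcoef_fin (N : ℕ) [NeZero N] (ℓ : ℕ) [Fact ℓ.Prime]
    (V : ValuationSubring ℂ) (hV : ((ℓ : ℂ))⁻¹ ∉ V) (tV : X0 N → LaurentSeries V)
    (ht : ∀ x, HasExp atImInfty (qN N) (fun τ => cvec N (jD N) τ x) (iV V (tV x)))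
    (hu : ∀ x y, x ≠ y → IsUnit (tV x - tV y)) (i : ℕ) :
    ∃ a : (Zl ℓ)[X], eStd N (aeval (jFull N) a) = (pol1 fun x => iV V (tV x)).coeff i :=
  hcoef_fin_aux N ℓ V hV (descentProp N V) tV ht hu i

end Fermat.Agent.S28Lib
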