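import Fermat.Agent.S28.Val
import Fermat.Agent.S28.Sigma
import Fermat.Agent.S24.DegreeAlg

/-!
# S28 : the inclusion `ℤ_(ℓ) → V` and the standard expansion
-/

set_option autoImplicit false

open UpperHalfPlane hiding I
open ModularCurve ModularCurve.IgusaScheme Polynomial Filter
open scoped MatrixGroups Manifold

namespace Fermat.Agent.S28Lib

open Fermat.Agent.S20Lib Fermat.Agent.S24Lib

section zlV

variable {ℓ : ℕ} [Fact ℓ.Prime] {V : ValuationSubring ℂ}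

/-- the inclusion `ℤ_(ℓ) → V` -/
noncomputable def zlV (hV : ((ℓ : ℂ))⁻¹ ∉ V) : Zl ℓ →+* V where
  toFun r := ⟨((r : ℚ) : ℂ), (ratCast_mem_V_iff hV _).2 r.2⟩
  map_one' := Subtype.ext (by simp)
  map_zero' := Subtype.ext (by simp)
  map_mul' a b := Subtype.ext (by simp)
  map_add' a b := Subtype.ext (by simp)

theorem coe_zlV (hV : ((ℓ : ℂ))⁻¹ ∉ V) (r : Zl ℓ) : ((zlV hV r : V) : ℂ) = ((r : ℚ) : ℂ) := rfl

theorem residue_zlV_eq_zero (hV : ((ℓ : ℂ))⁻¹ ∉ V) (r : Zl ℓ)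
    (h : IsLocalRing.residue V (zlV hV r) = 0) : (ℓ : Zl ℓ) ∣ r := by
  obtain ⟨s, hs, hrs⟩ := (residue_ratCast_eq_zero_iff hV (r : ℚ) _).1 h
  exact ⟨⟨s, hs⟩, Subtype.ext (by simpa using hrs)⟩

theorem residue_natCast_eq_zero (hV : ((ℓ : ℂ))⁻¹ ∉ V) : ((ℓ : ℕ) : kV V) = 0 := by
  have h := (residue_ratCast_eq_zero_iff hV (ℓ : ℚ)
    ((ratCast_mem_V_iff hV _).2 (natCast_mem _ ℓ))).2 ⟨1, one_mem _, by simp⟩
  rw [← h, ← map_natCast (IsLocalRing.residue V)]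
  congr 1

end zlV

theorem eStd_algebraMap_Zl (N : ℕ) [NeZero N] (ℓ : ℕ) [Fact ℓ.Prime] (r : Zl ℓ) :
    eStd N (algebraMap (Zl ℓ) (FF N) r) = HahnSeries.C (((r : ℚ) : ℂ)) := by
  have h1 : algebraMap (Zl ℓ) (FF N) r = algebraMap ℚ (FF N) (r : ℚ) := rfl
  rw [h1]
  exact RingHom.congr_fun (RingHom.ext_rat ((eStd N).comp (algebraMap ℚ (FF N)))
    ((HahnSeries.C : ℂ →+* LaurentSeries ℂ).comp (algebraMap ℚ ℂ))) (r : ℚ)

theorem eStd_aeval_jFull (N : ℕ) [NeZero N] {ℓ : ℕ} [Fact ℓ.Prime] {V : ValuationSubring ℂ}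
    (hV : ((ℓ : ℂ))⁻¹ ∉ V) (a : (Zl ℓ)[X]) :
    eStd N (aeval (jFull N) a) = iV V (evJ V N (a.map (zlV hV))) := by
  rw [iV_evJ, Polynomial.map_map, evJ]
  simp only [AlgHom.toRingHom_eq_coe, RingHom.coe_coe]
  rw [aeval_def, aeval_def, Polynomial.hom_eval₂, eval₂_map, eStd_jFull]
  congr 1
  ext r
  simp only [RingHom.comp_apply]
  rw [eStd_algebraMap_Zl, algebraMap_eq_C]
  rfl

theorem eStd_tFull_eq (N : ℕ) [NeZero N] (V : ValuationSubring ℂ) (tV : X0 N → LaurentSeries V)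
    (ht : ∀ x, HasExp atImInfty (qN N) (fun τ => cvec N (jD N) τ x) (iV V (tV x))) :
    eStd N (tFull N) = iV V (tV (x0 N)) := by
  refine (hasExp_eStd_tFull N).unique (isChart_infty N) ((ht (x0 N)).congr ?_)
  exact Eventually.of_forall fun τ => cvec_base (IsInv.jD dvd_rfl) τ

theorem transcendental_JJ (k : Type*) [Field k] (N : ℕ) [NeZero N] : Transcendental k (JJ k N) := by
  apply transcendental_of_coeff_neg _ (n := -(N : ℤ))
  · have : (0 : ℤ) < N := by exact_mod_cast Nat.pos_of_ne_zero (NeZero.ne N)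
    omega
  · rw [coeff_JJ_neg]
    exact one_ne_zero

end Fermat.Agent.S28Lib
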