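import Fermat.Agent.S28.IrrK
import Fermat.Agent.S28.ZlV

/-!
# S28 [HIRR] : divisibility by `ℓ` of polynomial expressions in `j`, `t`
-/

set_option autoImplicit false

open UpperHalfPlane hiding I
open ModularCurve ModularCurve.IgusaScheme Polynomial Filter
open scoped MatrixGroups Manifold

namespace Fermat.Agent.S28Lib

open Fermat.Agent.S20Lib Fermat.Agent.S24Lib

theorem hirr_fin (N : ℕ) [NeZero N] (ℓ : ℕ) [Fact ℓ.Prime] (hℓN : ¬ ℓ ∣ N)
    (V : ValuationSubring ℂ) (hV : ((ℓ : ℂ))⁻¹ ∉ V) (tV : X0 N → LaurentSeries V)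
    (ht : ∀ x, HasExp atImInfty (qN N) (fun τ => cvec N (jD N) τ x) (iV V (tV x)))
    (hu : ∀ x y, x ≠ y → IsUnit (tV x - tV y))
    (B : (Zl ℓ)[X][X]) (hdeg : B.natDegree < Fintype.card (X0 N))
    (h : ∃ y ∈ OV V, eStd N (eval₂ (aeval (jFull N) : (Zl ℓ)[X] →ₐ[Zl ℓ] FF N).toRingHom
      (tFull N) B) = (ℓ : LaurentSeries ℂ) * y) :
    ∃ B' : (Zl ℓ)[X][X], B = C (C (ℓ : Zl ℓ)) * B' := by
  obtain ⟨_, ⟨y, rfl⟩, hy⟩ := h
  set n := Fintype.card (X0 N) with hn
  -- the expression over `V`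
  set G : LaurentSeries V :=
    ∑ i ∈ Finset.range n, evJ V N ((B.coeff i).map (zlV hV)) * tV (x0 N) ^ i with hG
  have h1 : eStd N (eval₂ (aeval (jFull N) : (Zl ℓ)[X] →ₐ[Zl ℓ] FF N).toRingHom (tFull N) B)
      = iV V G := by
    rw [eval₂_eq_sum_range' _ hdeg, map_sum, hG, map_sum]
    refine Finset.sum_congr rfl fun i _ => ?_
    rw [map_mul, map_mul, map_pow, map_pow, eStd_tFull_eq N V tV ht]
    congr 1
    exact eStd_aeval_jFull N hV _
  have h2 : G = (ℓ : LaurentSeries V) * y := by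
    apply iV_injective V
    rw [← h1, hy, map_mul, map_natCast]
  have h3 : redV V G = 0 := by
    rw [h2, map_mul, map_natCast, ← map_natCast (HahnSeries.C : kV V →+* LaurentSeries (kV V)),
      residue_natCast_eq_zero hV, map_zero, zero_mul]
  set β : Fin n → LaurentSeries (kV V) := fun i =>
    evJ (kV V) N (((B.coeff i).map (zlV hV)).map (IsLocalRing.residue V)) with hβ
  have h4 : ∑ i, β i * redV V (tV (x0 N)) ^ (i : ℕ) = 0 := by
    rw [← h3, hG, map_sum, Finset.sum_range]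
    refine Finset.sum_congr rfl fun i _ => ?_
    rw [map_mul, map_pow, redV_evJ]
  have h5 : β = 0 := by
    refine irr_k N ℓ hℓN V hV tV ht hu β (fun i => ?_) h4
    apply IntermediateField.algebra_adjoin_le_adjoin
    exact Polynomial.aeval_mem_adjoin_singleton _ _
  have h6 : ∀ i m, (ℓ : Zl ℓ) ∣ (B.coeff i).coeff m := by
    intro i m
    by_cases hi : i < n
    · have h7 : evJ (kV V) N (((B.coeff i).map (zlV hV)).map (IsLocalRing.residue V)) = 0 :=
        congrFun h5 ⟨i, hi⟩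
      have h8 := (transcendental_iff.1 (transcendental_JJ (kV V) N)) _ h7
      have h9 := congrArg (fun p => p.coeff m) h8
      simp only [coeff_map, coeff_zero] at h9
      exact residue_zlV_eq_zero hV _ h9
    · rw [coeff_eq_zero_of_natDegree_lt (lt_of_lt_of_le hdeg (not_lt.1 hi))]
      simp
  exact (C_dvd_iff_dvd_coeff _ _).2 fun i => (C_dvd_iff_dvd_coeff _ _).2 (h6 i)

end Fermat.Agent.S28Lib
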