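import Fermat.Agent.S28.Basic
import Fermat.Agent.S28.Val
import Fermat.Agent.S24.Charts
import Fermat.Agent.S24.Distinct

/-!
# S28 [E] : the conjugates of `t = j(Nτ)` have `V`-integral expansions with unit differences
-/

set_option autoImplicit false

open UpperHalfPlane hiding I
open ModularCurve ModularForm Polynomial Filter
open scoped MatrixGroups Manifold

namespace Fermat.Agent.S28Lib

open Fermat.Agent.S20Lib Fermat.Agent.S24Lib

/-! ### rotation over a general ring -/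

/-- `a_n ↦ c ^ n * a_n` -/
noncomputable def rotR {R : Type*} [CommRing R] (c : Rˣ) (x : LaurentSeries R) : LaurentSeries R :=
  ⟨fun n => ((c ^ n : Rˣ) : R) * x.coeff n, x.isPWO_support.mono (by
    intro n hn
    simp only [Function.mem_support, ne_eq] at hn ⊢
    intro h
    exact hn (by rw [h, mul_zero]))⟩

theorem rotR_coeff {R : Type*} [CommRing R] (c : Rˣ) (x : LaurentSeries R) (n : ℤ) :
    (rotR c x).coeff n = ((c ^ n : Rˣ) : R) * x.coeff n := rfl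

/-- the series `j(c u^m)` -/
noncomputable def tSer (R : Type*) [CommRing R] (m : ℕ) [NeZero m] (c : Rˣ) : LaurentSeries R :=
  qExpand R m (rotR c (jR R))

theorem tSer_congr (R : Type*) [CommRing R] {m m' : ℕ} [i : NeZero m] [i' : NeZero m']
    (h : m = m') (c : Rˣ) : tSer R m c = tSer R m' c := by
  subst h
  rfl

theorem tSer_coeff_neg (R : Type*) [CommRing R] (m : ℕ) [NeZero m] (c : Rˣ) :
    (tSer R m c).coeff (-(m : ℤ)) = ((c⁻¹ : Rˣ) : R) := by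
  have : -(m : ℤ) = (m : ℤ) * (-1) := by ring
  rw [this, tSer, qExpand_coeff_mul, rotR_coeff, coeff_jR_neg_one, mul_one, zpow_neg_one]

theorem tSer_coeff_of_lt (R : Type*) [CommRing R] (m : ℕ) [NeZero m] (c : Rˣ) {n : ℤ}
    (hn : n < -(m : ℤ)) : (tSer R m c).coeff n = 0 := by
  by_cases h : (m : ℤ) ∣ n
  · obtain ⟨k, rfl⟩ := h
    rw [tSer, qExpand_coeff_mul, rotR_coeff, coeff_jR_of_lt, mul_zero]
    have hm : (0 : ℤ) < m := by exact_mod_cast Nat.pos_of_ne_zero (NeZero.ne m)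
    nlinarith
  · exact qExpand_coeff_of_not_dvd m _ h

theorem iV_tSer (V : ValuationSubring ℂ) (m : ℕ) [NeZero m] (c : (↥V)ˣ) :
    iV V (tSer V m c) = qExpand ℂ m (rot (Units.map V.subtype.toMonoidHom c) (jR ℂ)) := by
  ext n
  rw [iV, coeffMap_coeff]
  by_cases h : (m : ℤ) ∣ n
  · obtain ⟨k, rfl⟩ := h
    rw [tSer, qExpand_coeff_mul, qExpand_coeff_mul, rotR_coeff, rot_coeff, map_mul,
      ← coeffMap_jR V.subtype, coeffMap_coeff]
    congr 1
    have h1 : ((Units.map V.subtype.toMonoidHom c : ℂˣ) : ℂ) ^ k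
        = (((Units.map V.subtype.toMonoidHom c) ^ k : ℂˣ) : ℂ) := by
      rw [Units.val_zpow_eq_zpow_val]
    rw [h1, ← map_zpow]
    rfl
  · rw [tSer, qExpand_coeff_of_not_dvd m _ h, qExpand_coeff_of_not_dvd m _ h, map_zero]

/-! ### a unit criterion -/

theorem isUnit_of_coeff {R : Type*} [CommRing R] [IsDomain R] (f : LaurentSeries R) (n : ℤ)
    (h1 : ∀ k < n, f.coeff k = 0) (h2 : IsUnit (f.coeff n)) : IsUnit f := by
  have hne : f.coeff n ≠ 0 := h2.ne_zero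
  have hf : f ≠ 0 := HahnSeries.ne_zero_of_coeff_ne_zero hne
  have hord : f.order = n := by
    apply le_antisymm
    · exact HahnSeries.order_le_of_coeff_ne_zero hne
    · by_contra h
      push Not at h
      exact hf (HahnSeries.coeff_order_eq_zero.mp (h1 _ h))
  rw [HahnSeries.isUnit_iff, HahnSeries.leadingCoeff_eq, hord]
  exact h2

/-! ### roots of unity in `V` -/

theorem mem_V_of_pow_eq_one (V : ValuationSubring ℂ) (ζ : ℂ) (n : ℕ) (hn : n ≠ 0)
    (h : ζ ^ n = 1) : ζ ∈ V :=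
  rootOfUnity_mem_V V ζ n (Nat.pos_of_ne_zero hn) h

/-- a root of unity as a unit of `V` -/
noncomputable def unitV (V : ValuationSubring ℂ) (ζ : ℂ) (n : ℕ) (hn : n ≠ 0) (h : ζ ^ n = 1) :
    (↥V)ˣ where
  val := ⟨ζ, mem_V_of_pow_eq_one V ζ n hn h⟩
  inv := ⟨ζ⁻¹, mem_V_of_pow_eq_one V ζ⁻¹ n hn (by rw [inv_pow, h, inv_one])⟩
  val_inv := by
    apply Subtype.ext
    have hζ : ζ ≠ 0 := by
      rintro rfl
      rw [zero_pow hn] at h
      exact zero_ne_one h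
    exact mul_inv_cancel₀ hζ
  inv_val := by
    apply Subtype.ext
    have hζ : ζ ≠ 0 := by
      rintro rfl
      rw [zero_pow hn] at h
      exact zero_ne_one h
    exact inv_mul_cancel₀ hζ

theorem coe_unitV (V : ValuationSubring ℂ) (ζ : ℂ) (n : ℕ) (hn : n ≠ 0) (h : ζ ^ n = 1) :
    ((unitV V ζ n hn h : ↥V) : ℂ) = ζ := rfl

theorem coe_inv_unitV (V : ValuationSubring ℂ) (ζ : ℂ) (n : ℕ) (hn : n ≠ 0) (h : ζ ^ n = 1) :
    ((((unitV V ζ n hn h)⁻¹ : (↥V)ˣ) : ↥V) : ℂ) = ζ⁻¹ := rfl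

/-! ### the expansions -/

theorem hasExp_jF_jR : HasExp atImInfty (qN 1) jF (jR ℂ) := by
  have h := hasExp_jD 1
  rwa [qExpand_one_apply, ← jR_rat, coeffMap_jR, jD_one] at h

/-- the expansion of `j((gτ + B)/D)` -/
theorem hasExp_jF_upper (N : ℕ) [NeZero N] (g B D : ℤ) (hgD : ((g : ℝ) * (D : ℝ)) ≠ 0)
    (hg : 0 < g) (hD : 0 < D) (hN : g * D = N) (m : ℕ) [NeZero m] (hm : (m : ℤ) = g * g)
    (c : ℂˣ) (hc : (c : ℂ) = Complex.exp (2 * Real.pi * Complex.I * B / D)) :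
    HasExp atImInfty (qN N) (fun τ => jF (upperTriangularGL g B D hgD • τ))
      (qExpand ℂ m (rot c (jR ℂ))) := by
  refine hasExp_jF_jR.comp (tendsto_upperTriangularGL_smul g B D hgD) c m
    (Eventually.of_forall fun τ => ?_)
  rw [qN_one_upper N g B D g hgD hg hD (by rw [mul_comm]; exact hN) τ, hc, ← hm, zpow_natCast]

theorem exp_pow_eq_one (N : ℕ) (g B D : ℤ) (hD : 0 < D) (hN : g * D = N) :
    Complex.exp (2 * Real.pi * Complex.I * B / D) ^ N = 1 := by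
  rw [← Complex.exp_nat_mul, Complex.exp_eq_one_iff]
  refine ⟨g * B, ?_⟩
  have hD' : (D : ℂ) ≠ 0 := by exact_mod_cast hD.ne'
  have hN' : (N : ℂ) = g * D := by exact_mod_cast hN.symm
  rw [hN']
  push_cast
  field_simp

/-- the data attached to a coset -/
theorem exists_data (N : ℕ) [NeZero N] (V : ValuationSubring ℂ) (γ : SL(2, ℤ)) :
    ∃ (m : ℕ) (_ : NeZero m) (c : (↥V)ˣ), ((c : ↥V) : ℂ) ^ N = 1 ∧
      HasExp atImInfty (qN N) (fun τ => jD N (γ • τ)) (iV V (tSer V m c)) := by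
  obtain ⟨g, B, D, hgD, hg, hD, hN, -, hj⟩ := jD_smul_eq N γ
  have hm0 : (g * g).toNat ≠ 0 := by
    have : 0 < g * g := mul_pos hg hg
    omega
  have hm : (((g * g).toNat : ℕ) : ℤ) = g * g := Int.toNat_of_nonneg (mul_pos hg hg).le
  have h1 := exp_pow_eq_one N g B D hD hN
  refine ⟨(g * g).toNat, ⟨hm0⟩, unitV V _ N (NeZero.ne N) h1, h1, ?_⟩
  have : NeZero (g * g).toNat := ⟨hm0⟩
  rw [iV_tSer]
  have h2 := hasExp_jF_upper N g B D hgD hg hD hN (g * g).toNat hm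
    (Units.map V.subtype.toMonoidHom (unitV V _ N (NeZero.ne N) h1)) rfl
  exact h2.congr (Eventually.of_forall fun τ => (hj τ).symm)

/-- equal expansions force equal cosets -/
theorem eq_of_hasExp (N : ℕ) [NeZero N] (x y : X0 N) (L : LaurentSeries ℂ)
    (hx : HasExp atImInfty (qN N) (fun τ => cvec N (jD N) τ x) L)
    (hy : HasExp atImInfty (qN N) (fun τ => cvec N (jD N) τ y) L) : x = y := by
  have h1 := hx.sub hy
  rw [sub_self] at h1
  have h2 := (HasExp.eq_zero_iff (isChart_infty N) h1).1 rfl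
  have h3 := ident_infty _ ((cvec_holo (jD_holo N) x).sub (cvec_holo (jD_holo N) y)) h2
  have h4 : ∀ τ, jD N ((x.out)⁻¹ • τ) = jD N ((y.out)⁻¹ • τ) := fun τ =>
    sub_eq_zero.1 (congrFun h3 τ)
  have h5 : (x.out)⁻¹ * y.out ∈ CongruenceSubgroup.Gamma0 N := by
    apply mem_Gamma0_of_jD_eq
    intro τ
    rw [mul_smul, h4, ← mul_smul, inv_mul_cancel, one_smul]
  rw [← QuotientGroup.out_eq' x, ← QuotientGroup.out_eq' y]
  exact QuotientGroup.eq.2 h5

theorem isUnit_tSer_sub_of_lt (V : ValuationSubring ℂ) (m m' : ℕ) [NeZero m] [NeZero m']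
    (c c' : (↥V)ˣ) (h : m' < m) : IsUnit (tSer V m c - tSer V m' c') := by
  refine isUnit_of_coeff _ (-(m : ℤ)) (fun k hk => ?_) ?_
  · rw [HahnSeries.coeff_sub, tSer_coeff_of_lt _ _ _ hk, tSer_coeff_of_lt _ _ _ (by omega), sub_zero]
  · rw [HahnSeries.coeff_sub, tSer_coeff_neg, tSer_coeff_of_lt _ _ _ (by omega), sub_zero]
    exact Units.isUnit _

theorem isUnit_tSer_sub_of_ne {ℓ : ℕ} [Fact ℓ.Prime] {V : ValuationSubring ℂ}
    (hV : ((ℓ : ℂ))⁻¹ ∉ V) (N : ℕ) (hN : ¬ ℓ ∣ N) (m : ℕ) [NeZero m]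
    (c c' : (↥V)ˣ) (hc : ((c : ↥V) : ℂ) ^ N = 1) (hc' : ((c' : ↥V) : ℂ) ^ N = 1) (h : c ≠ c') :
    IsUnit (tSer V m c - tSer V m c') := by
  refine isUnit_of_coeff _ (-(m : ℤ)) (fun k hk => ?_) ?_
  · rw [HahnSeries.coeff_sub, tSer_coeff_of_lt _ _ _ hk, tSer_coeff_of_lt _ _ _ hk, sub_zero]
  · rw [HahnSeries.coeff_sub, tSer_coeff_neg, tSer_coeff_neg]
    -- `c⁻¹ - c'⁻¹ = c⁻¹ (1 - c c'⁻¹)`
    set ζ : (↥V)ˣ := c * c'⁻¹ with hζ
    have h1 : ((c⁻¹ : (↥V)ˣ) : ↥V) - ((c'⁻¹ : (↥V)ˣ) : ↥V) = ((c⁻¹ : (↥V)ˣ) : ↥V) * (1 - (ζ : ↥V)) := by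
      rw [hζ, Units.val_mul, mul_sub, mul_one, ← mul_assoc, Units.inv_mul, one_mul]
    rw [h1]
    refine (Units.isUnit _).mul ?_
    have hζN : (((ζ : ↥V)) : ℂ) ^ N = 1 := by
      have h2 : (ζ : ↥V) ^ N = 1 := by
        have e1 : (c : ↥V) ^ N = 1 := Subtype.ext hc
        have e2 : (c' : ↥V) ^ N = 1 := Subtype.ext hc'
        have e3 : c ^ N = 1 := Units.ext (by rw [Units.val_pow_eq_pow_val, e1]; rfl)
        have e4 : c' ^ N = 1 := Units.ext (by rw [Units.val_pow_eq_pow_val, e2]; rfl)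
        have e5 : ζ ^ N = 1 := by rw [hζ, mul_pow, inv_pow, e3, e4, inv_one, one_mul]
        rw [← Units.val_pow_eq_pow_val, e5]
        rfl
      exact congrArg Subtype.val h2
    have hζ1 : (((ζ : ↥V)) : ℂ) ≠ 1 := by
      intro h3
      apply h
      have h4 : ζ = 1 := Units.ext (Subtype.ext h3)
      rw [hζ] at h4
      exact mul_inv_eq_one.1 h4
    have h5 := one_sub_inv_mem_V hV N hN _ hζN hζ1
    have hne : (1 : ℂ) - ((ζ : ↥V) : ℂ) ≠ 0 := sub_ne_zero.2 (Ne.symm hζ1)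
    refine IsUnit.of_mul_eq_one (⟨_, h5⟩ : ↥V) (Subtype.ext ?_)
    exact mul_inv_cancel₀ hne

/-- [E] -/
theorem exists_tV (N : ℕ) [NeZero N] (ℓ : ℕ) [Fact ℓ.Prime] (hℓN : ¬ ℓ ∣ N)
    (V : ValuationSubring ℂ) (hV : ((ℓ : ℂ))⁻¹ ∉ V) :
    ∃ tV : X0 N → LaurentSeries V,
      (∀ x, HasExp atImInfty (qN N) (fun τ => cvec N (jD N) τ x) (iV V (tV x))) ∧
      ∀ x y, x ≠ y → IsUnit (tV x - tV y) := by
  choose m hm c hc hexp using fun x : X0 N => exists_data N V ((x.out)⁻¹)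
  refine ⟨fun x => @tSer V _ (m x) (hm x) (c x), hexp, fun x y hxy => ?_⟩
  have := hm x
  have := hm y
  show IsUnit (tSer V (m x) (c x) - tSer V (m y) (c y))
  rcases lt_trichotomy (m x) (m y) with h | h | h
  · have h1 := isUnit_tSer_sub_of_lt V (m y) (m x) (c y) (c x) h
    rw [← neg_sub]
    exact h1.neg
  · by_cases hcc : c x = c y
    · exfalso
      apply hxy
      refine eq_of_hasExp N x y _ (hexp x) ?_
      rw [hcc, tSer_congr V h]
      exact hexp y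
    · rw [← tSer_congr V h]
      exact isUnit_tSer_sub_of_ne hV N hℓN (m x) (c x) (c y) (hc x) (hc y) hcc
  · exact isUnit_tSer_sub_of_lt V (m x) (m y) (c x) (c y) h

end Fermat.Agent.S28Lib
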