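import Fermat.Agent.S28.Defs
import Fermat.Agent.S24.JExp

/-!
# S28 : basic compatibilities (`coeffMap`, `JJ`, `evJ`, `pol1`, `pol2`, `eStd`)
-/

set_option autoImplicit false
set_option linter.unusedSectionVars false

open UpperHalfPlane hiding I
open ModularCurve ModularCurve.IgusaScheme Polynomial
open scoped MatrixGroups

namespace Fermat.Agent.S28Lib

open Fermat.Agent.S20Lib Fermat.Agent.S24Lib

section coeffMap

variable {R S : Type*} [CommRing R] [CommRing S] (f : R →+* S)

theorem coeffMap_ofPowerSeries_intCast (p : PowerSeries ℤ) :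
    coeffMap f (HahnSeries.ofPowerSeries ℤ R (p.map (Int.castRingHom R))) =
      HahnSeries.ofPowerSeries ℤ S (p.map (Int.castRingHom S)) := by
  ext n
  rw [coeffMap_coeff]
  rcases lt_or_ge n 0 with hn | hn
  · rw [ofPowerSeries_coeff_of_neg _ hn, ofPowerSeries_coeff_of_neg _ hn, map_zero]
  · obtain ⟨m, rfl⟩ := Int.eq_ofNat_of_zero_le hn
    rw [HahnSeries.ofPowerSeries_apply_coeff, HahnSeries.ofPowerSeries_apply_coeff]
    simp

theorem coeffMap_jR : coeffMap f (jR R) = jR S := by
  rw [jR, jR, map_mul, coeffMap_single, map_one, coeffMap_ofPowerSeries_intCast]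

theorem coeffMap_dR : coeffMap f (dR R) = dR S := by
  rw [dR, dR, map_mul, coeffMap_single, map_one, coeffMap_ofPowerSeries_intCast]

theorem coeffMap_JJ (N : ℕ) [NeZero N] : coeffMap f (JJ R N) = JJ S N := by
  rw [JJ, JJ, coeffMap_qExpand, coeffMap_jR]

theorem coeffMap_C (r : R) : coeffMap f (HahnSeries.C r) = HahnSeries.C (f r) :=
  coeffMap_single f 0 r

theorem algebraMap_eq_C (r : R) : algebraMap R (LaurentSeries R) r = HahnSeries.C r := by
  have h1 : algebraMap R (PowerSeries R) r = PowerSeries.C r := by simp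
  rw [HahnSeries.algebraMap_apply', h1, HahnSeries.ofPowerSeries_C]

theorem coeffMap_evJ (N : ℕ) [NeZero N] (p : R[X]) :
    coeffMap f (evJ R N p) = evJ S N (p.map f) := by
  simp only [evJ, AlgHom.toRingHom_eq_coe, RingHom.coe_coe]
  induction p using Polynomial.induction_on' with
  | add p q hp hq => simp [hp, hq]
  | monomial n a =>
    rw [aeval_monomial, map_mul, map_pow, coeffMap_JJ, algebraMap_eq_C, coeffMap_C,
      Polynomial.map_monomial, aeval_monomial, algebraMap_eq_C]

theorem coeffMap_comp_evJ (N : ℕ) [NeZero N] :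
    (coeffMap f).comp (evJ R N) = (evJ S N).comp (Polynomial.mapRingHom f) :=
  RingHom.ext fun p => coeffMap_evJ f N p

end coeffMap

theorem jR_rat : jR ℚ = jq := rfl

section JJ

variable (R : Type*) [CommRing R] (N : ℕ) [NeZero N]

theorem coeff_jR_neg_one : (jR R).coeff (-1) = 1 := by
  have h := congrArg (fun x => x.coeff (-1)) (coeffMap_jR (Int.castRingHom R))
  have h2 := congrArg (fun x => x.coeff (-1)) (coeffMap_jR (Int.castRingHom ℚ))
  simp only [coeffMap_coeff, jR_rat, coeff_jq_neg_one] at h h2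
  have h3 : (jR ℤ).coeff (-1) = 1 := by
    have : (((jR ℤ).coeff (-1) : ℤ) : ℚ) = 1 := h2
    exact_mod_cast this
  rw [← h, h3]
  simp

theorem coeff_jR_of_lt {n : ℤ} (hn : n < -1) : (jR R).coeff n = 0 := by
  rw [jR, HahnSeries.coeff_single_mul, one_mul]
  exact ofPowerSeries_coeff_of_neg _ (by omega)

theorem coeff_JJ_neg : (JJ R N).coeff (-(N : ℤ)) = 1 := by
  have : -(N : ℤ) = (N : ℤ) * (-1) := by ring
  rw [this, JJ, qExpand_coeff_mul, coeff_jR_neg_one]

theorem coeff_JJ_of_lt {n : ℤ} (hn : n < -(N : ℤ)) : (JJ R N).coeff n = 0 := by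
  by_cases h : (N : ℤ) ∣ n
  · obtain ⟨m, rfl⟩ := h
    rw [JJ, qExpand_coeff_mul]
    apply coeff_jR_of_lt
    have hN : (0 : ℤ) < N := by exact_mod_cast Nat.pos_of_ne_zero (NeZero.ne N)
    nlinarith
  · exact qExpand_coeff_of_not_dvd N _ h

theorem JJ_ne_zero [Nontrivial R] : JJ R N ≠ 0 := fun h => by
  have := coeff_JJ_neg R N
  rw [h] at this
  simp at this

theorem order_JJ [Nontrivial R] : (JJ R N).order = -(N : ℤ) := by
  apply le_antisymm
  · exact HahnSeries.order_le_of_coeff_ne_zero (by rw [coeff_JJ_neg]; exact one_ne_zero)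
  · by_contra h
    push Not at h
    have := coeff_JJ_of_lt R N h
    exact JJ_ne_zero R N (HahnSeries.coeff_order_eq_zero.mp this)

theorem leadingCoeff_JJ [Nontrivial R] : (JJ R N).leadingCoeff = 1 := by
  rw [HahnSeries.leadingCoeff_eq, order_JJ, coeff_JJ_neg]

theorem isUnit_JJ [IsDomain R] : IsUnit (JJ R N) := by
  rw [HahnSeries.isUnit_iff, leadingCoeff_JJ]
  exact isUnit_one

end JJ

section pol

variable {R S X : Type*} [CommRing R] [CommRing S] [Fintype X] [DecidableEq X]

theorem pol1_map (f : R →+* S) (a : X → R) : (pol1 a).map f = pol1 (fun x => f (a x)) := by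
  simp [pol1, Polynomial.map_prod]

theorem pol2_map (f : R →+* S) (a b : X → R) :
    (pol2 a b).map f = pol2 (fun x => f (a x)) (fun x => f (b x)) := by
  simp [pol2, Polynomial.map_sum, Polynomial.map_prod]

theorem pol1_comp_equiv (π : X ≃ X) (a : X → R) : pol1 (fun x => a (π x)) = pol1 a :=
  Equiv.prod_comp π (fun x => (Polynomial.X - C (a x)))

theorem pol2_comp_equiv (π : X ≃ X) (a b : X → R) :
    pol2 (fun x => a (π x)) (fun x => b (π x)) = pol2 a b := by
  unfold pol2
  rw [← Equiv.sum_comp π (fun x => C (b x) * ∏ y ∈ Finset.univ.erase x, (Polynomial.X - C (a y)))]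
  refine Finset.sum_congr rfl fun x _ => ?_
  congr 1
  refine Finset.prod_bij (fun y _ => π y) ?_ ?_ ?_ ?_
  · intro y hy
    simp only [Finset.mem_erase, Finset.mem_univ, and_true] at hy ⊢
    exact fun h => hy (π.injective h)
  · intro y _ z _ h
    exact π.injective h
  · intro z hz
    refine ⟨π.symm z, ?_, by simp⟩
    simp only [Finset.mem_erase, Finset.mem_univ, and_true] at hz ⊢
    intro h
    apply hz
    rw [← h]
    simp
  · intro y _
    rfl

theorem monic_pol1 (a : X → R) : (pol1 a).Monic :=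
  monic_prod_of_monic _ _ fun x _ => monic_X_sub_C (a x)

theorem natDegree_pol1 [Nontrivial R] (a : X → R) : (pol1 a).natDegree = Fintype.card X := by
  rw [pol1, natDegree_prod_of_monic _ _ fun x _ => monic_X_sub_C (a x)]
  simp

theorem eval_pol1 (a : X → R) (x : X) : (pol1 a).eval (a x) = 0 := by
  rw [pol1, eval_prod]
  exact Finset.prod_eq_zero (Finset.mem_univ x) (by simp)

theorem eval_pol2 (a b : X → R) (x : X) :
    (pol2 a b).eval (a x) = b x * ∏ y ∈ Finset.univ.erase x, (a x - a y) := by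
  rw [pol2, eval_finsetSum, Finset.sum_eq_single x]
  · simp [eval_prod]
  · intro z _ hz
    rw [eval_mul, eval_prod, Finset.prod_eq_zero (i := x)]
    · simp
    · simp [hz.symm]
    · simp
  · simp

theorem derivative_pol1 (a : X → R) : derivative (pol1 a) = pol2 a (fun _ => 1) := by
  rw [pol1, derivative_prod_finset, pol2]
  simp

theorem eval_derivative_pol1 (a : X → R) (x : X) :
    (derivative (pol1 a)).eval (a x) = ∏ y ∈ Finset.univ.erase x, (a x - a y) := by
  rw [derivative_pol1, eval_pol2, one_mul]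

end pol

section eStd

variable (N : ℕ) [NeZero N]

theorem eStd_apply (a : FF N) :
    eStd N a = qExpand ℂ N (coeffMap (algebraMap ℚ ℂ) (a : LaurentSeries ℚ)) := rfl

theorem eStd_jFull : eStd N (jFull N) = JJ ℂ N := by
  rw [eStd_apply, coe_jFull, ← jR_rat, coeffMap_jR, JJ]

theorem eStd_coeff_mul (a : FF N) (n : ℤ) :
    (eStd N a).coeff ((N : ℤ) * n) = (((a : LaurentSeries ℚ).coeff n : ℚ) : ℂ) := by
  rw [eStd_apply, qExpand_coeff_mul, coeffMap_coeff]
  rfl

theorem eStd_coeff_of_not_dvd (a : FF N) {n : ℤ} (hn : ¬ (N : ℤ) ∣ n) :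
    (eStd N a).coeff n = 0 := by
  rw [eStd_apply]
  exact qExpand_coeff_of_not_dvd N _ hn

theorem eStd_injective : Function.Injective (eStd N) := (eStd N).injective

end eStd

theorem iV_JJ (V : ValuationSubring ℂ) (N : ℕ) [NeZero N] : iV V (JJ V N) = JJ ℂ N :=
  coeffMap_JJ _ N

theorem redV_JJ (V : ValuationSubring ℂ) (N : ℕ) [NeZero N] : redV V (JJ V N) = JJ (kV V) N :=
  coeffMap_JJ _ N

theorem iV_evJ (V : ValuationSubring ℂ) (N : ℕ) [NeZero N] (p : (↥V)[X]) :
    iV V (evJ V N p) = evJ ℂ N (p.map V.subtype) :=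
  coeffMap_evJ _ N p

theorem redV_evJ (V : ValuationSubring ℂ) (N : ℕ) [NeZero N] (p : (↥V)[X]) :
    redV V (evJ V N p) = evJ (kV V) N (p.map (IsLocalRing.residue V)) :=
  coeffMap_evJ _ N p

end Fermat.Agent.S28Lib
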