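import Fermat.Agent.S28.ZlBasic

/-!
# S28 [ALG0] : `ℤ_(ℓ)` is a discrete valuation ring
-/

set_option autoImplicit false

open Polynomial GaloisRep

namespace Fermat.Agent.S28Lib

variable (ℓ : ℕ) [Fact ℓ.Prime]

theorem padicValRat_nonneg_of_mem {q : ℚ} (hq : q ∈ ratLocalizedAt ℓ) : 0 ≤ padicValRat ℓ q := by
  have hℓ : ℓ.Prime := Fact.out
  rw [padicValRat_def]
  have : padicValNat ℓ q.den = 0 := by
    apply padicValNat.eq_zero_of_not_dvd
    intro h
    have h1 : q.den.Coprime ℓ := hq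
    exact (hℓ.coprime_iff_not_dvd.mp h1.symm) h
  rw [this]
  simp

theorem natCast_ne_zero_Zl : ((ℓ : ℕ) : ratLocalizedAt ℓ) ≠ 0 := by
  have hℓ : ℓ.Prime := Fact.out
  intro h
  have := congrArg (Subtype.val) h
  simp at this
  exact hℓ.ne_zero this

theorem not_isUnit_natCast_Zl : ¬ IsUnit ((ℓ : ℕ) : ratLocalizedAt ℓ) := by
  have hℓ : ℓ.Prime := Fact.out
  intro hunit
  obtain ⟨v, huv⟩ := hunit.exists_right_inv
  have h1 : (ℓ : ℚ) * (v : ℚ) = 1 := by
    have := congrArg Subtype.val huv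
    simpa using this
  have hv0 : (v : ℚ) ≠ 0 := by
    intro h; rw [h] at h1; simp at h1
  have hℓ0 : (ℓ : ℚ) ≠ 0 := by exact_mod_cast hℓ.ne_zero
  have h2 := padicValRat.mul (p := ℓ) hℓ0 hv0
  rw [h1, padicValRat.one, padicValRat.self hℓ.one_lt] at h2
  have := padicValRat_nonneg_of_mem ℓ v.2
  omega

theorem associated_pow_Zl (n : ℕ) : ∀ x : ratLocalizedAt ℓ, x ≠ 0 → padicValRat ℓ (x : ℚ) = n →
    Associated (((ℓ : ℕ) : ratLocalizedAt ℓ) ^ n) x := by
  have hℓ : ℓ.Prime := Fact.out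
  have hℓ0 : (ℓ : ℚ) ≠ 0 := by exact_mod_cast hℓ.ne_zero
  induction n with
  | zero =>
    intro x hx hv
    rcases isUnit_or_dvd ℓ x with hu | ⟨y, rfl⟩
    · rw [pow_zero]
      exact (associated_one_iff_isUnit.mpr hu).symm
    · exfalso
      have hy0 : (y : ℚ) ≠ 0 := by
        intro h
        apply hx
        have : y = 0 := Subtype.ext h
        rw [this, mul_zero]
      have h2 := padicValRat.mul (p := ℓ) hℓ0 hy0
      have h3 : (((ℓ : ratLocalizedAt ℓ) * y : ratLocalizedAt ℓ) : ℚ) = (ℓ : ℚ) * (y : ℚ) := by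
        simp
      rw [h3, h2, padicValRat.self hℓ.one_lt] at hv
      have := padicValRat_nonneg_of_mem ℓ y.2
      push_cast at hv
      omega
  | succ n ih =>
    intro x hx hv
    rcases isUnit_or_dvd ℓ x with hu | ⟨y, rfl⟩
    · exfalso
      obtain ⟨v, huv⟩ := hu.exists_right_inv
      set u := x
      have h1 : (u : ℚ) * (v : ℚ) = 1 := by
        have := congrArg Subtype.val huv
        simpa using this
      have hu0 : (u : ℚ) ≠ 0 := by
        intro h; rw [h] at h1; simp at h1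
      have hv0 : (v : ℚ) ≠ 0 := by
        intro h; rw [h] at h1; simp at h1
      have h2 := padicValRat.mul (p := ℓ) hu0 hv0
      rw [h1, padicValRat.one, hv] at h2
      have := padicValRat_nonneg_of_mem ℓ v.2
      push_cast at h2
      omega
    · have hy : y ≠ 0 := by
        rintro rfl
        simp at hx
      have hy0 : (y : ℚ) ≠ 0 := fun h => hy (Subtype.ext h)
      have h2 := padicValRat.mul (p := ℓ) hℓ0 hy0
      have h3 : (((ℓ : ratLocalizedAt ℓ) * y : ratLocalizedAt ℓ) : ℚ) = (ℓ : ℚ) * (y : ℚ) := by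
        simp
      rw [h3, h2, padicValRat.self hℓ.one_lt] at hv
      have h4 : padicValRat ℓ (y : ℚ) = n := by
        push_cast at hv
        omega
      rw [pow_succ']
      exact (ih y hy h4).mul_left _

theorem irreducible_natCast_Zl : Irreducible ((ℓ : ℕ) : ratLocalizedAt ℓ) := by
  refine ⟨not_isUnit_natCast_Zl ℓ, ?_⟩
  intro a b hab
  rcases isUnit_or_dvd ℓ a with hu | ⟨a', rfl⟩
  · exact Or.inl hu
  · right
    have h0 := natCast_ne_zero_Zl ℓ
    have : ((ℓ : ℕ) : ratLocalizedAt ℓ) * 1 = (ℓ : ratLocalizedAt ℓ) * (a' * b) := by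
      rw [mul_one, ← mul_assoc]; exact hab
    have h1 := mul_left_cancel₀ h0 this
    exact IsUnit.of_mul_eq_one a' (by rw [mul_comm]; exact h1.symm)

theorem isDiscreteValuationRing_Zl : IsDiscreteValuationRing (ratLocalizedAt ℓ) := by
  apply IsDiscreteValuationRing.ofHasUnitMulPowIrreducibleFactorization
  refine ⟨((ℓ : ℕ) : ratLocalizedAt ℓ), irreducible_natCast_Zl ℓ, ?_⟩
  intro x hx
  have h := padicValRat_nonneg_of_mem ℓ x.2
  obtain ⟨n, hn⟩ := Int.eq_ofNat_of_zero_le h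
  exact ⟨n, associated_pow_Zl ℓ n x hx hn⟩

theorem isPrincipalIdealRing_Zl : IsPrincipalIdealRing (ratLocalizedAt ℓ) :=
  haveI := isDiscreteValuationRing_Zl ℓ
  inferInstance

theorem isIntegrallyClosed_ZlX : IsIntegrallyClosed (ratLocalizedAt ℓ)[X] :=
  haveI := isDiscreteValuationRing_Zl ℓ
  inferInstance

theorem isNoetherianRing_ZlX : IsNoetherianRing (ratLocalizedAt ℓ)[X] :=
  haveI := isDiscreteValuationRing_Zl ℓ
  inferInstance

theorem prime_natCast_Zl : Prime ((ℓ : ℕ) : ratLocalizedAt ℓ) :=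
  haveI := isDiscreteValuationRing_Zl ℓ
  (irreducible_natCast_Zl ℓ).prime

end Fermat.Agent.S28Lib
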