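import Fermat.Agent.S28.Defs
import Fermat.Agent.S28.ZlAlg

/-!
# S28 : LEMMA (N)
-/

set_option autoImplicit false
set_option linter.unusedSectionVars false

open Polynomial ModularCurve ModularCurve.IgusaScheme

namespace Fermat.Agent.S28Lib

section abs

variable {R F : Type*} [CommRing R] [IsDomain R] [IsIntegrallyClosed R] [Field F] [Algebra R F]
  [Module.IsTorsionFree R F]

theorem normal_coeff (K : Type*) [Field K] [Algebra R K] [IsFractionRing R K] [Algebra K F]
    [IsScalarTower R K F] (b : F) (hb : IsIntegral K b) (r : R) (hr : r ≠ 0)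
    (h : IsIntegral R (r • b)) (i : ℕ) :
    ∃ u : R, (minpoly K b).coeff i * algebraMap R K r ^ ((minpoly K b).natDegree - i)
      = algebraMap R K u := by
  have hr' : algebraMap R K r ≠ 0 := by
    simpa using (map_ne_zero_iff _ (IsFractionRing.injective R K)).mpr hr
  have h1 : minpoly K (r • b) = (minpoly R (r • b)).map (algebraMap R K) :=
    minpoly.isIntegrallyClosed_eq_field_fractions' K h
  have h2 : minpoly K (algebraMap R K r • b) = (minpoly K b).scaleRoots (algebraMap R K r) :=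
    IsIntegrallyClosed.minpoly_smul hr' hb
  rw [algebraMap_smul] at h2
  refine ⟨(minpoly R (r • b)).coeff i, ?_⟩
  rw [← coeff_map, ← h1, h2, coeff_scaleRoots]

theorem isIntegral_of_smul (p g : R) (hp : Prime p) (hg : ¬ p ∣ g) (b : F)
    (h1 : IsIntegral R (p • b)) (h2 : IsIntegral R (g • b)) : IsIntegral R b := by
  let K := FractionRing R
  let _ : Algebra K F := FractionRing.liftAlgebra R F
  have : IsScalarTower R K F := FractionRing.isScalarTower_liftAlgebra _ _
  have hp0 : p ≠ 0 := hp.ne_zero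
  have hg0 : g ≠ 0 := fun h => hg (h ▸ dvd_zero p)
  have hinjK : Function.Injective (algebraMap R K) := IsFractionRing.injective R K
  have hpK : algebraMap R K p ≠ 0 := (map_ne_zero_iff _ hinjK).mpr hp0
  have hb : IsIntegral K b := by
    have h3 : IsIntegral K (p • b) := h1.tower_top
    have h4 := h3.smul ((algebraMap R K p)⁻¹)
    rwa [← algebraMap_smul K p b, smul_smul, inv_mul_cancel₀ hpK, one_smul] at h4
  set m := minpoly K b with hm
  have hcoeff : ∀ i, m.coeff i ∈ (algebraMap R K).range := by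
    intro i
    obtain ⟨u, hu⟩ := normal_coeff K b hb p hp0 h1 i
    obtain ⟨v, hv⟩ := normal_coeff K b hb g hg0 h2 i
    set e := m.natDegree - i with he
    have h5 : u * g ^ e = v * p ^ e := by
      apply hinjK
      rw [map_mul, map_mul, map_pow, map_pow, ← hu, ← hv]
      ring
    have h6 : p ^ e ∣ u := by
      apply hp.pow_dvd_of_dvd_mul_right e (b := g ^ e) (fun h => hg (hp.dvd_of_dvd_pow h))
      rw [h5]
      exact dvd_mul_left _ _
    obtain ⟨u', hu'⟩ := h6
    refine ⟨u', ?_⟩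
    have h7 : algebraMap R K p ^ e ≠ 0 := pow_ne_zero _ hpK
    apply mul_right_cancel₀ h7
    rw [hu, hu', map_mul, map_pow, mul_comm]
  have hlifts : m ∈ lifts (algebraMap R K) := (lifts_iff_coeff_lifts m).mpr hcoeff
  obtain ⟨m₀, hm₀, -, hmon⟩ := lifts_and_natDegree_eq_and_monic hlifts (minpoly.monic hb)
  refine ⟨m₀, hmon, ?_⟩
  have : eval₂ (algebraMap R F) b m₀ = aeval b (m₀.map (algebraMap R K)) := by
    rw [aeval_def, eval₂_map, ← IsScalarTower.algebraMap_eq]
  rw [this, hm₀, hm, minpoly.aeval]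

end abs

section conc

variable (N : ℕ) [NeZero N] (ℓ : ℕ) [Fact ℓ.Prime]

/-- `ℤ_(ℓ)[X] → ℤ_(ℓ)[s]` -/
noncomputable def normToAdjoin (s : FF N) : (Zl ℓ)[X] →+* Algebra.adjoin (Zl ℓ) {s} :=
  ((aeval s : (Zl ℓ)[X] →ₐ[Zl ℓ] FF N).codRestrict (Algebra.adjoin (Zl ℓ) {s})
    (fun _ => aeval_mem_adjoin_singleton _ _)).toRingHom

theorem normToAdjoin_surjective (s : FF N) : Function.Surjective (normToAdjoin N ℓ s) := by
  rintro ⟨y, hy⟩
  rw [Algebra.adjoin_singleton_eq_range_aeval] at hy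
  obtain ⟨q, rfl⟩ := hy
  exact ⟨q, rfl⟩

theorem algebraMap_comp_normToAdjoin (s : FF N) :
    (algebraMap (Algebra.adjoin (Zl ℓ) {s}) (FF N)).comp (normToAdjoin N ℓ s) =
      (aeval s : (Zl ℓ)[X] →ₐ[Zl ℓ] FF N).toRingHom := rfl

/-- membership in the chart `chartAlg {s}` is integrality over `ℤ_(ℓ)[X]`, `X ↦ s` -/
theorem mem_chartAlg_singleton_iff (s x : FF N) :
    x ∈ chartAlg N ℓ {s} ↔ (aeval s : (Zl ℓ)[X] →ₐ[Zl ℓ] FF N).toRingHom.IsIntegralElem x := by
  rw [mem_chartAlg_iff]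
  constructor
  · rintro ⟨p, hmon, hroot⟩
    have hl : p ∈ lifts (normToAdjoin N ℓ s) :=
      (lifts_iff_coeff_lifts p).mpr fun n => normToAdjoin_surjective N ℓ s _
    obtain ⟨q, hq, -, hqmon⟩ := lifts_and_natDegree_eq_and_monic hl hmon
    refine ⟨q, hqmon, ?_⟩
    rw [← algebraMap_comp_normToAdjoin, ← eval₂_map, hq, hroot]
  · rintro ⟨q, hqmon, hroot⟩
    refine ⟨q.map (normToAdjoin N ℓ s), hqmon.map _, ?_⟩
    rw [eval₂_map, algebraMap_comp_normToAdjoin, hroot]

/-- **LEMMA (N)** -/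
theorem mem_chartAlg_of_mul_mem (s : FF N) (hs : Transcendental (Zl ℓ) s) (b : FF N)
    (g : (Zl ℓ)[X]) (hg : ¬ (C (ℓ : Zl ℓ) ∣ g)) (h1 : (ℓ : FF N) * b ∈ chartAlg N ℓ {s})
    (h2 : aeval s g * b ∈ chartAlg N ℓ {s}) : b ∈ chartAlg N ℓ {s} := by
  rw [mem_chartAlg_singleton_iff] at h1 h2 ⊢
  let _ : Algebra (Zl ℓ)[X] (FF N) := (aeval s : (Zl ℓ)[X] →ₐ[Zl ℓ] FF N).toRingHom.toAlgebra
  have hinj : Function.Injective (algebraMap (Zl ℓ)[X] (FF N)) :=
    transcendental_iff_injective.mp hs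
  have : Module.IsTorsionFree (Zl ℓ)[X] (FF N) :=
    Module.isTorsionFree_iff_algebraMap_injective.mpr hinj
  have : IsIntegrallyClosed (Zl ℓ)[X] := isIntegrallyClosed_ZlX ℓ
  have hp : Prime (C (ℓ : Zl ℓ)) := prime_C_iff.mpr (prime_natCast_Zl ℓ)
  have e1 : (C (ℓ : Zl ℓ) : (Zl ℓ)[X]) • b = (ℓ : FF N) * b := by
    rw [Algebra.smul_def]
    congr 1
    show aeval s (C (ℓ : Zl ℓ)) = _
    rw [aeval_C, map_natCast]
  have e2 : g • b = aeval s g * b := by
    rw [Algebra.smul_def]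
    rfl
  exact isIntegral_of_smul (C (ℓ : Zl ℓ)) g hp hg b (by rw [e1]; exact h1) (by rw [e2]; exact h2)

end conc

end Fermat.Agent.S28Lib
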