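import Fermat.Agent.S28.Reduce
import Fermat.Agent.S28.Basic
import Fermat.Agent.S28.Normal
import Fermat.Agent.S24.DegreeAlg

/-!
# S28 [CHART] : the `q`-expansion principle for the charts `Mid` and `Inf` follows from `Fin`
-/

set_option autoImplicit false
set_option linter.unusedSectionVars false

open Polynomial ModularCurve ModularCurve.IgusaScheme GaloisRep

namespace Fermat.Agent.S28Lib

variable (N : ℕ) [NeZero N] (ℓ : ℕ) [Fact ℓ.Prime]

/-! ### series with coefficients in `ℤ_(ℓ)` -/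

theorem chart_jq_mem : jq ∈ (zlIncl ℓ).range :=
  ⟨jR (ratLocalizedAt ℓ), by rw [zlIncl, coeffMap_jR]; rfl⟩

theorem chart_jq_inv_mem : jq⁻¹ ∈ (zlIncl ℓ).range := by
  have hu : IsUnit (jR (ratLocalizedAt ℓ)) := by
    have := isUnit_JJ (R := ratLocalizedAt ℓ) (N := 1)
    rwa [JJ, qExpand_one_apply] at this
  obtain ⟨u, hu⟩ := hu
  refine ⟨((u⁻¹ : (LaurentSeries (ratLocalizedAt ℓ))ˣ) : LaurentSeries (ratLocalizedAt ℓ)), ?_⟩
  have h1 : zlIncl ℓ (jR (ratLocalizedAt ℓ)) = jq := by rw [zlIncl, coeffMap_jR]; rfl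
  have h2 : zlIncl ℓ ((u⁻¹ : (LaurentSeries (ratLocalizedAt ℓ))ˣ) : LaurentSeries (ratLocalizedAt ℓ))
      * jq = 1 := by
    rw [← h1, ← hu, ← map_mul, Units.inv_mul, map_one]
  exact eq_inv_of_mul_eq_one_left h2

/-- divisibility of all the coefficients by `ℓ` -/
theorem chart_dvd_iff (x : LaurentSeries ℚ) :
    (∀ n : ℤ, ∃ b ∈ ratLocalizedAt ℓ, x.coeff n = ℓ * b) ↔
      ((ℓ : ℚ)⁻¹ • x) ∈ (zlIncl ℓ).range := by
  have hℓ : (ℓ : ℚ) ≠ 0 := by exact_mod_cast (Fact.out : ℓ.Prime).ne_zero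
  rw [mem_range_zlIncl_iff]
  constructor
  · intro h n
    obtain ⟨b, hb, hx⟩ := h n
    rw [HahnSeries.coeff_smul, hx, smul_eq_mul, inv_mul_cancel_left₀ hℓ]
    exact hb
  · intro h n
    refine ⟨_, h n, ?_⟩
    rw [HahnSeries.coeff_smul, smul_eq_mul, mul_inv_cancel_left₀ hℓ]

theorem chart_dvd_mul {z x : LaurentSeries ℚ} (hz : z ∈ (zlIncl ℓ).range)
    (hx : ∀ n : ℤ, ∃ b ∈ ratLocalizedAt ℓ, x.coeff n = ℓ * b) :
    ∀ n : ℤ, ∃ b ∈ ratLocalizedAt ℓ, (z * x).coeff n = ℓ * b := by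
  rw [chart_dvd_iff] at hx ⊢
  rw [← mul_smul_comm]
  exact mul_mem hz hx

/-! ### `Mid` -/

theorem chart_exists_pow_fin {a : FF N} (ha : a ∈ chartAlgMid N ℓ) :
    ∃ n : ℕ, (jFull N) ^ n * a ∈ chartAlgFin N ℓ := by
  have hz : a ∈ chartAlg N ℓ (insert (jFull N)⁻¹ {jFull N}) := by
    rw [show insert (jFull N)⁻¹ ({jFull N} : Set (FF N)) = {jFull N, (jFull N)⁻¹}
      from Set.pair_comm _ _]
    exact ha
  exact exists_pow_mul_mem_chartAlg (Set.mem_singleton _) (jFull_ne_zero N) hz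

theorem chart_exists_pow_inf {a : FF N} (ha : a ∈ chartAlgMid N ℓ) :
    ∃ n : ℕ, (jFull N)⁻¹ ^ n * a ∈ chartAlgInf N ℓ := by
  have hz : a ∈ chartAlg N ℓ (insert (jFull N)⁻¹⁻¹ {(jFull N)⁻¹}) := by
    rw [inv_inv]; exact ha
  exact exists_pow_mul_mem_chartAlg (Set.mem_singleton _) (inv_ne_zero (jFull_ne_zero N)) hz

theorem chart_coe_pow_mul (n : ℕ) (a : FF N) :
    (((jFull N) ^ n * a : FF N) : LaurentSeries ℚ) = jq ^ n * (a : LaurentSeries ℚ) := rfl

theorem isQEP_mid (hFin : IsQEP N ℓ (chartAlgFin N ℓ)) : IsQEP N ℓ (chartAlgMid N ℓ) where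
  integral := by
    intro a ha
    obtain ⟨n, hn⟩ := chart_exists_pow_fin N ℓ ha
    have h1 := (mem_range_zlIncl_iff ℓ _).mpr (hFin.integral _ hn)
    rw [chart_coe_pow_mul] at h1
    rw [← mem_range_zlIncl_iff]
    have h2 : (a : LaurentSeries ℚ) = jq⁻¹ ^ n * (jq ^ n * (a : LaurentSeries ℚ)) := by
      rw [← mul_assoc, ← mul_pow, inv_mul_cancel₀ jq_ne_zero, one_pow, one_mul]
    rw [h2]
    exact mul_mem (pow_mem (chart_jq_inv_mem ℓ) n) h1
  saturated := by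
    intro a ha hdiv
    obtain ⟨n, hn⟩ := chart_exists_pow_fin N ℓ ha
    have h1 := chart_dvd_mul ℓ (pow_mem (chart_jq_mem ℓ) n) hdiv
    obtain ⟨c, hc, hac⟩ := hFin.saturated _ hn h1
    refine ⟨(jFull N)⁻¹ ^ n * c, ?_, ?_⟩
    · refine mul_mem (pow_mem (subset_chartAlg N ℓ _ (by simp)) n) ?_
      exact chartAlg_mono N ℓ (sFin_subset N) hc
    · have hj := jFull_ne_zero N
      calc a = (jFull N)⁻¹ ^ n * ((jFull N) ^ n * a) := by
            rw [← mul_assoc, ← mul_pow, inv_mul_cancel₀ hj, one_pow, one_mul]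
        _ = (ℓ : FF N) * ((jFull N)⁻¹ ^ n * c) := by rw [hac]; ring

/-! ### `Inf` -/

theorem chart_transcendental_jFull : Transcendental (Zl ℓ) (jFull N) := by
  rintro ⟨p, hp0, hp⟩
  refine Fermat.Agent.S24Lib.transcendental_of_coeff_neg jq (n := -1) (by norm_num)
    (by rw [coeff_jq_neg_one]; exact one_ne_zero)
    ⟨p.map (ratLocalizedAt ℓ).subtype,
      (Polynomial.map_ne_zero_iff Subtype.val_injective).mpr hp0, ?_⟩
  have h1 : ((modularFunctionFieldFull N).val : FF N →+* LaurentSeries ℚ).comp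
      (algebraMap (Zl ℓ) (FF N)) = (algebraMap ℚ (LaurentSeries ℚ)).comp
        (ratLocalizedAt ℓ).subtype := by
    have h2 : algebraMap (Zl ℓ) (FF N) =
        (algebraMap ℚ (FF N)).comp (algebraMap (Zl ℓ) ℚ) := rfl
    rw [h2, ← RingHom.comp_assoc]
    congr 1
    exact Subsingleton.elim _ _
  have h3 := congrArg ((modularFunctionFieldFull N).val : FF N →+* LaurentSeries ℚ) hp
  rw [map_zero, aeval_def, hom_eval₂, h1] at h3
  rw [aeval_def, eval₂_map]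
  exact h3

theorem chart_transcendental_jFull_inv : Transcendental (Zl ℓ) (jFull N)⁻¹ := fun h =>
  chart_transcendental_jFull N ℓ (IsAlgebraic.inv_iff.mp h)

theorem isQEP_inf (hFin : IsQEP N ℓ (chartAlgFin N ℓ)) : IsQEP N ℓ (chartAlgInf N ℓ) where
  integral := fun a ha =>
    (isQEP_mid N ℓ hFin).integral a (chartAlg_mono N ℓ (sInf_subset N) ha)
  saturated := by
    intro a ha hdiv
    obtain ⟨b, hb, hab⟩ :=
      (isQEP_mid N ℓ hFin).saturated a (chartAlg_mono N ℓ (sInf_subset N) ha) hdiv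
    obtain ⟨n, hn⟩ := chart_exists_pow_inf N ℓ hb
    refine ⟨b, ?_, hab⟩
    refine mem_chartAlg_of_mul_mem N ℓ (jFull N)⁻¹ (chart_transcendental_jFull_inv N ℓ) b (X ^ n)
      ?_ (hab ▸ ha) (by rw [map_pow, aeval_X]; exact hn)
    intro hdvd
    rw [C_dvd_iff_dvd_coeff] at hdvd
    have h1 := hdvd n
    rw [coeff_X_pow_self] at h1
    exact (prime_natCast_Zl ℓ).not_isUnit (isUnit_of_dvd_one h1)

end Fermat.Agent.S28Lib
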