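import Mathlib

/-!
# S28 [CORE] : Euler's lemma and the noetherian trick (abstract)
-/

set_option autoImplicit false
set_option linter.unusedSectionVars false

open Polynomial
open scoped Pointwise

namespace Fermat.Agent.S28Lib

section Core

variable {A K F Lam : Type*} [CommRing A] [IsDomain A] [IsIntegrallyClosed A]
  [Field K] [Algebra A K] [IsFractionRing A K] [Field F] [Algebra A F] [Algebra K F]
  [IsScalarTower A K F] [FiniteDimensional K F] [Algebra.IsSeparable K F] [Field Lam]

include K in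
theorem core_deriv_ne_zero (t : F) (ht : IsIntegral A t) :
    aeval t (derivative (minpoly A t)) ≠ 0 := by
  have h1 : (minpoly K t).Separable := Algebra.IsSeparable.isSeparable K t
  have h2 := h1.aeval_derivative_ne_zero (minpoly.aeval K t)
  rwa [minpoly.isIntegrallyClosed_eq_field_fractions' K ht, derivative_map,
    aeval_map_algebraMap] at h2

include K in
/-- Euler: `f'(t) a ∈ A[t]` for `a` integral over `A` -/
theorem core_euler (t : F) (ht : IsIntegral A t) (htop : Algebra.adjoin K {t} = ⊤)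
    (a : F) (ha : IsIntegral A a) :
    ∃ B : A[X], aeval t (derivative (minpoly A t)) * a = aeval t B := by
  have hmem : a ∈ (Algebra.traceForm K F).dualSubmodule
      (Subalgebra.toSubmodule (Algebra.adjoin A {t})) := by
    rw [LinearMap.BilinForm.mem_dualSubmodule]
    intro y hy
    have hy' : IsIntegral A y := by
      have : Algebra.adjoin A {t} ≤ integralClosure A F :=
        Algebra.adjoin_le (Set.singleton_subset_iff.mpr ht)
      exact this hy
    have h1 : IsIntegral A (Algebra.trace K F (a * y)) := Algebra.isIntegral_trace (ha.mul hy')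
    obtain ⟨z, hz⟩ := IsIntegrallyClosed.isIntegral_iff.mp h1
    rw [Algebra.traceForm_apply, Submodule.mem_one]
    exact ⟨z, hz⟩
  rw [traceForm_dualSubmodule_adjoin A K htop ht] at hmem
  obtain ⟨z, hz, hza⟩ := (Submodule.mem_smul_pointwise_iff_exists _ _ _).mp hmem
  have hz' : z ∈ Algebra.adjoin A {t} := hz
  rw [Algebra.adjoin_singleton_eq_range_aeval] at hz'
  obtain ⟨B, hB⟩ := hz'
  refine ⟨B, ?_⟩
  have hc : aeval t (derivative (minpoly K t)) = aeval t (derivative (minpoly A t)) := by
    rw [minpoly.isIntegrallyClosed_eq_field_fractions' K ht, derivative_map,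
      aeval_map_algebraMap]
  have hne := core_deriv_ne_zero (K := K) t ht
  rw [hc] at hza
  rw [← hza, smul_eq_mul, mul_inv_cancel_left₀ hne]
  exact hB.symm

include K in
theorem core_int (e : F →+* Lam) (O : Subring Lam) (hA : ∀ a : A, e (algebraMap A F a) ∈ O)
    (t : F) (ht : IsIntegral A t) (htop : Algebra.adjoin K {t} = ⊤) (htO : e t ∈ O)
    (hunit : (e (aeval t (derivative (minpoly A t))))⁻¹ ∈ O)
    (a : F) (ha : IsIntegral A a) : e a ∈ O := by
  obtain ⟨B, hB⟩ := core_euler (K := K) t ht htop a ha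
  have hne := core_deriv_ne_zero (K := K) t ht
  have hne' : e (aeval t (derivative (minpoly A t))) ≠ 0 := (map_ne_zero e).mpr hne
  have hBO : e (aeval t B) ∈ O := by
    rw [aeval_eq_sum_range, map_sum]
    refine Subring.sum_mem _ fun i _ => ?_
    rw [Algebra.smul_def, map_mul, map_pow]
    exact O.mul_mem (hA _) (O.pow_mem htO _)
  have : e a = (e (aeval t (derivative (minpoly A t))))⁻¹ * e (aeval t B) := by
    rw [← hB, map_mul, inv_mul_cancel_left₀ hne']
  rw [this]
  exact O.mul_mem hunit hBO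

theorem core_aeval_mem (e : F →+* Lam) (O : Subring Lam) (hA : ∀ a : A, e (algebraMap A F a) ∈ O)
    (t : F) (htO : e t ∈ O) (B : A[X]) : e (aeval t B) ∈ O := by
  rw [aeval_eq_sum_range, map_sum]
  refine Subring.sum_mem _ fun i _ => ?_
  rw [Algebra.smul_def, map_mul, map_pow]
  exact O.mul_mem (hA _) (O.pow_mem htO _)

theorem core_iter (e : F →+* Lam) (O : Subring Lam) (hA : ∀ a : A, e (algebraMap A F a) ∈ O)
    (t : F) (n : ℕ) (l : A) (hl : l ≠ 0) (hel : e (algebraMap A F l) ≠ 0)
    (hirr : ∀ B : A[X], B.natDegree < n →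
      (∃ y ∈ O, e (aeval t B) = e (algebraMap A F l) * y) → ∃ B' : A[X], B = C l * B')
    (m : ℕ) : ∀ B : A[X], B.natDegree < n →
      (∃ y ∈ O, e (aeval t B) = e (algebraMap A F l) ^ m * y) → ∃ B' : A[X], B = C l ^ m * B' := by
  induction m with
  | zero => intro B _ _; exact ⟨B, by simp⟩
  | succ m ih =>
    rintro B hB ⟨y, hy, hBy⟩
    obtain ⟨B1, rfl⟩ := hirr B hB ⟨e (algebraMap A F l) ^ m * y,
      O.mul_mem (O.pow_mem (hA l) m) hy, by rw [hBy]; ring⟩
    rw [natDegree_C_mul hl] at hB
    obtain ⟨B2, rfl⟩ := ih B1 hB ⟨y, hy, by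
      rw [map_mul, aeval_C, map_mul, pow_succ'] at hBy
      rw [mul_assoc] at hBy
      exact mul_left_cancel₀ hel hBy⟩
    exact ⟨B2, by ring⟩

include K in
theorem core_div [IsNoetherianRing A] (e : F →+* Lam) (O : Subring Lam)
    (hA : ∀ a : A, e (algebraMap A F a) ∈ O)
    (t : F) (ht : IsIntegral A t) (htop : Algebra.adjoin K {t} = ⊤) (htO : e t ∈ O)
    (_hunit : (e (aeval t (derivative (minpoly A t))))⁻¹ ∈ O)
    (l : A) (hl : l ≠ 0)
    (hirr : ∀ B : A[X], B.natDegree < (minpoly A t).natDegree →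
      (∃ y ∈ O, e (aeval t B) = e (algebraMap A F l) * y) → ∃ B' : A[X], B = C l * B')
    (a : F) (ha : IsIntegral A a) (hdiv : ∃ y ∈ O, e a = e (algebraMap A F l) * y) :
    ∃ b : F, IsIntegral A b ∧ a = algebraMap A F l * b := by
  have hinj : Function.Injective (algebraMap A F) := by
    rw [IsScalarTower.algebraMap_eq A K F]
    exact (algebraMap K F).injective.comp (IsFractionRing.injective A K)
  have hlF : algebraMap A F l ≠ 0 := fun h => hl (hinj (by rw [h, map_zero]))
  have hel : e (algebraMap A F l) ≠ 0 := (map_ne_zero e).mpr hlF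
  set c := aeval t (derivative (minpoly A t)) with hc
  have hne : c ≠ 0 := core_deriv_ne_zero (K := K) t ht
  obtain ⟨y, hy, hay⟩ := hdiv
  have hmonic := minpoly.monic ht
  -- step 2
  have step2 : ∀ m : ℕ, ∃ G : A[X], c * a ^ m = algebraMap A F l ^ m * aeval t G := by
    intro m
    obtain ⟨B, hB⟩ := core_euler (K := K) t ht htop (a ^ m) (ha.pow m)
    have hB' : aeval t (B %ₘ minpoly A t) = aeval t B :=
      aeval_modByMonic_eq_self_of_root (minpoly.aeval A t)
    have hdeg : (B %ₘ minpoly A t).natDegree < (minpoly A t).natDegree :=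
      natDegree_modByMonic_lt B hmonic (minpoly.ne_one A t)
    obtain ⟨G, hG⟩ := core_iter e O hA t _ l hl hel hirr m _ hdeg
      ⟨e c * y ^ m, O.mul_mem (core_aeval_mem e O hA t htO _) (O.pow_mem hy m), by
        rw [hB', ← hB, map_mul, map_pow, hay]; ring⟩
    refine ⟨G, ?_⟩
    rw [hB, ← hB', hG, map_mul, map_pow, aeval_C]
  refine ⟨(algebraMap A F l)⁻¹ * a, ?_, by rw [mul_inv_cancel_left₀ hlF]⟩
  set b := (algebraMap A F l)⁻¹ * a with hb
  have step3 : ∀ m : ℕ, ∃ G : A[X], b ^ m = c⁻¹ * aeval t G := by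
    intro m
    obtain ⟨G, hG⟩ := step2 m
    refine ⟨G, ?_⟩
    rw [hb, mul_pow, inv_pow]
    have h1 : algebraMap A F l ^ m ≠ 0 := pow_ne_zero m hlF
    field_simp
    rw [mul_comm, hG]
  -- the finitely generated module
  set M : Submodule A F :=
    (Subalgebra.toSubmodule (Algebra.adjoin A {t})).map (LinearMap.mulLeft A c⁻¹) with hM
  have hMfg : M.FG := (ht.fg_adjoin_singleton).map _
  have hMn : IsNoetherian A M := isNoetherian_of_fg_of_noetherian M hMfg
  have hle : Subalgebra.toSubmodule (Algebra.adjoin A {b}) ≤ M := by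
    intro z hz
    have hz' : z ∈ Algebra.adjoin A {b} := hz
    rw [Algebra.adjoin_singleton_eq_range_aeval] at hz'
    obtain ⟨p, rfl⟩ := hz'
    show aeval b p ∈ M
    rw [aeval_eq_sum_range]
    refine Submodule.sum_mem _ fun i _ => Submodule.smul_mem _ _ ?_
    obtain ⟨G, hG⟩ := step3 i
    rw [hG]
    refine ⟨aeval t G, ?_, rfl⟩
    show aeval t G ∈ Algebra.adjoin A {t}
    rw [Algebra.adjoin_singleton_eq_range_aeval]
    exact ⟨G, rfl⟩
  exact IsIntegral.of_mem_of_fg _ ((isNoetherian_submodule.mp hMn) _ hle) b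
    (Algebra.self_mem_adjoin_singleton A b)

end Core

end Fermat.Agent.S28Lib
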