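import Mathlib

/-!
# S28 [FR] : bounding the degree from linear dependence over the base ring (abstract)
-/

set_option autoImplicit false

namespace Fermat.Agent.S28Lib

theorem finrank_le_of_lin_dep {A K F : Type*} [CommRing A] [IsDomain A]
    [Field K] [Algebra A K] [IsFractionRing A K] [Field F] [Algebra A F] [Algebra K F]
    [IsScalarTower A K F] (n : ℕ)
    (h : ∀ v : Fin (n + 1) → F, ∃ c : Fin (n + 1) → A, c ≠ 0 ∧ ∑ i, algebraMap A F (c i) * v i = 0) :
    FiniteDimensional K F ∧ Module.finrank K F ≤ n := by
  have hrank : Module.rank K F ≤ n := by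
    apply _root_.rank_le
    intro s hs
    by_contra hcard
    push Not at hcard
    -- choose `n + 1` elements of `s`
    obtain ⟨u, hus, hucard⟩ := Finset.exists_subset_card_eq (s := s) (n := n + 1) hcard
    have e : Fin (n + 1) ≃ u := (Fintype.equivFinOfCardEq (by simpa using hucard)).symm
    have hli : LinearIndependent K (fun i : Fin (n + 1) => ((e i : u) : F)) := by
      have h1 : LinearIndependent K (fun i : u => (i : F)) :=
        hs.comp (fun i : u => (⟨i.1, hus i.2⟩ : s)) (fun a b hab => by
          apply Subtype.ext
          simpa using hab)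
      exact h1.comp e e.injective
    obtain ⟨c, hc, hsum⟩ := h (fun i => ((e i : u) : F))
    apply hc
    have h2 := Fintype.linearIndependent_iff.mp hli (fun i => algebraMap A K (c i)) (by
      rw [← hsum]
      refine Finset.sum_congr rfl fun i _ => ?_
      rw [Algebra.smul_def, ← IsScalarTower.algebraMap_apply])
    funext i
    exact IsFractionRing.injective A K (by rw [h2 i, Pi.zero_apply, map_zero])
  have hfin : FiniteDimensional K F := by
    rw [FiniteDimensional, ← Module.rank_lt_aleph0_iff]
    exact lt_of_le_of_lt hrank (Cardinal.natCast_lt_aleph0)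
  refine ⟨hfin, ?_⟩
  have := Module.finrank_eq_rank K F
  rw [← this] at hrank
  exact_mod_cast hrank

end Fermat.Agent.S28Lib
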