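import Fermat.Agent.S28.Sigma
import Fermat.Agent.S24.Degree2
import Fermat.Agent.S24.LinDisj

/-!
# S28 [D] : `[FF N : ℚ(j)] ≤ #X0 N`
-/

set_option autoImplicit false

open UpperHalfPlane hiding I
open ModularCurve ModularCurve.IgusaScheme Polynomial Filter IntermediateField
open scoped MatrixGroups Manifold
open scoped IntermediateField.algebraAdjoinAdjoin

namespace Fermat.Agent.S28Lib

open Fermat.Agent.S20Lib Fermat.Agent.S24Lib

/-- dependence over `ℚ̄[j]` -/
theorem lin_dep_bar (N : ℕ) [NeZero N] (w : Fin (Fintype.card (X0 N) + 1) → FN N) :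
    ∃ B : Fin (Fintype.card (X0 N) + 1) → Kb[X], (∃ i, B i ≠ 0) ∧
      ∑ i, aeval (jj N) (B i) * w i = 0 := by
  have h1 : ¬ LinearIndependent Kb⟮jj N⟯ w := by
    intro h
    have := h.fintype_card_le_finrank
    rw [finrank_jj, Nat.card_eq_fintype_card, Fintype.card_fin] at this
    omega
  rw [← LinearIndependent.iff_fractionRing (Algebra.adjoin Kb {jj N}) Kb⟮jj N⟯,
    Fintype.not_linearIndependent_iff] at h1
  obtain ⟨g, hg, i0, hi0⟩ := h1
  have h2 : ∀ i, ∃ P : Kb[X], aeval (jj N) P = (g i : FN N) := by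
    intro i
    obtain ⟨y, hy⟩ := g i
    rw [Algebra.adjoin_singleton_eq_range_aeval] at hy
    exact hy
  choose B hB using h2
  refine ⟨B, ⟨i0, ?_⟩, ?_⟩
  · intro h
    apply hi0
    apply Subtype.ext
    rw [← hB, h]
    simp
  · rw [← hg]
    refine Finset.sum_congr rfl fun i _ => ?_
    rw [hB]
    rfl

/-- the monomials `j^k v_i` are `ℤ`-linearly dependent -/
theorem not_linearIndependent_int (N : ℕ) [NeZero N]
    (v : Fin (Fintype.card (X0 N) + 1) → FF N) :
    ¬ LinearIndependent ℤ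
      (fun x : ℕ × Fin (Fintype.card (X0 N) + 1) => jFull N ^ x.1 * v x.2) := by
  classical
  intro hli
  obtain ⟨B, ⟨i0, hi0⟩, hB⟩ := lin_dep_bar N (fun i => toBar N (v i))
  set f : ℕ × Fin (Fintype.card (X0 N) + 1) → LaurentSeries ℚ :=
    fun x => ((jFull N ^ x.1 * v x.2 : FF N) : LaurentSeries ℚ) with hf
  have h0 : LinearIndependent ℤ f := by
    have := hli.map' ((algebraMap (FF N) (LaurentSeries ℚ)).toAddMonoidHom.toIntLinearMap)
      (by
        rw [LinearMap.ker_eq_bot]
        exact (algebraMap (FF N) (LaurentSeries ℚ)).injective)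
    exact this
  have h1 : LinearIndependent ℚ f := (LinearIndependent.iff_fractionRing ℤ ℚ).1 h0
  have h2 := linearIndependent_map_coeff (algebraMap ℚ Kb) f h1
  rw [linearIndependent_iff'] at h2
  set D := Finset.univ.sup (fun i => (B i).natDegree) with hD
  have hdeg : ∀ i, (B i).natDegree < D + 1 := fun i =>
    Nat.lt_succ_of_le (Finset.le_sup (f := fun i => (B i).natDegree) (Finset.mem_univ i))
  have h3 := h2 (Finset.range (D + 1) ×ˢ Finset.univ) (fun x => (B x.2).coeff x.1) ?_
  · apply hi0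
    ext k
    by_cases hk : k < D + 1
    · exact h3 (k, i0) (by simp [hk])
    · rw [coeff_eq_zero_of_natDegree_lt (lt_of_lt_of_le (hdeg i0) (not_lt.1 hk))]
      simp
  · have h4 := congrArg (Subtype.val) hB
    rw [ZeroMemClass.coe_zero, AddSubmonoidClass.coe_finsetSum] at h4
    rw [← h4, Finset.sum_product_right]
    refine Finset.sum_congr rfl fun i _ => ?_
    rw [aeval_eq_sum_range' (hdeg i), Finset.sum_mul, AddSubmonoidClass.coe_finsetSum]
    refine Finset.sum_congr rfl fun k _ => ?_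
    rw [smul_mul_assoc, coe_smul_FN, ← toBar_jFull, ← map_pow, ← map_mul]
    rfl

theorem lin_dep (N : ℕ) [NeZero N] (ℓ : ℕ) [Fact ℓ.Prime]
    (v : Fin (Fintype.card (X0 N) + 1) → FF N) :
    ∃ c : Fin (Fintype.card (X0 N) + 1) → (Zl ℓ)[X], c ≠ 0 ∧
      ∑ i, aeval (jFull N) (c i) * v i = 0 := by
  classical
  obtain ⟨s, g, hsum, x0, hx0, hg0⟩ := not_linearIndependent_iff.1 (not_linearIndependent_int N v)
  set g' : ℕ × Fin (Fintype.card (X0 N) + 1) → ℤ := fun x => if x ∈ s then g x else 0 with hg'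
  set D := s.sup Prod.fst + 1 with hD
  have hsD : s ⊆ Finset.range D ×ˢ Finset.univ := by
    intro x hx
    simp only [Finset.mem_product, Finset.mem_range, Finset.mem_univ, and_true]
    exact Nat.lt_succ_of_le (Finset.le_sup (f := Prod.fst) hx)
  have hsum' : ∑ x ∈ Finset.range D ×ˢ Finset.univ, g' x • (jFull N ^ x.1 * v x.2) = 0 := by
    rw [← hsum]
    symm
    refine Finset.sum_subset_zero_on_sdiff hsD ?_ ?_
    · intro x hx
      rw [Finset.mem_sdiff] at hx
      simp [hg', hx.2]
    · intro x hx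
      simp [hg', hx]
  refine ⟨fun i => ∑ k ∈ Finset.range D, monomial k ((g' (k, i) : ℤ) : Zl ℓ), ?_, ?_⟩
  · intro h
    have h1 := congrArg (fun p : (Zl ℓ)[X] => p.coeff x0.1) (congrFun h x0.2)
    simp only [Pi.zero_apply, coeff_zero, finsetSum_coeff, coeff_monomial] at h1
    rw [Finset.sum_ite_eq' ] at h1
    have hx0D : x0.1 ∈ Finset.range D := (Finset.mem_product.1 (hsD hx0)).1
    rw [if_pos hx0D] at h1
    have h2 : g' (x0.1, x0.2) = g x0 := by simp [hg', hx0]
    rw [h2] at h1
    have h3 := congrArg (fun z : Zl ℓ => (z : ℚ)) h1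
    simp only [Subring.coe_intCast, Subring.coe_zero] at h3
    exact hg0 (by exact_mod_cast h3)
  · rw [← hsum', Finset.sum_product_right]
    refine Finset.sum_congr rfl fun i _ => ?_
    rw [map_sum, Finset.sum_mul]
    refine Finset.sum_congr rfl fun k _ => ?_
    rw [aeval_monomial, map_intCast, zsmul_eq_mul, mul_assoc]

end Fermat.Agent.S28Lib
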