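import Fermat.Agent.S28.Basic

/-!
# S28 [MP] : identification of the minimal polynomial (abstract)
-/

set_option autoImplicit false

open Polynomial

namespace Fermat.Agent.S28Lib

theorem minpoly_map_eq_pol1 {A K F Lam X : Type*} [CommRing A] [IsDomain A] [IsIntegrallyClosed A]
    [Field K] [Algebra A K] [IsFractionRing A K] [Field F] [Algebra A F] [Algebra K F]
    [IsScalarTower A K F] [FiniteDimensional K F] [Field Lam] [Fintype X]
    (hrank : Module.finrank K F ≤ Fintype.card X)
    (e : F →+* Lam) (t : F) (τ : X → Lam) (hτ : Function.Injective τ)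
    (hσ : ∀ x, ∃ σ : F →+* Lam, (∀ a : A, σ (algebraMap A F a) = e (algebraMap A F a)) ∧ σ t = τ x)
    (hcoef : ∀ i, ∃ a : A, e (algebraMap A F a) = (pol1 τ).coeff i) :
    IsIntegral A t ∧ Algebra.adjoin K {t} = ⊤ ∧
      (minpoly A t).map (e.comp (algebraMap A F)) = pol1 τ := by
  classical
  set g := minpoly K t with hg
  set eK : K →+* Lam := e.comp (algebraMap K F) with heK
  have htK : IsIntegral K t := Algebra.IsIntegral.isIntegral t
  have hgm : g.Monic := minpoly.monic htK
  have hcomp : eK.comp (algebraMap A K) = e.comp (algebraMap A F) := by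
    rw [heK, RingHom.comp_assoc, ← IsScalarTower.algebraMap_eq]
  -- (1)
  have hroot : ∀ x, (g.map eK).eval (τ x) = 0 := by
    intro x
    obtain ⟨σ, hσA, hσt⟩ := hσ x
    have h1 : σ.comp (algebraMap K F) = eK := by
      apply IsLocalization.ringHom_ext (nonZeroDivisors A)
      rw [hcomp, RingHom.comp_assoc, ← IsScalarTower.algebraMap_eq]
      exact RingHom.ext hσA
    rw [← h1, ← hσt, eval_map, ← hom_eval₂]
    have : eval₂ (algebraMap K F) t g = 0 := minpoly.aeval K t
    rw [this, map_zero]
  -- (2)
  have hdvd : pol1 τ ∣ g.map eK := by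
    unfold pol1
    refine Finset.prod_dvd_of_coprime ?_ ?_
    · intro x _ y _ hxy
      exact pairwise_coprime_X_sub_C hτ hxy
    · intro x _
      exact dvd_iff_isRoot.mpr (hroot x)
  -- (3)
  have hgmap : (g.map eK).Monic := hgm.map _
  have hd1 : Fintype.card X ≤ g.natDegree := by
    rw [← natDegree_pol1 τ, ← hgm.natDegree_map eK]
    exact natDegree_le_of_dvd hdvd hgmap.ne_zero
  have hd2 : g.natDegree ≤ Module.finrank K F := minpoly.natDegree_le t
  have hdeg : g.natDegree = Module.finrank K F := le_antisymm hd2 (hrank.trans hd1)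
  have hdeg' : g.natDegree = Fintype.card X := le_antisymm (hd2.trans hrank) hd1
  -- (4)
  have heq : g.map eK = pol1 τ :=
    eq_of_monic_of_dvd_of_natDegree_le (monic_pol1 τ) hgmap hdvd (by
      rw [hgm.natDegree_map, natDegree_pol1, hdeg'])
  -- (5)
  have htop : Algebra.adjoin K {t} = ⊤ := by
    have h1 := (Field.primitive_element_iff_minpoly_natDegree_eq K t).mpr hdeg
    rw [← IntermediateField.adjoin_simple_toSubalgebra_of_isAlgebraic htK.isAlgebraic, h1]
    rfl
  -- (6)
  choose a ha using hcoef
  set n := Fintype.card X with hn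
  set PA : A[X] := ∑ i ∈ Finset.range (n + 1), C (a i) * Polynomial.X ^ i with hPA
  have hPAmap : PA.map (e.comp (algebraMap A F)) = pol1 τ := by
    ext i
    rw [coeff_map, hPA, finsetSum_coeff]
    simp only [coeff_C_mul_X_pow]
    rw [Finset.sum_ite_eq]
    split_ifs with hi
    · exact ha i
    · rw [map_zero]
      symm
      apply coeff_eq_zero_of_natDegree_lt
      rw [natDegree_pol1]
      simp only [Finset.mem_range, not_lt] at hi
      omega
  have hPAK : PA.map (algebraMap A K) = g := by
    apply map_injective eK eK.injective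
    rw [map_map, hcomp, hPAmap, heq]
  have hPAmonic : PA.Monic :=
    monic_of_injective (IsFractionRing.injective A K) (by rw [hPAK]; exact hgm)
  have ht : IsIntegral A t := by
    refine ⟨PA, hPAmonic, ?_⟩
    have : aeval t (PA.map (algebraMap A K)) = 0 := by rw [hPAK]; exact minpoly.aeval K t
    rwa [aeval_map_algebraMap] at this
  refine ⟨ht, htop, ?_⟩
  rw [← hcomp, ← map_map, ← minpoly.isIntegrallyClosed_eq_field_fractions' K ht, heq]

end Fermat.Agent.S28Lib
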