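import Fermat.Agent.S28.TensorDomain
import Fermat.Agent.S28.ZlBasic
import Fermat.Prelude.Def_ModularCurve_IgusaScheme

/-!
# S28 : leaf [B], concrete form

A `ℤ_(ℓ)`-subalgebra `C` of the modular function field which satisfies the `q`-expansion principle
has a geometrically integral special fibre.
-/

set_option autoImplicit false

open scoped TensorProduct
open ModularCurve ModularCurve.IgusaScheme GaloisRep

namespace Fermat.Agent.S28Lib

/-- lifting a ring homomorphism through an injective one -/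
theorem exists_lift_of_injective {A B C : Type*} [CommRing A] [CommRing B] [CommRing C]
    (f : A →+* B) (hf : Function.Injective f) (g : C →+* B) (hg : ∀ c, g c ∈ f.range) :
    ∃ e : C →+* A, ∀ c, f (e c) = g c := by
  let E : A ≃+* f.range := RingEquiv.ofBijective f.rangeRestrict
    ⟨fun x y h => hf (congrArg Subtype.val h), f.rangeRestrict_surjective⟩
  refine ⟨(E.symm : f.range →+* A).comp (g.codRestrict f.range hg), fun c => ?_⟩
  have : E (E.symm (g.codRestrict f.range hg c)) = g.codRestrict f.range hg c :=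
    E.apply_symm_apply _
  exact congrArg Subtype.val this

section zl

variable (ℓ : ℕ)

/-- `ℤ_(ℓ)((q)) → ℚ((q))` -/
noncomputable def zlIncl : LaurentSeries (ratLocalizedAt ℓ) →+* LaurentSeries ℚ :=
  coeffMap (ratLocalizedAt ℓ).subtype

theorem zlIncl_coeff (x : LaurentSeries (ratLocalizedAt ℓ)) (n : ℤ) :
    (zlIncl ℓ x).coeff n = (x.coeff n : ℚ) := rfl

theorem zlIncl_injective : Function.Injective (zlIncl ℓ) := by
  intro x y h
  ext n
  have := congrArg (fun z : LaurentSeries ℚ => z.coeff n) h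
  exact this

theorem mem_range_zlIncl_iff (x : LaurentSeries ℚ) :
    x ∈ (zlIncl ℓ).range ↔ ∀ n, x.coeff n ∈ ratLocalizedAt ℓ := by
  constructor
  · rintro ⟨y, rfl⟩ n
    exact (y.coeff n).2
  · intro h
    refine ⟨⟨fun n => ⟨x.coeff n, h n⟩, x.isPWO_support.mono ?_⟩, ?_⟩
    · intro n hn
      rw [Function.mem_support] at hn
      rw [HahnSeries.mem_support]
      intro h0
      exact hn (Subtype.ext h0)
    · ext n
      rfl

end zl

variable (N : ℕ) [NeZero N] (ℓ : ℕ) [Fact ℓ.Prime]
  (K : Type) [Field K] [CharP K ℓ] [Algebra ↥(ratLocalizedAt ℓ) K]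

omit [NeZero N] in
/-- **leaf [B]** : the `q`-expansion principle implies that `C ⊗ K` is a domain. -/
theorem isDomain_tensor_of_qep
    (C : Subalgebra ↥(ratLocalizedAt ℓ) ↥(modularFunctionFieldFull N))
    (h1 : ∀ a ∈ C, ∀ n : ℤ, (a : LaurentSeries ℚ).coeff n ∈ ratLocalizedAt ℓ)
    (h2 : ∀ a ∈ C, (∀ n : ℤ, ∃ b ∈ ratLocalizedAt ℓ, (a : LaurentSeries ℚ).coeff n = ℓ * b) →
      ∃ c ∈ C, a = (ℓ : ↥(modularFunctionFieldFull N)) * c) :
    IsDomain (↥C ⊗[↥(ratLocalizedAt ℓ)] K) := by
  let g : ↥C →+* LaurentSeries ℚ :=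
    ((modularFunctionFieldFull N).val : ↥(modularFunctionFieldFull N) →+* LaurentSeries ℚ).comp
      (C.val : ↥C →+* ↥(modularFunctionFieldFull N))
  have hg : ∀ c : ↥C, g c = ((c : ↥(modularFunctionFieldFull N)) : LaurentSeries ℚ) := fun _ => rfl
  obtain ⟨e, he⟩ := exists_lift_of_injective (zlIncl ℓ) (zlIncl_injective ℓ) g
    (fun c => (mem_range_zlIncl_iff ℓ _).mpr (h1 c c.2))
  refine isDomain_tensor_of_hom (isMaximal_ker ℓ K)
    ((coeffMap (algebraMap ↥(ratLocalizedAt ℓ) K)).comp e) ?_ ?_ ?_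
  · intro r
    have h3 : e (algebraMap ↥(ratLocalizedAt ℓ) ↥C r) = HahnSeries.C r := by
      apply zlIncl_injective ℓ
      rw [he, hg]
      have h7 : (((algebraMap ↥(ratLocalizedAt ℓ) ↥C r : ↥C) : ↥(modularFunctionFieldFull N)) :
          LaurentSeries ℚ) = HahnSeries.single 0 (r : ℚ) := by
        rw [Subalgebra.coe_algebraMap,
          IsScalarTower.algebraMap_apply ↥(ratLocalizedAt ℓ) ℚ ↥(modularFunctionFieldFull N),
          eq_ratCast (algebraMap ℚ ↥(modularFunctionFieldFull N)), SubfieldClass.coe_ratCast,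
          ← HahnSeries.single_zero_ratCast, Rat.cast_id]
        rfl
      rw [h7, HahnSeries.C_apply, zlIncl, coeffMap_single]
      rfl
    rw [RingHom.comp_apply, h3, HahnSeries.C_apply, coeffMap_single, HahnSeries.C_apply]
  · intro c n
    exact ⟨_, rfl⟩
  · intro c hc
    have h4 : ∀ n : ℤ, ∃ b ∈ ratLocalizedAt ℓ,
        ((c : ↥(modularFunctionFieldFull N)) : LaurentSeries ℚ).coeff n = ℓ * b := by
      intro n
      have h5 := congrArg (fun z : LaurentSeries K => z.coeff n) hc
      simp only [RingHom.comp_apply, coeffMap_coeff, HahnSeries.coeff_zero] at h5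
      obtain ⟨y, hy⟩ := (algebraMap_eq_zero_iff ℓ K _).mp h5
      refine ⟨y, y.2, ?_⟩
      rw [← hg, ← he, zlIncl_coeff, hy]
      simp
    obtain ⟨c', hc', hcc⟩ := h2 c c.2 h4
    have h6 : c = (ℓ : ↥(ratLocalizedAt ℓ)) • (⟨c', hc'⟩ : ↥C) := by
      apply Subtype.ext
      rw [hcc, Algebra.smul_def, map_natCast]
      simp
    rw [h6, TensorProduct.smul_tmul, Algebra.smul_def, map_natCast, CharP.cast_eq_zero, zero_mul,
      TensorProduct.tmul_zero]

end Fermat.Agent.S28Lib
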