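import Fermat.Agent.S28.Glue
import Fermat.Agent.S28.QEPDomain

/-!
# S28 : reduction of the statement to the `q`-expansion principle for the three charts
-/

set_option autoImplicit false

open AlgebraicGeometry CategoryTheory CategoryTheory.Limits ModularCurve ModularCurve.IgusaScheme
open GaloisRep
open scoped TensorProduct

namespace Fermat.Agent.S28Lib

/-- the `q`-expansion principle for a `ℤ_(ℓ)`-subalgebra of the modular function field -/
structure IsQEP (N : ℕ) (ℓ : ℕ)
    (C : Subalgebra ↥(ratLocalizedAt ℓ) ↥(modularFunctionFieldFull N)) : Prop where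
  /-- the `q`-expansions of the elements of `C` have coefficients in `ℤ_(ℓ)` -/
  integral : ∀ a ∈ C, ∀ n : ℤ, (a : LaurentSeries ℚ).coeff n ∈ ratLocalizedAt ℓ
  /-- an element of `C` whose `q`-expansion is divisible by `ℓ` is divisible by `ℓ` in `C` -/
  saturated : ∀ a ∈ C,
    (∀ n : ℤ, ∃ b ∈ ratLocalizedAt ℓ, (a : LaurentSeries ℚ).coeff n = ℓ * b) →
      ∃ c ∈ C, a = (ℓ : ↥(modularFunctionFieldFull N)) * c

variable (N : ℕ) [NeZero N] (ℓ : ℕ) [Fact ℓ.Prime]
  (K : Type) [Field K] [CharP K ℓ] [Algebra ↥(ratLocalizedAt ℓ) K]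

theorem isIntegral_pullback_of_isQEP
    (hFin : IsQEP N ℓ (chartAlgFin N ℓ)) (hInf : IsQEP N ℓ (chartAlgInf N ℓ))
    (hMid : IsQEP N ℓ (chartAlgMid N ℓ)) :
    IsIntegral ↑(pullback (igusaTo N ℓ)
      (Spec.map (CommRingCat.ofHom (algebraMap ↥(GaloisRep.ratLocalizedAt ℓ) K)))) := by
  have h1 := isDomain_tensor_of_qep N ℓ K _ hFin.integral hFin.saturated
  have h2 := isDomain_tensor_of_qep N ℓ K _ hInf.integral hInf.saturated
  have h3 := isDomain_tensor_of_qep N ℓ K _ hMid.integral hMid.saturated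
  exact isIntegral_pullback_of_isDomain N ℓ K h1 h2 h3.toNontrivial

end Fermat.Agent.S28Lib
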