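import Fermat.Agent.S28.QepPre
import Fermat.Agent.S28.Core
import Fermat.Agent.S28.MinPoly
import Fermat.Agent.S28.FinRank
import Fermat.Agent.S28.ZlAlg
import Fermat.Agent.S28.Sigma
import Fermat.Agent.S28.LinDep
import Fermat.Agent.S28.Reduce

/-!
# S28 [QEPS] : the `q`-expansion principle for the chart `Fin`
-/

set_option autoImplicit false
set_option linter.unusedSectionVars false

open UpperHalfPlane hiding I
open ModularCurve ModularCurve.IgusaScheme Polynomial Filter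
open scoped MatrixGroups

namespace Fermat.Agent.S28Lib

open Fermat.Agent.S20Lib Fermat.Agent.S24Lib

variable (N : ℕ) [NeZero N] (ℓ : ℕ) [Fact ℓ.Prime]

/-- the two halves of the `q`-expansion principle, in terms of `eStd` and `OV` -/
theorem qep_fin_aux (V : ValuationSubring ℂ) (hV : ((ℓ : ℂ))⁻¹ ∉ V)
    (tV : X0 N → LaurentSeries V)
    (ht : ∀ x, HasExp atImInfty (qN N) (fun τ => cvec N (jD N) τ x) (iV V (tV x)))
    (hu : ∀ x y, x ≠ y → IsUnit (tV x - tV y))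
    (hcoef : ∀ i, ∃ a : (Zl ℓ)[X],
      eStd N (aeval (jFull N) a) = (pol1 fun x => iV V (tV x)).coeff i)
    (hirr : ∀ B : (Zl ℓ)[X][X], B.natDegree < Fintype.card (X0 N) →
      (∃ y ∈ OV V, eStd N (eval₂ (aeval (jFull N) : (Zl ℓ)[X] →ₐ[Zl ℓ] FF N).toRingHom
        (tFull N) B) = (ℓ : LaurentSeries ℂ) * y) →
      ∃ B' : (Zl ℓ)[X][X], B = C (C (ℓ : Zl ℓ)) * B') :
    (∀ a ∈ chartAlgFin N ℓ, eStd N a ∈ OV V) ∧
    (∀ a ∈ chartAlgFin N ℓ, (∃ y ∈ OV V, eStd N a = (ℓ : LaurentSeries ℂ) * y) →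
      ∃ b ∈ chartAlgFin N ℓ, a = (ℓ : FF N) * b) := by
  classical
  have hℓ : ℓ.Prime := Fact.out
  letI alg : Algebra (Zl ℓ)[X] (FF N) :=
    (aeval (jFull N) : (Zl ℓ)[X] →ₐ[Zl ℓ] FF N).toRingHom.toAlgebra
  have halg : ∀ a : (Zl ℓ)[X], algebraMap (Zl ℓ)[X] (FF N) a = aeval (jFull N) a := fun _ => rfl
  have hinj : Function.Injective (algebraMap (Zl ℓ)[X] (FF N)) := aeval_jFull_injective N ℓ
  haveI : FaithfulSMul (Zl ℓ)[X] (FF N) := (faithfulSMul_iff_algebraMap_injective _ _).mpr hinj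
  letI := FractionRing.liftAlgebra (Zl ℓ)[X] (FF N)
  haveI : IsScalarTower (Zl ℓ)[X] (FractionRing (Zl ℓ)[X]) (FF N) :=
    FractionRing.isScalarTower_liftAlgebra _ _
  haveI := isIntegrallyClosed_ZlX ℓ
  haveI := isNoetherianRing_ZlX ℓ
  obtain ⟨hfd, hrank⟩ := finrank_le_of_lin_dep (A := (Zl ℓ)[X]) (K := FractionRing (Zl ℓ)[X])
    (F := FF N) (Fintype.card (X0 N)) (fun v => lin_dep N ℓ v)
  haveI := hfd
  haveI : CharZero (FractionRing (Zl ℓ)[X]) :=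
    (algebraMap (FractionRing (Zl ℓ)[X]) (FF N)).charZero
  haveI : Algebra.IsSeparable (FractionRing (Zl ℓ)[X]) (FF N) := inferInstance
  obtain ⟨σ, hσj, hσt⟩ := exists_sigma N
  set τ : X0 N → LaurentSeries ℂ := fun x => iV V (tV x) with hτdef
  have hτ : Function.Injective τ := by
    intro x y hxy
    by_contra hne
    have h1 : tV x = tV y := iV_injective V hxy
    have h2 := hu x y hne
    rw [h1, sub_self] at h2
    exact not_isUnit_zero h2
  obtain ⟨htint, htop, hmin⟩ := minpoly_map_eq_pol1 (A := (Zl ℓ)[X])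
    (K := FractionRing (Zl ℓ)[X]) (F := FF N) hrank (eStd N) (tFull N) τ hτ
    (fun x => ⟨σ x, fun a => ringHom_eq_eStd N ℓ (σ x) (hσj x) a,
      (hσt x).unique (isChart_infty N) (ht x)⟩) hcoef
  have hA : ∀ a : (Zl ℓ)[X], eStd N (algebraMap (Zl ℓ)[X] (FF N) a) ∈ OV V :=
    fun a => eStd_aeval_mem_OV N hV a
  have het : eStd N (tFull N) = τ (x0 N) := by
    refine (hasExp_eStd_tFull N).unique (isChart_infty N) ?_
    refine (ht (x0 N)).congr (Eventually.of_forall fun z => ?_)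
    exact cvec_base (IsInv.jD (dvd_refl N)) z
  have htO : eStd N (tFull N) ∈ OV V := by rw [het]; exact ⟨_, rfl⟩
  have hder : eStd N (aeval (tFull N) (derivative (minpoly (Zl ℓ)[X] (tFull N)))) =
      ∏ y ∈ Finset.univ.erase (x0 N), (τ (x0 N) - τ y) := by
    rw [← eval_derivative_pol1, ← hmin, derivative_map, eval_map, ← het, aeval_def, hom_eval₂]
  have hunit : (eStd N (aeval (tFull N) (derivative (minpoly (Zl ℓ)[X] (tFull N)))))⁻¹ ∈ OV V := by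
    rw [hder, ← Finset.prod_inv_distrib]
    refine Subring.prod_mem _ fun y hy => ?_
    have hne : x0 N ≠ y := fun h => by simp [h] at hy
    obtain ⟨u, hu'⟩ := hu (x0 N) y hne
    refine ⟨((u⁻¹ : (LaurentSeries V)ˣ) : LaurentSeries V), ?_⟩
    have h1 : iV V (u : LaurentSeries V) *
        iV V ((u⁻¹ : (LaurentSeries V)ˣ) : LaurentSeries V) = 1 := by
      rw [← map_mul]; simp
    rw [hu', map_sub] at h1
    exact eq_inv_of_mul_eq_one_right h1
  have hdeg : (minpoly (Zl ℓ)[X] (tFull N)).natDegree = Fintype.card (X0 N) := by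
    rw [← natDegree_pol1 τ, ← hmin, (minpoly.monic htint).natDegree_map]
  have hl : (C (ℓ : Zl ℓ) : (Zl ℓ)[X]) ≠ 0 := by
    rw [Ne, C_eq_zero]
    exact natCast_ne_zero_Zl ℓ
  have hlF : algebraMap (Zl ℓ)[X] (FF N) (C (ℓ : Zl ℓ)) = (ℓ : FF N) := by
    rw [halg, aeval_C, map_natCast]
  have hint : ∀ a : FF N, a ∈ chartAlgFin N ℓ ↔ IsIntegral (Zl ℓ)[X] a :=
    fun a => mem_chartAlgFin_iff N ℓ a
  constructor
  · intro a ha
    exact core_int (K := FractionRing (Zl ℓ)[X]) (eStd N) (OV V) hA (tFull N) htint htop htO hunit a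
      ((hint a).mp ha)
  · intro a ha hdiv
    obtain ⟨b, hb, hab⟩ := core_div (K := FractionRing (Zl ℓ)[X]) (eStd N) (OV V) hA (tFull N)
      htint htop htO hunit (C (ℓ : Zl ℓ)) hl
      (fun B hB hy => hirr B (hdeg ▸ hB) (by
        rw [hlF, map_natCast] at hy
        exact hy))
      a ((hint a).mp ha) (by rw [hlF, map_natCast]; exact hdiv)
    exact ⟨b, (hint b).mpr hb, by rw [hab, hlF]⟩

theorem coeff_mem_of_eStd_mem {V : ValuationSubring ℂ} (hV : ((ℓ : ℂ))⁻¹ ∉ V) (a : FF N)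
    (h : eStd N a ∈ OV V) (n : ℤ) :
    (a : LaurentSeries ℚ).coeff n ∈ GaloisRep.ratLocalizedAt ℓ := by
  rw [← ratCast_mem_V_iff hV, ← eStd_coeff_mul]
  exact (mem_OV_iff V _).mp h _

theorem exists_eStd_eq_mul {V : ValuationSubring ℂ} (hV : ((ℓ : ℂ))⁻¹ ∉ V) (a : FF N)
    (h : ∀ n : ℤ, ∃ b ∈ GaloisRep.ratLocalizedAt ℓ, (a : LaurentSeries ℚ).coeff n = ℓ * b) :
    ∃ y ∈ OV V, eStd N a = (ℓ : LaurentSeries ℂ) * y := by
  have hℓ : ℓ.Prime := Fact.out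
  have hℓ0 : (ℓ : ℂ) ≠ 0 := by exact_mod_cast hℓ.ne_zero
  refine ⟨HahnSeries.C ((ℓ : ℂ)⁻¹) * eStd N a, ?_, ?_⟩
  · rw [mem_OV_iff]
    intro n
    rw [HahnSeries.C_mul_eq_smul, HahnSeries.coeff_smul, smul_eq_mul]
    by_cases hn : (N : ℤ) ∣ n
    · obtain ⟨m, rfl⟩ := hn
      obtain ⟨b, hb, hab⟩ := h m
      rw [eStd_coeff_mul, hab]
      push_cast
      rw [inv_mul_cancel_left₀ hℓ0]
      exact (ratCast_mem_V_iff hV b).mpr hb
    · rw [eStd_coeff_of_not_dvd N a hn, mul_zero]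
      exact V.zero_mem
  · have : (ℓ : LaurentSeries ℂ) = HahnSeries.C (ℓ : ℂ) := (map_natCast _ _).symm
    rw [this, ← mul_assoc, ← map_mul, mul_inv_cancel₀ hℓ0, map_one, one_mul]

theorem isQEP_fin_aux (V : ValuationSubring ℂ) (hV : ((ℓ : ℂ))⁻¹ ∉ V)
    (tV : X0 N → LaurentSeries V)
    (ht : ∀ x, HasExp atImInfty (qN N) (fun τ => cvec N (jD N) τ x) (iV V (tV x)))
    (hu : ∀ x y, x ≠ y → IsUnit (tV x - tV y))
    (hcoef : ∀ i, ∃ a : (Zl ℓ)[X],
      eStd N (aeval (jFull N) a) = (pol1 fun x => iV V (tV x)).coeff i)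
    (hirr : ∀ B : (Zl ℓ)[X][X], B.natDegree < Fintype.card (X0 N) →
      (∃ y ∈ OV V, eStd N (eval₂ (aeval (jFull N) : (Zl ℓ)[X] →ₐ[Zl ℓ] FF N).toRingHom
        (tFull N) B) = (ℓ : LaurentSeries ℂ) * y) →
      ∃ B' : (Zl ℓ)[X][X], B = C (C (ℓ : Zl ℓ)) * B') :
    IsQEP N ℓ (chartAlgFin N ℓ) := by
  obtain ⟨h1, h2⟩ := qep_fin_aux N ℓ V hV tV ht hu hcoef hirr
  exact ⟨fun a ha n => coeff_mem_of_eStd_mem N ℓ hV a (h1 a ha) n,
    fun a ha h => h2 a ha (exists_eStd_eq_mul N ℓ hV a h)⟩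

end Fermat.Agent.S28Lib
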