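import Mathlib
import Fermat.Prelude.Def_ModularCurve_IgusaScheme
import Fermat.Prelude.Def_ModularCurve_LaurentCoeff
import Fermat.Agent.S24.Conj
import Fermat.Agent.S24.HasExp

/-!
# S28 : shared definitions
-/

set_option autoImplicit false

open UpperHalfPlane hiding I
open ModularCurve ModularCurve.IgusaScheme Polynomial
open scoped MatrixGroups

namespace Fermat.Agent.S28Lib

open Fermat.Agent.S20Lib Fermat.Agent.S24Lib

/-- `ℤ_(ℓ)` -/
abbrev Zl (ℓ : ℕ) : Type := ↥(GaloisRep.ratLocalizedAt ℓ)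

/-- the function field `ℚ(j(q^d) : d ∣ N) ⊆ ℚ((q))` -/
abbrev FF (N : ℕ) [NeZero N] : Type := ↥(modularFunctionFieldFull N)

/-- `j = 1/q + 744 + ...` with coefficients in any commutative ring -/
noncomputable def jR (R : Type*) [CommRing R] : LaurentSeries R :=
  HahnSeries.single (-1 : ℤ) 1 * HahnSeries.ofPowerSeries ℤ R (jNum.map (Int.castRingHom R))

/-- `Δ = q ∏ (1 - q^n)^24` with coefficients in any commutative ring -/
noncomputable def dR (R : Type*) [CommRing R] : LaurentSeries R :=
  HahnSeries.single (1 : ℤ) 1 *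
    HahnSeries.ofPowerSeries ℤ R (dedekindEtaUnit.map (Int.castRingHom R))

/-- `j(u^N)`, `u = q^(1/N)` -/
noncomputable def JJ (R : Type*) [CommRing R] (N : ℕ) [NeZero N] : LaurentSeries R :=
  qExpand R N (jR R)

/-- evaluation of polynomials at `j(u^N)` -/
noncomputable def evJ (R : Type*) [CommRing R] (N : ℕ) [NeZero N] : R[X] →+* LaurentSeries R :=
  (Polynomial.aeval (JJ R N) : R[X] →ₐ[R] LaurentSeries R).toRingHom

/-- the standard expansion, in the variable `u = q^(1/N)`, with complex coefficients -/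
noncomputable def eStd (N : ℕ) [NeZero N] : FF N →+* LaurentSeries ℂ :=
  (qExpand ℂ N).comp ((coeffMap (algebraMap ℚ ℂ)).comp (algebraMap (FF N) (LaurentSeries ℚ)))

/-- `t = j(q^N)` -/
noncomputable def tFull (N : ℕ) [NeZero N] : FF N := ⟨qExpand ℚ N jq, jqd_mem_full N dvd_rfl⟩

/-- the inclusion `V((u)) → ℂ((u))` -/
noncomputable def iV (V : ValuationSubring ℂ) : LaurentSeries V →+* LaurentSeries ℂ :=
  coeffMap V.subtype

/-- `V((u))` as a subring of `ℂ((u))` -/
noncomputable def OV (V : ValuationSubring ℂ) : Subring (LaurentSeries ℂ) := (iV V).range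

/-- the residue field of `V` -/
abbrev kV (V : ValuationSubring ℂ) : Type := IsLocalRing.ResidueField V

/-- reduction of the coefficients -/
noncomputable def redV (V : ValuationSubring ℂ) : LaurentSeries V →+* LaurentSeries (kV V) :=
  coeffMap (IsLocalRing.residue V)

/-- the base point (the cusp `∞`) -/
def x0 (N : ℕ) : X0 N := ((1 : SL(2, ℤ)) : X0 N)

/-- `∏ (Y - a_x)` -/
noncomputable def pol1 {R X : Type*} [CommRing R] [Fintype X] (a : X → R) : R[X] :=
  ∏ x, (Polynomial.X - C (a x))

/-- the Lagrange numerator `∑ b_x ∏_{y ≠ x} (Y - a_y)` -/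
noncomputable def pol2 {R X : Type*} [CommRing R] [Fintype X] [DecidableEq X] (a b : X → R) : R[X] :=
  ∑ x, C (b x) * ∏ y ∈ Finset.univ.erase x, (Polynomial.X - C (a y))

end Fermat.Agent.S28Lib
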