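import Fermat.Agent.S28.Basic

/-!
# S28 : [GAUSS]  a polynomial in `j` whose expansion has coefficients in a subring has
coefficients in this subring
-/

set_option autoImplicit false

open ModularCurve Polynomial

namespace Fermat.Agent.S28Lib

section

variable (N : ℕ) [NeZero N]

theorem order_JJ_pow (i : ℕ) : (JJ ℂ N ^ i).order = -((N : ℤ) * i) := by
  rw [HahnSeries.order_pow, order_JJ]
  simp
  ring

theorem leadingCoeff_JJ_pow (i : ℕ) : (JJ ℂ N ^ i).leadingCoeff = 1 := by
  induction i with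
  | zero => rw [pow_zero, HahnSeries.leadingCoeff_one]
  | succ i ih => rw [pow_succ, HahnSeries.leadingCoeff_mul, ih, leadingCoeff_JJ, one_mul]

theorem coeff_JJ_pow_self (i : ℕ) : (JJ ℂ N ^ i).coeff (-((N : ℤ) * i)) = 1 := by
  rw [← order_JJ_pow, ← HahnSeries.leadingCoeff_eq, leadingCoeff_JJ_pow]

theorem coeff_JJ_pow_of_lt {i d : ℕ} (h : i < d) : (JJ ℂ N ^ i).coeff (-((N : ℤ) * d)) = 0 := by
  apply HahnSeries.coeff_eq_zero_of_lt_order
  rw [order_JJ_pow]
  have hN : (0 : ℤ) < N := by exact_mod_cast Nat.pos_of_ne_zero (NeZero.ne N)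
  have : (i : ℤ) < d := by exact_mod_cast h
  nlinarith

theorem evJ_eq_sum (p : ℂ[X]) (d : ℕ) (hp : ∀ m, d < m → p.coeff m = 0) :
    evJ ℂ N p = ∑ i ∈ Finset.range (d + 1), HahnSeries.C (p.coeff i) * JJ ℂ N ^ i := by
  have hdeg : p.natDegree < d + 1 := Nat.lt_succ_of_le (natDegree_le_iff_coeff_eq_zero.mpr hp)
  show aeval (JJ ℂ N) p = _
  rw [aeval_eq_sum_range' hdeg]
  refine Finset.sum_congr rfl fun i _ => ?_
  rw [Algebra.smul_def, algebraMap_eq_C]

theorem coeff_evJ_top (p : ℂ[X]) (d : ℕ) (hp : ∀ m, d < m → p.coeff m = 0) :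
    (evJ ℂ N p).coeff (-((N : ℤ) * d)) = p.coeff d := by
  rw [evJ_eq_sum N p d hp, HahnSeries.coeff_sum, Finset.sum_range_succ, Finset.sum_eq_zero,
    zero_add, HahnSeries.C_apply, HahnSeries.coeff_single_zero_mul, coeff_JJ_pow_self, mul_one]
  intro i hi
  rw [HahnSeries.C_apply, HahnSeries.coeff_single_zero_mul,
    coeff_JJ_pow_of_lt N (Finset.mem_range.mp hi), mul_zero]

theorem coeff_JJ_pow_mem (W : Subring ℂ) (i : ℕ) (n : ℤ) : (JJ ℂ N ^ i).coeff n ∈ W := by
  have h : JJ ℂ N ^ i = coeffMap W.subtype (JJ W N ^ i) := by rw [map_pow, coeffMap_JJ]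
  rw [h, coeffMap_coeff]
  exact ((JJ W N ^ i).coeff n).2

theorem gauss_J_aux (W : Subring ℂ) : ∀ (d : ℕ) (p : ℂ[X]), (∀ m, d ≤ m → p.coeff m = 0) →
    (∀ n : ℤ, (evJ ℂ N p).coeff n ∈ W) → ∀ i : ℕ, p.coeff i ∈ W := by
  intro d
  induction d with
  | zero =>
    intro p hp _ i
    rw [hp i (Nat.zero_le i)]
    exact W.zero_mem
  | succ d ih =>
    intro p hp h i
    have ha : p.coeff d ∈ W := by
      rw [← coeff_evJ_top N p d (fun m hm => hp m hm)]
      exact h _
    have h1 : ∀ i, (p.erase d).coeff i ∈ W := by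
      apply ih
      · intro m hm
        rw [coeff_erase]
        split_ifs with hmd
        · rfl
        · exact hp m (by omega)
      · intro n
        have h2 : evJ ℂ N (p.erase d) = evJ ℂ N p - HahnSeries.C (p.coeff d) * JJ ℂ N ^ d := by
          have h3 : evJ ℂ N p = evJ ℂ N (monomial d (p.coeff d)) + evJ ℂ N (p.erase d) := by
            rw [← map_add, monomial_add_erase]
          have h4 : evJ ℂ N (monomial d (p.coeff d)) = HahnSeries.C (p.coeff d) * JJ ℂ N ^ d := by
            show aeval (JJ ℂ N) (monomial d (p.coeff d)) = _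
            rw [aeval_monomial, algebraMap_eq_C]
          rw [h3, h4]
          ring
        rw [h2, HahnSeries.coeff_sub, HahnSeries.C_apply, HahnSeries.coeff_single_zero_mul]
        exact W.sub_mem (h n) (W.mul_mem ha (coeff_JJ_pow_mem N W d n))
    by_cases hid : i = d
    · rw [hid]; exact ha
    · have := h1 i
      rwa [coeff_erase, if_neg hid] at this

theorem gauss_J (W : Subring ℂ) (p : ℂ[X])
    (h : ∀ n : ℤ, (evJ ℂ N p).coeff n ∈ W) (i : ℕ) : p.coeff i ∈ W :=
  gauss_J_aux N W (p.natDegree + 1) p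
    (fun _ hm => coeff_eq_zero_of_natDegree_lt (Nat.lt_of_succ_le hm)) h i

end

end Fermat.Agent.S28Lib
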