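import Mathlib
import Fermat.Prelude.Def_ModularCurve_IgusaScheme

/-!
# S28 : leaf [A]  (scheme theoretic glue)

If the three rings `chartAlgFin ⊗ K`, `chartAlgInf ⊗ K` are domains and `chartAlgMid ⊗ K` is
nontrivial, then the base change of the Igusa scheme to `K` is integral.
-/

set_option autoImplicit false

open AlgebraicGeometry CategoryTheory CategoryTheory.Limits ModularCurve ModularCurve.IgusaScheme
open scoped TensorProduct

namespace Fermat.Agent.S28Lib

/-- a space covered by two irreducible open subsets which meet is irreducible -/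
theorem irreducibleSpace_of_two_opens {X : Type*} [TopologicalSpace X] {U₁ U₂ : Set X}
    (ho₁ : IsOpen U₁) (h₁ : IsPreirreducible U₁) (h₂ : IsPreirreducible U₂)
    (hcov : ∀ x, x ∈ U₁ ∨ x ∈ U₂) (hmeet : (U₁ ∩ U₂).Nonempty) : IrreducibleSpace X := by
  have key : ∀ V : Set X, IsOpen V → V.Nonempty → (U₁ ∩ V).Nonempty := by
    intro V hV ⟨x, hx⟩
    rcases hcov x with h | h
    · exact ⟨x, h, hx⟩
    · obtain ⟨y, -, hy1, hy2⟩ := h₂ V U₁ hV ho₁ ⟨x, h, hx⟩ (by rwa [Set.inter_comm])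
      exact ⟨y, hy2, hy1⟩
  have : PreirreducibleSpace X := by
    constructor
    intro V W hV hW hV' hW'
    rw [Set.univ_inter] at hV' hW' ⊢
    obtain ⟨y, -, hy⟩ := h₁ V W hV hW (key V hV hV') (key W hW hW')
    exact ⟨y, hy⟩
  exact { toPreirreducibleSpace := this, toNonempty := ⟨hmeet.some⟩ }

universe u

/-- a scheme covered by two integral open subschemes which meet is integral -/
theorem isIntegral_of_two_opens {X U₁ U₂ : Scheme.{u}} (ι₁ : U₁ ⟶ X) (ι₂ : U₂ ⟶ X)
    [IsOpenImmersion ι₁] [IsOpenImmersion ι₂] [IsIntegral U₁] [IsIntegral U₂]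
    (hcov : ∀ x : X, x ∈ Set.range ι₁ ∨ x ∈ Set.range ι₂)
    (hmeet : ∃ x : X, x ∈ Set.range ι₁ ∧ x ∈ Set.range ι₂) : IsIntegral X := by
  have hirr : IrreducibleSpace X := by
    refine irreducibleSpace_of_two_opens (U₁ := Set.range ι₁) (U₂ := Set.range ι₂)
      ι₁.isOpenEmbedding.isOpen_range ?_ ?_ hcov hmeet
    · rw [← Set.image_univ]
      exact (PreirreducibleSpace.isPreirreducible_univ).image _ ι₁.continuous.continuousOn
    · rw [← Set.image_univ]
      exact (PreirreducibleSpace.isPreirreducible_univ).image _ ι₂.continuous.continuousOn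
  have hred : IsReduced X := by
    have : ∀ x : X, _root_.IsReduced (X.presheaf.stalk x) := by
      intro x
      rcases hcov x with ⟨y, rfl⟩ | ⟨y, rfl⟩
      · exact isReduced_of_injective (ι₁.stalkMap y).hom
          (ConcreteCategory.bijective_of_isIso (ι₁.stalkMap y)).injective
      · exact isReduced_of_injective (ι₂.stalkMap y).hom
          (ConcreteCategory.bijective_of_isIso (ι₂.stalkMap y)).injective
    exact isReduced_of_isReduced_stalk X
  exact isIntegral_of_irreducibleSpace_of_isReduced X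

section igusa

variable (N : ℕ) [NeZero N] (ℓ : ℕ) [Fact ℓ.Prime]
  (K : Type) [Field K] [Algebra ↥(GaloisRep.ratLocalizedAt ℓ) K]

set_option quotPrecheck false in
local notation "ℤℓ" => ↥(GaloisRep.ratLocalizedAt ℓ)

/-- **leaf [A]** -/
theorem isIntegral_pullback_of_isDomain
    (hFin : IsDomain (↥(chartAlgFin N ℓ) ⊗[ℤℓ] K))
    (hInf : IsDomain (↥(chartAlgInf N ℓ) ⊗[ℤℓ] K))
    (hMid : Nontrivial (↥(chartAlgMid N ℓ) ⊗[ℤℓ] K)) :
    IsIntegral ↑(pullback (igusaTo N ℓ)
      (Spec.map (CommRingCat.ofHom (algebraMap ↥(GaloisRep.ratLocalizedAt ℓ) K)))) := by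
  set g := Spec.map (CommRingCat.ofHom (algebraMap ↥(GaloisRep.ratLocalizedAt ℓ) K)) with hg
  let bFin : pullback (Spec.map (CommRingCat.ofHom (algebraMap ℤℓ (chartAlgFin N ℓ)))) g ⟶
      pullback (igusaTo N ℓ) g :=
    pullback.map _ g (igusaTo N ℓ) g (ιFin N ℓ) (𝟙 _) (𝟙 _) (by simp) (by simp)
  let bInf : pullback (Spec.map (CommRingCat.ofHom (algebraMap ℤℓ (chartAlgInf N ℓ)))) g ⟶
      pullback (igusaTo N ℓ) g :=
    pullback.map _ g (igusaTo N ℓ) g (ιInf N ℓ) (𝟙 _) (𝟙 _) (by simp) (by simp)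
  have iFin : IsIntegral
      (pullback (Spec.map (CommRingCat.ofHom (algebraMap ℤℓ (chartAlgFin N ℓ)))) g) :=
    IsIntegral.of_isIso (pullbackSpecIso ℤℓ (chartAlgFin N ℓ) K).inv
  have iInf : IsIntegral
      (pullback (Spec.map (CommRingCat.ofHom (algebraMap ℤℓ (chartAlgInf N ℓ)))) g) :=
    IsIntegral.of_isIso (pullbackSpecIso ℤℓ (chartAlgInf N ℓ) K).inv
  have rFin : Set.range bFin = pullback.fst (igusaTo N ℓ) g ⁻¹' Set.range (ιFin N ℓ) := by
    rw [Scheme.Pullback.range_map]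
    simp
  have rInf : Set.range bInf = pullback.fst (igusaTo N ℓ) g ⁻¹' Set.range (ιInf N ℓ) := by
    rw [Scheme.Pullback.range_map]
    simp
  refine isIntegral_of_two_opens bFin bInf ?_ ?_
  · intro x
    rw [rFin, rInf]
    exact mem_range_ιFin_or_mem_range_ιInf N ℓ _
  · have e₁ : Spec.map (CommRingCat.ofHom (algebraMap ℤℓ (chartAlgMid N ℓ))) ≫ 𝟙 _
        = (fFin N ℓ ≫ ιFin N ℓ) ≫ igusaTo N ℓ := by
      rw [Category.comp_id, Category.assoc, ιFin_igusaTo, ← Spec.map_comp,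
        ← CommRingCat.ofHom_comp]
      congr 2
    let bMid : pullback (Spec.map (CommRingCat.ofHom (algebraMap ℤℓ (chartAlgMid N ℓ)))) g ⟶
        pullback (igusaTo N ℓ) g :=
      pullback.map _ g (igusaTo N ℓ) g (fFin N ℓ ≫ ιFin N ℓ) (𝟙 _) (𝟙 _) e₁ (by simp)
    have hne : Nonempty (Spec (CommRingCat.of (↥(chartAlgMid N ℓ) ⊗[ℤℓ] K))) := inferInstance
    obtain ⟨w₀⟩ := hne
    set w := (pullbackSpecIso ℤℓ (chartAlgMid N ℓ) K).inv w₀ with hw
    have hfst : pullback.fst (igusaTo N ℓ) g (bMid w)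
        = (fFin N ℓ ≫ ιFin N ℓ) (pullback.fst _ g w) := by
      have hm : bMid ≫ pullback.fst (igusaTo N ℓ) g
          = pullback.fst _ g ≫ (fFin N ℓ ≫ ιFin N ℓ) := by
        simp only [bMid, pullback.map, pullback.lift_fst]
      rw [← Scheme.Hom.comp_apply, hm, Scheme.Hom.comp_apply]
    refine ⟨bMid w, ?_, ?_⟩
    · rw [rFin, Set.mem_preimage, hfst, Scheme.Hom.comp_apply]
      exact ⟨_, rfl⟩
    · rw [rInf, Set.mem_preimage, hfst, glue_condition, Scheme.Hom.comp_apply]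
      exact ⟨_, rfl⟩

end igusa

end Fermat.Agent.S28Lib
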