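import Fermat.Agent.S28.SymAux
import Fermat.Agent.S28.ZlV
import Fermat.Agent.S28.LinDep
import Fermat.Agent.S28.Gauss

/-!
# S28 [HCOEF] : the coefficients of `∏ (Y - t_x)` are polynomials in `j` over `ℤ_(ℓ)`
(with `descent` as a hypothesis)
-/

set_option autoImplicit false

open UpperHalfPlane hiding I
open ModularCurve ModularCurve.IgusaScheme Polynomial Filter
open scoped MatrixGroups Manifold

namespace Fermat.Agent.S28Lib

open Fermat.Agent.S20Lib Fermat.Agent.S24Lib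

/-- two embeddings which agree on `j` agree on `ℤ_(ℓ)[j]` -/
theorem hom_aeval_jFull_eq (N : ℕ) [NeZero N] (ℓ : ℕ) [Fact ℓ.Prime]
    (φ ψ : FF N →+* LaurentSeries ℂ) (h : φ (jFull N) = ψ (jFull N)) (a : (Zl ℓ)[X]) :
    φ (aeval (jFull N) a) = ψ (aeval (jFull N) a) := by
  have hc : ∀ r : Zl ℓ, φ (algebraMap (Zl ℓ) (FF N) r) = ψ (algebraMap (Zl ℓ) (FF N) r) := by
    intro r
    have h1 : algebraMap (Zl ℓ) (FF N) r = algebraMap ℚ (FF N) (r : ℚ) := rfl
    rw [h1]
    exact RingHom.congr_fun (RingHom.ext_rat (φ.comp (algebraMap ℚ (FF N)))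
      (ψ.comp (algebraMap ℚ (FF N)))) (r : ℚ)
  induction a using Polynomial.induction_on' with
  | add p q hp hq => simp [hp, hq]
  | monomial n r =>
    rw [aeval_monomial, map_mul, map_mul, map_pow, map_pow, h, hc]

theorem aeval_jFull_ne_zero (N : ℕ) [NeZero N] (ℓ : ℕ) [Fact ℓ.Prime] (V : ValuationSubring ℂ)
    (hV : ((ℓ : ℂ))⁻¹ ∉ V) (a : (Zl ℓ)[X]) (ha : a ≠ 0) : aeval (jFull N) a ≠ 0 := by
  intro h0
  have h1 := eStd_aeval_jFull N hV a
  rw [h0, map_zero, iV_evJ, Polynomial.map_map] at h1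
  have h2 := transcendental_JJ ℂ N
  rw [transcendental_iff] at h2
  have h3 := h2 _ h1.symm
  apply ha
  have hinj : Function.Injective (V.subtype.comp (zlV hV)) := by
    intro x y hxy
    have : (((x : ℚ) : ℂ)) = (((y : ℚ) : ℂ)) := hxy
    exact Subtype.ext (by exact_mod_cast this)
  exact (Polynomial.map_eq_zero_iff hinj).1 h3

/-- the coefficients of `∏ (Y - t_x)` have rational expansions -/
theorem pol1_coeff_rat (N : ℕ) [NeZero N] (ℓ : ℕ) [Fact ℓ.Prime]
    (V : ValuationSubring ℂ) (hV : ((ℓ : ℂ))⁻¹ ∉ V) (tV : X0 N → LaurentSeries V)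
    (ht : ∀ x, HasExp atImInfty (qN N) (fun τ => cvec N (jD N) τ x) (iV V (tV x)))
    (hu : ∀ x y, x ≠ y → IsUnit (tV x - tV y)) (i : ℕ) :
    ∃ b : FF N, eStd N b = (pol1 fun x => iV V (tV x)).coeff i := by
  classical
  set n := Fintype.card (X0 N) with hn
  set τ : X0 N → LaurentSeries ℂ := fun x => iV V (tV x) with hτ
  have hτinj : Function.Injective τ := by
    intro x y hxy
    by_contra hne
    have h1 := hu x y hne
    have h2 : tV x = tV y := iV_injective V hxy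
    rw [h2, sub_self] at h1
    exact not_isUnit_zero h1
  obtain ⟨σ, hσj, hσt⟩ := exists_sigma N
  have hσt' : ∀ x, σ x (tFull N) = τ x := fun x => (hσt x).unique (isChart_infty N) (ht x)
  obtain ⟨c, hc0, hc⟩ := lin_dep N ℓ (fun k => tFull N ^ (k : ℕ))
  let Q : (LaurentSeries ℂ)[X] := ∑ k : Fin (n + 1), C (eStd N (aeval (jFull N) (c k))) * X ^ (k : ℕ)
  have hQcoeff : ∀ k : Fin (n + 1), Q.coeff k = eStd N (aeval (jFull N) (c k)) := by
    intro k
    simp only [Q, Polynomial.finsetSum_coeff, coeff_C_mul, coeff_X_pow]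
    rw [Finset.sum_eq_single k]
    · simp
    · intro b _ hb
      have : (k : ℕ) ≠ (b : ℕ) := fun h => hb (Fin.ext h.symm)
      simp [this]
    · simp
  have hQdeg : Q.natDegree ≤ n := by
    apply Polynomial.natDegree_sum_le_of_forall_le
    intro k _
    refine (natDegree_C_mul_X_pow_le _ _).trans ?_
    have := k.2
    omega
  have hQ0 : Q ≠ 0 := by
    obtain ⟨k, hk⟩ := Function.ne_iff.1 hc0
    intro h0
    have h1 := hQcoeff k
    rw [h0, coeff_zero] at h1
    exact aeval_jFull_ne_zero N ℓ V hV (c k) hk ((map_eq_zero (eStd N)).1 h1.symm)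
  have hQroot : ∀ x, Q.eval (τ x) = 0 := by
    intro x
    have h1 := congrArg (σ x) hc
    rw [map_zero, map_sum] at h1
    simp only [Q, eval_finsetSum, eval_mul, eval_C, eval_pow, eval_X]
    rw [← h1]
    refine Finset.sum_congr rfl fun k _ => ?_
    rw [map_mul, map_pow, hσt', hom_aeval_jFull_eq N ℓ (σ x) (eStd N) (by rw [hσj, eStd_jFull])]
  have hdvd : pol1 τ ∣ Q := by
    apply Finset.prod_dvd_of_coprime
    · intro x _ y _ hxy
      exact Polynomial.pairwise_coprime_X_sub_C hτinj hxy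
    · intro x _
      exact Polynomial.dvd_iff_isRoot.2 (hQroot x)
  obtain ⟨R, hR⟩ := hdvd
  have hR0 : R ≠ 0 := by
    rintro rfl
    rw [mul_zero] at hR
    exact hQ0 hR
  have hRdeg : R.natDegree = 0 := by
    have h1 := Polynomial.natDegree_mul (monic_pol1 τ).ne_zero hR0
    rw [← hR, natDegree_pol1] at h1
    omega
  obtain ⟨r, hr⟩ : ∃ r, R = C r := ⟨_, Polynomial.eq_C_of_natDegree_eq_zero hRdeg⟩
  have hr0 : r ≠ 0 := by
    rintro rfl
    rw [hr, C_0] at hR0
    exact hR0 rfl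
  have hcoef : ∀ k, Q.coeff k = (pol1 τ).coeff k * r := by
    intro k
    rw [hR, hr, coeff_mul_C]
  have hrn : r = eStd N (aeval (jFull N) (c (Fin.last n))) := by
    have h1 := hcoef n
    have h2 : (pol1 τ).coeff n = 1 := by
      have := (monic_pol1 τ).coeff_natDegree
      rwa [natDegree_pol1] at this
    rw [h2, one_mul] at h1
    rw [← h1]
    exact hQcoeff (Fin.last n)
  by_cases hi : i < n + 1
  · refine ⟨aeval (jFull N) (c ⟨i, hi⟩) / aeval (jFull N) (c (Fin.last n)), ?_⟩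
    rw [map_div₀, ← hrn, ← hQcoeff ⟨i, hi⟩, hcoef]
    field_simp
  · refine ⟨0, ?_⟩
    rw [map_zero, coeff_eq_zero_of_natDegree_lt]
    rw [natDegree_pol1]
    omega

theorem hcoef_fin_aux (N : ℕ) [NeZero N] (ℓ : ℕ) [Fact ℓ.Prime]
    (V : ValuationSubring ℂ) (hV : ((ℓ : ℂ))⁻¹ ∉ V) (hD : DescentProp N V)
    (tV : X0 N → LaurentSeries V)
    (ht : ∀ x, HasExp atImInfty (qN N) (fun τ => cvec N (jD N) τ x) (iV V (tV x)))
    (hu : ∀ x y, x ≠ y → IsUnit (tV x - tV y)) (i : ℕ) :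
    ∃ a : (Zl ℓ)[X], eStd N (aeval (jFull N) a) = (pol1 fun x => iV V (tV x)).coeff i := by
  obtain ⟨P, hP⟩ := sym_pol1_aux N V hD (jD N) (jD_holo N) (IsInv.jD dvd_rfl) tV ht
  obtain ⟨b, hb⟩ := pol1_coeff_rat N ℓ V hV tV ht hu i
  have h1 : (pol1 fun x => iV V (tV x)).coeff i = evJ ℂ N ((P.coeff i).map V.subtype) := by
    rw [← pol1_map, ← hP, coeff_map, coeff_map, iV_evJ]
  let W : Subring ℂ := (algebraMap ℚ ℂ).range
  have h2 : ∀ m : ℤ, (evJ ℂ N ((P.coeff i).map V.subtype)).coeff m ∈ W := by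
    intro m
    rw [← h1, ← hb]
    by_cases hm : (N : ℤ) ∣ m
    · obtain ⟨m', rfl⟩ := hm
      rw [eStd_coeff_mul]
      exact ⟨_, rfl⟩
    · rw [eStd_coeff_of_not_dvd N b hm]
      exact zero_mem _
  have h3 : P.coeff i ∈ Polynomial.lifts (zlV hV) := by
    rw [Polynomial.lifts_iff_coeff_lifts]
    intro k
    obtain ⟨q, hq⟩ := gauss_J N W _ h2 k
    rw [coeff_map] at hq
    have hq' : (q : ℂ) = (((P.coeff i).coeff k : V) : ℂ) := hq
    have hqV : (q : ℂ) ∈ V := by rw [hq']; exact ((P.coeff i).coeff k).2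
    refine ⟨⟨q, (ratCast_mem_V_iff hV q).1 hqV⟩, ?_⟩
    apply Subtype.ext
    rw [coe_zlV]
    exact hq'
  obtain ⟨a, ha⟩ := (Polynomial.mem_lifts _).1 h3
  refine ⟨a, ?_⟩
  rw [eStd_aeval_jFull N hV, ha, h1, iV_evJ]

end Fermat.Agent.S28Lib
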