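import Fermat.Agent.S28.Defs
import Fermat.Agent.S24.DegreeAlg

/-!
# S28 [IRR] : the modular unit trick (abstract form)
-/

set_option autoImplicit false
set_option linter.unusedVariables false

open Polynomial

namespace Fermat.Agent.S28Lib

section abs

variable {R S Y : Type*} [CommRing R] [IsDomain R] [IsIntegrallyClosed R] [Field S] [Algebra R S]
  [Module.IsTorsionFree R S] [Fintype Y] [DecidableEq Y]

theorem irr_prod_order (ord : S → ℤ) (hmul : ∀ a b : S, a ≠ 0 → b ≠ 0 → ord (a * b) = ord a + ord b)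
    (B : Multiset S) (hB : ∀ r ∈ B, r ≠ 0 ∧ ord r < 0) (hne : B ≠ 0) :
    B.prod ≠ 0 ∧ ord B.prod < 0 := by
  induction B using Multiset.induction_on with
  | empty => exact absurd rfl hne
  | cons a s ih =>
    have ha := hB a (Multiset.mem_cons_self a s)
    by_cases hs : s = 0
    · subst hs
      simpa using ha
    · have h2 := ih (fun r hr => hB r (Multiset.mem_cons_of_mem hr)) hs
      rw [Multiset.prod_cons]
      refine ⟨mul_ne_zero ha.1 h2.1, ?_⟩
      rw [hmul _ _ ha.1 h2.1]
      have := ha.2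
      have := h2.2
      omega

theorem irr_natDegree_minpoly (y₀ : Y) (w : Y → S) (W0 : R[X])
    (hW : W0.map (algebraMap R S) = pol1 w) (hu : IsUnit (W0.coeff 0)) (ord : S → ℤ)
    (hmul : ∀ a b : S, a ≠ 0 → b ≠ 0 → ord (a * b) = ord a + ord b)
    (hone : ∀ u : R, IsUnit u → ord (algebraMap R S u) = 0)
    (hord : ∀ y, y ≠ y₀ → ord (w y) < 0) :
    (minpoly R (w y₀)).natDegree = Fintype.card Y := by
  classical
  have hinj : Function.Injective (algebraMap R S) := FaithfulSMul.algebraMap_injective R S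
  have hmonW : (pol1 w).Monic := monic_prod_of_monic _ _ fun y _ => monic_X_sub_C (w y)
  have hW0mon : W0.Monic := by
    apply monic_of_injective hinj
    rw [hW]; exact hmonW
  have hroot : aeval (w y₀) W0 = 0 := by
    rw [aeval_def, ← eval_map, hW, pol1, eval_prod]
    exact Finset.prod_eq_zero (Finset.mem_univ y₀) (by simp)
  have hint : IsIntegral R (w y₀) := ⟨W0, hW0mon, by rwa [aeval_def] at hroot⟩
  obtain ⟨m', hm'⟩ := minpoly.isIntegrallyClosed_dvd hint hroot
  set m := minpoly R (w y₀) with hm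
  have hmmon : m.Monic := minpoly.monic hint
  have hm'mon : m'.Monic := by
    rw [hm'] at hW0mon
    exact hmmon.of_mul_monic_left hW0mon
  -- roots
  have hrW : (pol1 w).roots = Finset.univ.val.map w := by
    have : pol1 w = ((Finset.univ.val.map w).map fun a => X - C a).prod := by
      rw [pol1, Multiset.map_map]; rfl
    rw [this, roots_multiset_prod_X_sub_C]
  have hmap : m.map (algebraMap R S) * m'.map (algebraMap R S) = pol1 w := by
    rw [← Polynomial.map_mul, ← hm', hW]
  have hrsum : (m.map (algebraMap R S)).roots + (m'.map (algebraMap R S)).roots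
      = Finset.univ.val.map w := by
    rw [← hrW, ← hmap, roots_mul]
    rw [hmap]; exact hmonW.ne_zero
  set A := (m.map (algebraMap R S)).roots with hA
  set B := (m'.map (algebraMap R S)).roots with hB
  have hy₀A : w y₀ ∈ A := by
    rw [hA, mem_roots ((hmmon.map _).ne_zero), IsRoot.def, eval_map, ← aeval_def]
    exact minpoly.aeval R (w y₀)
  obtain ⟨A', hA'⟩ := Multiset.exists_cons_of_mem hy₀A
  have huniv : (Finset.univ : Finset Y).val = y₀ ::ₘ (Finset.univ.erase y₀).val := by
    rw [Finset.erase_val, Multiset.cons_erase (Finset.mem_univ_val y₀)]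
  have hAB : A' + B = (Finset.univ.erase y₀).val.map w := by
    rw [hA', huniv, Multiset.map_cons, Multiset.cons_add] at hrsum
    exact (Multiset.cons_inj_right _).mp hrsum
  -- all `w y` are non zero
  have hprod : algebraMap R S (W0.coeff 0) = (pol1 w).coeff 0 := by
    rw [← hW, coeff_map]
  have hwne : ∀ y, w y ≠ 0 := by
    intro y hy
    have h0 : (pol1 w).coeff 0 = 0 := by
      rw [coeff_zero_eq_eval_zero, pol1, eval_prod]
      exact Finset.prod_eq_zero (Finset.mem_univ y) (by simp [hy])
    rw [← hprod] at h0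
    exact hu.ne_zero (hinj (by rw [h0, map_zero]))
  have hBprop : ∀ r ∈ B, r ≠ 0 ∧ ord r < 0 := by
    intro r hr
    have : r ∈ (Finset.univ.erase y₀).val.map w := by
      rw [← hAB]; exact Multiset.mem_add.mpr (Or.inr hr)
    obtain ⟨y, hy, rfl⟩ := Multiset.mem_map.mp this
    exact ⟨hwne y, hord y (Finset.ne_of_mem_erase hy)⟩
  -- cardinalities
  have hcardA : Multiset.card A ≤ m.natDegree := by
    have := card_roots' (m.map (algebraMap R S))
    rwa [hmmon.natDegree_map] at this
  have hcardB : Multiset.card B ≤ m'.natDegree := by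
    have := card_roots' (m'.map (algebraMap R S))
    rwa [hm'mon.natDegree_map] at this
  have hdeg : m.natDegree + m'.natDegree = Fintype.card Y := by
    rw [← hmmon.natDegree_mul hm'mon, ← hm', ← hW0mon.natDegree_map (algebraMap R S), hW, pol1,
      natDegree_prod_of_monic _ _ fun y _ => monic_X_sub_C (w y)]
    simp
  have hcard : Multiset.card A + Multiset.card B = Fintype.card Y := by
    rw [← Multiset.card_add, hrsum, Multiset.card_map]; rfl
  have hcardB' : Multiset.card B = (m'.map (algebraMap R S)).natDegree := by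
    rw [hm'mon.natDegree_map]; omega
  by_cases hB0 : B = 0
  · rw [hB0, Multiset.card_zero, hm'mon.natDegree_map] at hcardB'
    omega
  · exfalso
    have h1 := irr_prod_order ord hmul B hBprop hB0
    have hu' : IsUnit (m'.coeff 0) := by
      rw [hm', mul_coeff_zero] at hu
      exact isUnit_of_mul_isUnit_right hu
    have h2 : algebraMap R S (m'.coeff 0) =
        algebraMap R S ((-1) ^ (m'.map (algebraMap R S)).natDegree) * B.prod := by
      rw [← coeff_map, (splits_iff_card_roots.mpr hcardB').coeff_zero_eq_prod_roots_of_monic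
        (hm'mon.map _)]
      rw [map_pow, map_neg, map_one]
    have h3 := hone _ hu'
    rw [h2, hmul _ _ (by simp) h1.1, hone _ (IsUnit.pow _ isUnit_one.neg)] at h3
    have := h1.2
    omega

theorem irr_eval_pol2 (t b : Y → S) (y₀ : Y) :
    (pol2 t b).eval (t y₀) = b y₀ * ∏ y ∈ Finset.univ.erase y₀, (t y₀ - t y) := by
  rw [pol2, eval_finsetSum, Finset.sum_eq_single y₀]
  · simp [eval_prod]
  · intro y _ hy
    rw [eval_mul, eval_prod, Finset.prod_eq_zero (Finset.mem_erase.mpr ⟨hy.symm, Finset.mem_univ y₀⟩)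
      (by simp), mul_zero]
  · intro h
    exact absurd (Finset.mem_univ y₀) h

theorem irr_derivative_pol1 (t : Y → S) : derivative (pol1 t) = pol2 t (fun _ => 1) := by
  rw [pol1, derivative_prod_finset, pol2]
  refine Finset.sum_congr rfl fun y _ => ?_
  simp

theorem irr_linearIndependent (K0 : Type*) [Field K0] [Algebra R K0] [IsFractionRing R K0]
    [Algebra K0 S] [IsScalarTower R K0 S] (y₀ : Y) (t w : Y → S) (ht : Function.Injective t)
    (P PB : R[X]) (hP : P.map (algebraMap R S) = pol1 t) (hB : PB.map (algebraMap R S) = pol2 t w)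
    (hint : IsIntegral R (w y₀)) (hdeg : (minpoly R (w y₀)).natDegree = Fintype.card Y) :
    LinearIndependent K0 (fun i : Fin (Fintype.card Y) => t y₀ ^ (i : ℕ)) := by
  classical
  set D : S := ∏ y ∈ Finset.univ.erase y₀, (t y₀ - t y) with hD
  have hD0 : D ≠ 0 := by
    rw [hD, Finset.prod_ne_zero_iff]
    intro y hy
    exact sub_ne_zero.mpr fun h => (Finset.ne_of_mem_erase hy) (ht h).symm
  have hev : ∀ Q : R[X], aeval (t y₀) (Q.map (algebraMap R K0)) = (Q.map (algebraMap R S)).eval (t y₀) := by
    intro Q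
    rw [aeval_def, eval₂_map, ← IsScalarTower.algebraMap_eq, eval_map]
  have h1 : aeval (t y₀) ((derivative P).map (algebraMap R K0)) = D := by
    rw [hev, ← derivative_map, hP, irr_derivative_pol1, irr_eval_pol2, one_mul]
  have h2 : aeval (t y₀) (PB.map (algebraMap R K0)) = w y₀ * D := by
    rw [hev, hB, irr_eval_pol2]
  have hmonP : (pol1 t).Monic := monic_prod_of_monic _ _ fun y _ => monic_X_sub_C (t y)
  have hinj : Function.Injective (algebraMap R S) := FaithfulSMul.algebraMap_injective R S
  have hPmon : P.Monic := by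
    apply monic_of_injective hinj
    rw [hP]; exact hmonP
  have htint : IsIntegral K0 (t y₀) := by
    refine ⟨P.map (algebraMap R K0), hPmon.map _, ?_⟩
    rw [← aeval_def, hev, hP, pol1, eval_prod]
    exact Finset.prod_eq_zero (Finset.mem_univ y₀) (by simp)
  have hmem : ∀ Q : K0[X], aeval (t y₀) Q ∈ IntermediateField.adjoin K0 {t y₀} := by
    intro Q
    exact IntermediateField.algebra_adjoin_le_adjoin K0 _ (aeval_mem_adjoin_singleton K0 (t y₀))
  have hw : w y₀ ∈ IntermediateField.adjoin K0 {t y₀} := by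
    have : w y₀ = aeval (t y₀) (PB.map (algebraMap R K0)) /
        aeval (t y₀) ((derivative P).map (algebraMap R K0)) := by
      rw [h1, h2, mul_div_cancel_right₀ _ hD0]
    rw [this]
    exact div_mem (hmem _) (hmem _)
  have : FiniteDimensional K0 (IntermediateField.adjoin K0 {t y₀}) :=
    IntermediateField.adjoin.finiteDimensional htint
  have h3 : (minpoly K0 (w y₀)).natDegree ≤ (minpoly K0 (t y₀)).natDegree := by
    rw [← IntermediateField.adjoin.finrank htint]
    have := minpoly.natDegree_le (A := K0) (⟨w y₀, hw⟩ : IntermediateField.adjoin K0 {t y₀})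
    rwa [IntermediateField.minpoly_eq] at this
  have h4 : (minpoly K0 (w y₀)).natDegree = Fintype.card Y := by
    rw [minpoly.isIntegrallyClosed_eq_field_fractions' K0 hint, (minpoly.monic hint).natDegree_map,
      hdeg]
  rw [h4] at h3
  exact (linearIndependent_pow (K := K0) (t y₀)).comp (Fin.castLE h3) (Fin.castLE_injective h3)

end abs

/-! ### the concrete situation -/

section conc

variable {k : Type*} [Field k]

/-- `k((u))` as an algebra over `k[X]`, `X ↦ J` -/
def LJ (_J : LaurentSeries k) : Type _ := LaurentSeries k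

noncomputable instance instFieldLJ (J : LaurentSeries k) : Field (LJ J) :=
  inferInstanceAs (Field (LaurentSeries k))

noncomputable instance instAlgebraLJ (J : LaurentSeries k) : Algebra k[X] (LJ J) :=
  (aeval J : k[X] →ₐ[k] LaurentSeries k).toRingHom.toAlgebra

theorem irr_injective (J : LaurentSeries k) (hJ : J.order < 0) :
    Function.Injective (algebraMap k[X] (LJ J)) := by
  have hJ0 : J ≠ 0 := by
    rintro rfl
    simp at hJ
  have : Transcendental k J :=
    Fermat.Agent.S24Lib.transcendental_of_coeff_neg J hJ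
      (fun h => hJ0 (HahnSeries.coeff_order_eq_zero.mp h))
  have h2 : Function.Injective (aeval J : k[X] →ₐ[k] LaurentSeries k) :=
    transcendental_iff_injective.mp this
  exact h2

/-- the order on `LJ J` -/
noncomputable def ordJ (J : LaurentSeries k) (f : LJ J) : ℤ := HahnSeries.order (show LaurentSeries k from f)

theorem ordJ_mul (J : LaurentSeries k) (a b : LJ J) (ha : a ≠ 0) (hb : b ≠ 0) :
    ordJ J (a * b) = ordJ J a + ordJ J b :=
  HahnSeries.order_mul (x := (show LaurentSeries k from a)) (y := (show LaurentSeries k from b)) ha hb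

theorem ordJ_unit (J : LaurentSeries k) (u : k[X]) (hu : IsUnit u) :
    ordJ J (algebraMap k[X] (LJ J) u) = 0 := by
  obtain ⟨r, hr, rfl⟩ := Polynomial.isUnit_iff.mp hu
  have : algebraMap k[X] (LJ J) (C r) = (HahnSeries.single 0 r : LaurentSeries k) := by
    show aeval J (C r) = _
    rw [aeval_C, ModularCurve.algebraMap_laurentSeries_eq_single]
  rw [this]
  exact HahnSeries.order_single hr.ne_zero

variable {X : Type*} [Fintype X]

theorem irr_coeff_zero_pol1 {S : Type*} [CommRing S] (w : X → S) :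
    (pol1 w).coeff 0 = (-1) ^ Fintype.card X * ∏ x, w x := by
  rw [coeff_zero_eq_eval_zero, pol1, eval_prod]
  simp only [eval_sub, eval_X, eval_C, zero_sub]
  rw [Finset.prod_neg]
  rfl

variable [DecidableEq X]

theorem irr_main (J : LaurentSeries k)
    (hJ : J.order < 0) (x₀ : X) (t w w' : X → LJ J) (ht : Function.Injective t)
    (hww' : ∀ x, w x * w' x = 1)
    (hP : ∃ P : k[X][X], P.map (algebraMap k[X] (LJ J)) = pol1 t)
    (hB : ∃ P : k[X][X], P.map (algebraMap k[X] (LJ J)) = pol2 t w)
    (hC : ∃ P : k[X][X], P.map (algebraMap k[X] (LJ J)) = pol1 w)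
    (hC' : ∃ P : k[X][X], P.map (algebraMap k[X] (LJ J)) = pol1 w')
    (hord : ∀ x, x ≠ x₀ → ordJ J (w x) < 0)
    (c d : Fin (Fintype.card X) → k[X]) (hd : ∀ i, d i ≠ 0)
    (h : ∑ i, algebraMap k[X] (LJ J) (c i) / algebraMap k[X] (LJ J) (d i) * t x₀ ^ (i : ℕ) = 0) :
    c = 0 := by
  have hinj := irr_injective J hJ
  have : Module.IsTorsionFree k[X] (LJ J) := Module.isTorsionFree_iff_algebraMap_injective.mpr hinj
  let _ : Algebra (FractionRing k[X]) (LJ J) := FractionRing.liftAlgebra k[X] (LJ J)
  have : IsScalarTower k[X] (FractionRing k[X]) (LJ J) := FractionRing.isScalarTower_liftAlgebra _ _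
  obtain ⟨P, hP⟩ := hP
  obtain ⟨PB, hB⟩ := hB
  obtain ⟨W0, hC⟩ := hC
  obtain ⟨W0', hC'⟩ := hC'
  have hu : IsUnit (W0.coeff 0) := by
    refine IsUnit.of_mul_eq_one (W0'.coeff 0) (hinj ?_)
    have e1 : algebraMap k[X] (LJ J) (W0.coeff 0) = (pol1 w).coeff 0 := by rw [← hC, coeff_map]
    have e2 : algebraMap k[X] (LJ J) (W0'.coeff 0) = (pol1 w').coeff 0 := by rw [← hC', coeff_map]
    rw [map_mul, e1, e2, irr_coeff_zero_pol1, irr_coeff_zero_pol1, map_one]
    have h1 : (∏ x, w x) * ∏ x, w' x = 1 := by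
      rw [← Finset.prod_mul_distrib]
      exact Finset.prod_eq_one fun x _ => hww' x
    have h2 : ((-1 : LJ J) ^ Fintype.card X) * (-1) ^ Fintype.card X = 1 := by
      rw [← mul_pow]; simp
    calc ((-1) ^ Fintype.card X * ∏ x, w x) * ((-1) ^ Fintype.card X * ∏ x, w' x)
        = ((-1) ^ Fintype.card X * (-1) ^ Fintype.card X) * ((∏ x, w x) * ∏ x, w' x) := by ring
      _ = 1 := by rw [h1, h2, one_mul]
  have hdeg := irr_natDegree_minpoly (R := k[X]) (S := LJ J) x₀ w W0 hC hu
    (ordJ J) (ordJ_mul J) (ordJ_unit J) hord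
  have hint : IsIntegral k[X] (w x₀) := by
    by_contra hcon
    rw [minpoly.eq_zero hcon, natDegree_zero] at hdeg
    have : 0 < Fintype.card X := Fintype.card_pos_iff.mpr ⟨x₀⟩
    omega
  have hli := irr_linearIndependent (R := k[X]) (S := LJ J) (FractionRing k[X]) x₀ t w ht P PB hP hB
    hint hdeg
  rw [Fintype.linearIndependent_iff] at hli
  have h0 := hli (fun i => algebraMap k[X] (FractionRing k[X]) (c i) /
    algebraMap k[X] (FractionRing k[X]) (d i)) (by
      rw [← h]
      refine Finset.sum_congr rfl fun i _ => ?_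
      rw [Algebra.smul_def, map_div₀, ← IsScalarTower.algebraMap_apply,
        ← IsScalarTower.algebraMap_apply])
  funext i
  have h1 := h0 i
  rw [div_eq_zero_iff] at h1
  rcases h1 with h1 | h1
  · exact (IsFractionRing.injective k[X] (FractionRing k[X])) (by rw [h1, Pi.zero_apply, map_zero])
  · exact absurd ((IsFractionRing.injective k[X] (FractionRing k[X])) (by rw [h1, map_zero])) (hd i)

end conc

theorem irr_of_unit {k X : Type*} [Field k] [Fintype X] [DecidableEq X] (J : LaurentSeries k)
    (hJ : J.order < 0) (x₀ : X) (t w w' : X → LaurentSeries k) (ht : Function.Injective t)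
    (hww' : ∀ x, w x * w' x = 1)
    (hP : ∃ P : k[X][X], P.map (aeval J : k[X] →ₐ[k] LaurentSeries k).toRingHom = pol1 t)
    (hB : ∃ P : k[X][X], P.map (aeval J : k[X] →ₐ[k] LaurentSeries k).toRingHom = pol2 t w)
    (hB' : ∃ P : k[X][X], P.map (aeval J : k[X] →ₐ[k] LaurentSeries k).toRingHom = pol2 t w')
    (hC : ∃ P : k[X][X], P.map (aeval J : k[X] →ₐ[k] LaurentSeries k).toRingHom = pol1 w)
    (hC' : ∃ P : k[X][X], P.map (aeval J : k[X] →ₐ[k] LaurentSeries k).toRingHom = pol1 w')
    (hord : ∀ x, x ≠ x₀ → (w x).order < 0)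
    (c d : Fin (Fintype.card X) → k[X]) (hd : ∀ i, d i ≠ 0)
    (h : ∑ i, aeval J (c i) / aeval J (d i) * t x₀ ^ (i : ℕ) = 0) : c = 0 :=
  irr_main J hJ x₀ t w w' ht hww' hP hB hC hC' hord c d hd h

/-- corollary of `irr_of_unit` -/
theorem irr_of_unit' {k X : Type*} [Field k] [Fintype X] [DecidableEq X] (J : LaurentSeries k)
    (hJ : J.order < 0) (x₀ : X) (t w w' : X → LaurentSeries k) (ht : Function.Injective t)
    (hww' : ∀ x, w x * w' x = 1)
    (hP : ∃ P : k[X][X], P.map (aeval J : k[X] →ₐ[k] LaurentSeries k).toRingHom = pol1 t)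
    (hB : ∃ P : k[X][X], P.map (aeval J : k[X] →ₐ[k] LaurentSeries k).toRingHom = pol2 t w)
    (hB' : ∃ P : k[X][X], P.map (aeval J : k[X] →ₐ[k] LaurentSeries k).toRingHom = pol2 t w')
    (hC : ∃ P : k[X][X], P.map (aeval J : k[X] →ₐ[k] LaurentSeries k).toRingHom = pol1 w)
    (hC' : ∃ P : k[X][X], P.map (aeval J : k[X] →ₐ[k] LaurentSeries k).toRingHom = pol1 w')
    (hord : ∀ x, x ≠ x₀ → (w x).order < 0)
    (β : Fin (Fintype.card X) → LaurentSeries k)
    (hβ : ∀ i, β i ∈ IntermediateField.adjoin k {J})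
    (h : ∑ i, β i * t x₀ ^ (i : ℕ) = 0) : β = 0 := by
  have hex : ∀ i, ∃ c d : k[X], d ≠ 0 ∧ β i = aeval J c / aeval J d := by
    intro i
    obtain ⟨r, s, hrs⟩ := (IntermediateField.mem_adjoin_simple_iff k (β i)).mp (hβ i)
    by_cases hs : s = 0
    · refine ⟨0, 1, one_ne_zero, ?_⟩
      rw [hrs, hs]
      simp
    · exact ⟨r, s, hs, hrs⟩
  choose c d hd hcd using hex
  have hc := irr_of_unit J hJ x₀ t w w' ht hww' hP hB hB' hC hC' hord c d hd (by
    rw [← h]
    exact Finset.sum_congr rfl fun i _ => by rw [hcd i])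
  funext i
  rw [hcd i, hc]
  simp

end Fermat.Agent.S28Lib
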