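import Fermat.Agent.S28.Basic

/-!
# S28 [SYM] : symmetric functions of the conjugates (with `descent` as a hypothesis)
-/

set_option autoImplicit false

open UpperHalfPlane hiding I
open ModularCurve Polynomial Filter
open scoped MatrixGroups Manifold

namespace Fermat.Agent.S28Lib

open Fermat.Agent.S20Lib Fermat.Agent.S24Lib

/-- pairs (holomorphic function, its `V`-integral expansion) -/
def expSubring (N : ℕ) [NeZero N] (V : ValuationSubring ℂ) :
    Subring ((ℍ → ℂ) × LaurentSeries V) where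
  carrier := {a | MDiff a.1 ∧ HasExp atImInfty (qN N) a.1 (iV V a.2)}
  mul_mem' := by
    rintro a b ⟨ha1, ha2⟩ ⟨hb1, hb2⟩
    refine ⟨ha1.mul hb1, ?_⟩
    have := ha2.mul hb2
    rw [← map_mul] at this
    exact this
  one_mem' := by
    refine ⟨mdifferentiable_const, ?_⟩
    have := HasExp.const atImInfty (qN N) 1
    rw [map_one] at this
    change HasExp atImInfty (qN N) (fun _ => 1) (iV V 1)
    rw [map_one]
    exact this
  add_mem' := by
    rintro a b ⟨ha1, ha2⟩ ⟨hb1, hb2⟩
    refine ⟨ha1.add hb1, ?_⟩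
    have := ha2.add hb2
    rw [← map_add] at this
    exact this
  zero_mem' := by
    refine ⟨mdifferentiable_const, ?_⟩
    have := HasExp.const atImInfty (qN N) 0
    rw [map_zero] at this
    change HasExp atImInfty (qN N) (fun _ => 0) (iV V 0)
    rw [map_zero]
    exact this
  neg_mem' := by
    rintro a ⟨ha1, ha2⟩
    refine ⟨ha1.neg, ?_⟩
    have := ha2.neg
    rw [← map_neg] at this
    exact this

/-- precomposition with `γ` -/
noncomputable def compHom (γ : SL(2, ℤ)) : (ℍ → ℂ) →+* (ℍ → ℂ) where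
  toFun f := fun τ => f (γ • τ)
  map_one' := rfl
  map_mul' _ _ := rfl
  map_zero' := rfl
  map_add' _ _ := rfl

/-- the statement of `descent` -/
def DescentProp (N : ℕ) [NeZero N] (V : ValuationSubring ℂ) : Prop :=
  ∀ (h : ℍ → ℂ), MDiff h → (∀ (γ : SL(2, ℤ)) (τ : ℍ), h (γ • τ) = h τ) →
    ∀ g : LaurentSeries V, HasExp atImInfty (qN N) h (iV V g) → ∃ p : (↥V)[X], g = evJ V N p

/-- general principle -/
theorem sym_of_poly (N : ℕ) [NeZero N] (V : ValuationSubring ℂ) (hD : DescentProp N V)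
    (Q : (↥(expSubring N V))[X])
    (hinv : ∀ γ : SL(2, ℤ), (Q.map ((RingHom.fst _ _).comp (expSubring N V).subtype)).map (compHom γ)
      = Q.map ((RingHom.fst _ _).comp (expSubring N V).subtype)) :
    ∃ P : (↥V)[X][X], P.map (evJ V N) = Q.map ((RingHom.snd _ _).comp (expSubring N V).subtype) := by
  rw [← Polynomial.mem_lifts, Polynomial.lifts_iff_coeff_lifts]
  intro i
  obtain ⟨h1, h2⟩ := (Q.coeff i).2
  have h3 : ∀ (γ : SL(2, ℤ)) (τ : ℍ), (Q.coeff i).1.1 (γ • τ) = (Q.coeff i).1.1 τ := by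
    intro γ τ
    have := congrArg (fun R : (ℍ → ℂ)[X] => R.coeff i τ) (hinv γ)
    simpa [Polynomial.coeff_map, compHom] using this
  obtain ⟨p, hp⟩ := hD _ h1 h3 _ h2
  refine ⟨p, ?_⟩
  rw [Polynomial.coeff_map]
  exact hp.symm

theorem sym_pol1_aux (N : ℕ) [NeZero N] (V : ValuationSubring ℂ) (hD : DescentProp N V)
    (T : ℍ → ℂ) (hT : MDiff T)
    (hTinv : IsInv N T) (tV : X0 N → LaurentSeries V)
    (ht : ∀ x, HasExp atImInfty (qN N) (fun τ => cvec N T τ x) (iV V (tV x))) :
    ∃ P : (↥V)[X][X], P.map (evJ V N) = pol1 tV := by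
  let a : X0 N → ↥(expSubring N V) := fun x =>
    ⟨(fun τ => cvec N T τ x, tV x), cvec_holo hT x, ht x⟩
  obtain ⟨P, hP⟩ := sym_of_poly N V hD (pol1 a) (by
    intro γ
    rw [pol1_map, pol1_map]
    have : (fun x => compHom γ (((RingHom.fst _ _).comp (expSubring N V).subtype) (a x)))
        = fun x => ((RingHom.fst _ _).comp (expSubring N V).subtype)
            (a ((MulAction.toPerm γ⁻¹ : Equiv.Perm (X0 N)) x)) := by
      funext x τ
      exact cvec_equiv hTinv γ τ x
    rw [this]
    exact pol1_comp_equiv (MulAction.toPerm γ⁻¹ : Equiv.Perm (X0 N))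
      (fun x => ((RingHom.fst _ _).comp (expSubring N V).subtype) (a x)))
  refine ⟨P, ?_⟩
  rw [hP, pol1_map]
  rfl

theorem sym_pol2_aux (N : ℕ) [NeZero N] (V : ValuationSubring ℂ) (hD : DescentProp N V)
    (T W : ℍ → ℂ) (hT : MDiff T)
    (hW : MDiff W) (hTinv : IsInv N T) (hWinv : IsInv N W) (tV wV : X0 N → LaurentSeries V)
    (ht : ∀ x, HasExp atImInfty (qN N) (fun τ => cvec N T τ x) (iV V (tV x)))
    (hw : ∀ x, HasExp atImInfty (qN N) (fun τ => cvec N W τ x) (iV V (wV x))) :
    ∃ P : (↥V)[X][X], P.map (evJ V N) = pol2 tV wV := by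
  let a : X0 N → ↥(expSubring N V) := fun x =>
    ⟨(fun τ => cvec N T τ x, tV x), cvec_holo hT x, ht x⟩
  let b : X0 N → ↥(expSubring N V) := fun x =>
    ⟨(fun τ => cvec N W τ x, wV x), cvec_holo hW x, hw x⟩
  obtain ⟨P, hP⟩ := sym_of_poly N V hD (pol2 a b) (by
    intro γ
    rw [pol2_map, pol2_map]
    have h1 : (fun x => compHom γ (((RingHom.fst _ _).comp (expSubring N V).subtype) (a x)))
        = fun x => ((RingHom.fst _ _).comp (expSubring N V).subtype)
            (a ((MulAction.toPerm γ⁻¹ : Equiv.Perm (X0 N)) x)) := by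
      funext x τ
      exact cvec_equiv hTinv γ τ x
    have h2 : (fun x => compHom γ (((RingHom.fst _ _).comp (expSubring N V).subtype) (b x)))
        = fun x => ((RingHom.fst _ _).comp (expSubring N V).subtype)
            (b ((MulAction.toPerm γ⁻¹ : Equiv.Perm (X0 N)) x)) := by
      funext x τ
      exact cvec_equiv hWinv γ τ x
    rw [h1, h2]
    exact pol2_comp_equiv (MulAction.toPerm γ⁻¹ : Equiv.Perm (X0 N))
      (fun x => ((RingHom.fst _ _).comp (expSubring N V).subtype) (a x))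
      (fun x => ((RingHom.fst _ _).comp (expSubring N V).subtype) (b x)))
  refine ⟨P, ?_⟩
  rw [hP, pol2_map]
  rfl

end Fermat.Agent.S28Lib
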