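import Mathlib

/-!
# S28 [W] : arithmetic of the exponents of the modular unit
-/

set_option autoImplicit false

namespace Fermat.Agent.S28Lib

open ArithmeticFunction

theorem warith_sum_pos (N : ℕ) (hN : N ≠ 0) :
    0 < ∑ d ∈ N.divisors, (ArithmeticFunction.moebius (N / d) : ℤ) * (d : ℤ) := by
  have h := (ArithmeticFunction.sum_eq_iff_sum_mul_moebius_eq (R := ℤ)
    (f := fun n => (Nat.totient n : ℤ)) (g := fun n => (n : ℤ))).mp (by
      intro n _
      have := Nat.sum_totient n
      exact_mod_cast this) N (Nat.pos_of_ne_zero hN)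
  simp only [Int.cast_id] at h
  rw [Nat.sum_divisorsAntidiagonal' (f := fun x y => (ArithmeticFunction.moebius x : ℤ) * (y : ℤ))]
    at h
  rw [h]
  exact_mod_cast Nat.totient_pos.mpr (Nat.pos_of_ne_zero hN)

/-- the gcd does not see the last factor `p`. -/
theorem warith_gcd {p v f c' : ℕ} (hp : p.Prime) (hc' : ¬ p ∣ c') :
    Nat.gcd (p ^ (v + 1) * f) (p ^ v * c') = Nat.gcd (p ^ v * f) (p ^ v * c') := by
  have h1 : p ^ (v + 1) * f = p ^ v * (p * f) := by ring
  rw [h1, Nat.gcd_mul_left, Nat.gcd_mul_left,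
    Nat.Coprime.gcd_mul_left_cancel f ((Nat.Prime.coprime_iff_not_dvd hp).mpr hc')]

theorem warith_sum_zero (N : ℕ) (hN : N ≠ 0) (c : ℤ) (hc : ¬ (N : ℤ) ∣ c) :
    ∑ d ∈ N.divisors, (ArithmeticFunction.moebius (N / d) : ℤ) * ((Int.gcd d c : ℕ) : ℤ) ^ 2
      = 0 := by
  have hc0 : c.natAbs ≠ 0 := by
    intro h
    rw [Int.natAbs_eq_zero] at h
    exact hc (h ▸ dvd_zero _)
  have hNc : ¬ N ∣ c.natAbs := fun h => hc (Int.natCast_dvd.mpr h)
  -- choice of the prime
  rw [Nat.dvd_iff_prime_pow_dvd_dvd] at hNc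
  push Not at hNc
  obtain ⟨p, k, hp, hkN, hkc⟩ := hNc
  obtain ⟨v, c', hc', hcv⟩ := Nat.exists_eq_pow_mul_and_not_dvd hc0 p hp.ne_one
  have hvk : v + 1 ≤ k := by
    by_contra hcon
    apply hkc
    rw [hcv]
    exact Dvd.dvd.mul_right (pow_dvd_pow p (by omega)) _
  obtain ⟨N', hN'⟩ : p ^ (v + 1) ∣ N := (pow_dvd_pow p hvk).trans hkN
  have hp0 : 0 < p := hp.pos
  -- reindex
  obtain ⟨f, hf⟩ : ∃ f : ℕ → ℤ, ∀ e, f e = (ArithmeticFunction.moebius e : ℤ) *
    ((Nat.gcd (N / e) c.natAbs : ℕ) : ℤ) ^ 2 := ⟨_, fun _ => rfl⟩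
  have e1 : ∑ d ∈ N.divisors, (ArithmeticFunction.moebius (N / d) : ℤ) *
      ((Int.gcd d c : ℕ) : ℤ) ^ 2 = ∑ d ∈ N.divisors, f (N / d) := by
    refine Finset.sum_congr rfl fun d hd => ?_
    have hd' : d ∣ N := Nat.dvd_of_mem_divisors hd
    rw [hf, Nat.div_div_self hd' hN]
    rfl
  rw [e1, Nat.sum_div_divisors]
  -- the key cancellation
  have key : ∀ e, e ∣ N → ¬ p ∣ e → e * p ∣ N ∧ f e + f (e * p) = 0 := by
    intro e he hpe
    have hcop : Nat.Coprime e (p ^ (v + 1)) :=
      Nat.Coprime.pow_right _ ((Nat.Prime.coprime_iff_not_dvd hp).mpr hpe).symm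
    obtain ⟨g, hg⟩ : e ∣ N' := by
      rw [hN'] at he
      exact hcop.dvd_of_dvd_mul_left he
    have he0 : 0 < e := Nat.pos_of_dvd_of_pos he (Nat.pos_of_ne_zero hN)
    have hNe : N = e * (p ^ (v + 1) * g) := by rw [hN', hg]; ring
    have hNe' : N = (e * p) * (p ^ v * g) := by rw [hN', hg]; ring
    refine ⟨⟨_, hNe'⟩, ?_⟩
    have d1 : N / e = p ^ (v + 1) * g := by
      rw [hNe]; exact Nat.mul_div_cancel_left _ he0
    have d2 : N / (e * p) = p ^ v * g := by
      conv_lhs => rw [hNe']
      exact Nat.mul_div_cancel_left _ (Nat.mul_pos he0 hp0)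
    have hmu : ArithmeticFunction.moebius (e * p) = -ArithmeticFunction.moebius e := by
      rw [ArithmeticFunction.isMultiplicative_moebius.map_mul_of_coprime
        ((Nat.Prime.coprime_iff_not_dvd hp).mpr hpe).symm,
        ArithmeticFunction.moebius_apply_prime hp]
      ring
    rw [hf, hf, d1, d2, hmu, hcv, warith_gcd hp hc']
    ring
  refine Finset.sum_involution
    (fun e _ => if p ∣ e then (if p * p ∣ e then e else e / p) else e * p) ?_ ?_ ?_ ?_
  · intro e he
    have he' : e ∣ N := Nat.dvd_of_mem_divisors he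
    by_cases h1 : p ∣ e
    · by_cases h2 : p * p ∣ e
      · simp only [h1, h2, if_true]
        have : f e = 0 := by
          rw [hf, ArithmeticFunction.moebius_eq_zero_of_not_squarefree, zero_mul]
          intro hsq
          exact hp.not_isUnit (hsq p h2)
        rw [this, add_zero]
      · simp only [h1, h2, if_true, if_false]
        obtain ⟨e', rfl⟩ := h1
        have hpe' : ¬ p ∣ e' := fun h => h2 (Nat.mul_dvd_mul_left p h)
        rw [Nat.mul_div_cancel_left _ hp0]
        have := (key e' ((Dvd.intro_left p rfl).trans he') hpe').2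
        rw [mul_comm e' p] at this
        rw [add_comm]
        exact this
    · simp only [h1, if_false]
      exact (key e he' h1).2
  · intro e he hfe
    have he' : e ∣ N := Nat.dvd_of_mem_divisors he
    have he0 : 0 < e := Nat.pos_of_dvd_of_pos he' (Nat.pos_of_ne_zero hN)
    by_cases h1 : p ∣ e
    · by_cases h2 : p * p ∣ e
      · exfalso
        apply hfe
        rw [hf, ArithmeticFunction.moebius_eq_zero_of_not_squarefree, zero_mul]
        intro hsq
        exact hp.not_isUnit (hsq p h2)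
      · simp only [h1, h2, if_true, if_false]
        exact (Nat.div_lt_self he0 hp.one_lt).ne
    · simp only [h1, if_false]
      have : e * 1 < e * p := Nat.mul_lt_mul_of_pos_left hp.one_lt he0
      omega
  · intro e he
    have he' : e ∣ N := Nat.dvd_of_mem_divisors he
    rw [Nat.mem_divisors]
    refine ⟨?_, hN⟩
    by_cases h1 : p ∣ e
    · by_cases h2 : p * p ∣ e
      · simp only [h1, h2, if_true]; exact he'
      · simp only [h1, h2, if_true, if_false]
        exact (Nat.div_dvd_of_dvd h1).trans he'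
    · simp only [h1, if_false]
      exact (key e he' h1).1
  · intro e he
    by_cases h1 : p ∣ e
    · by_cases h2 : p * p ∣ e
      · simp only [h1, h2, if_true]
      · simp only [h1, h2, if_true, if_false]
        obtain ⟨e', rfl⟩ := h1
        have hpe' : ¬ p ∣ e' := fun h => h2 (Nat.mul_dvd_mul_left p h)
        rw [Nat.mul_div_cancel_left _ hp0]
        simp only [hpe', if_false]
        ring
    · simp only [h1, if_false]
      have h3 : p ∣ e * p := Dvd.intro_left e rfl
      have h4 : ¬ p * p ∣ e * p := by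
        intro h
        rw [mul_comm e p] at h
        exact h1 (Nat.dvd_of_mul_dvd_mul_left hp0 h)
      simp only [h3, h4, if_true, if_false]
      exact Nat.mul_div_cancel _ hp0

end Fermat.Agent.S28Lib
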