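import Fermat.Agent.S28.WExp
import Fermat.Agent.S28.WArith
import Fermat.Agent.S28.Val

/-!
# S28 [W] : the modular unit `W = ∏_{d ∣ N} (Δ(dτ)/Δ(τ))^(μ(N/d) d)`
-/

set_option autoImplicit false

open UpperHalfPlane hiding I
open ModularForm ModularCurve CongruenceSubgroup Filter
open scoped MatrixGroups Manifold

namespace Fermat.Agent.S28Lib

open Fermat.Agent.S20Lib Fermat.Agent.S23L Fermat.Agent.S24Lib

theorem exists_conj_dl (p : ℕ) (hp : p ≠ 0) (γ : SL(2, ℤ)) (hmem : γ ∈ Gamma0 p) :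
    ∃ γ' : SL(2, ℤ), ∀ τ : ℍ,
    heckeDiagMatrix p • (γ • τ) = γ' • (heckeDiagMatrix p • τ) ∧
    denom (γ' : GL (Fin 2) ℝ) ((heckeDiagMatrix p • τ : ℍ) : ℂ) =
      denom (γ : GL (Fin 2) ℝ) τ := by
  rw [Gamma0_mem, ZMod.intCast_zmod_eq_zero_iff_dvd] at hmem
  obtain ⟨c', hc'⟩ := hmem
  have hdet := Matrix.SpecialLinearGroup.det_coe γ
  rw [Matrix.det_fin_two] at hdet
  refine ⟨⟨!![γ 0 0, p * γ 0 1; c', γ 1 1], ?_⟩, ?_⟩
  · rw [Matrix.det_fin_two_of]
    rw [hc'] at hdet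
    linear_combination hdet
  · intro τ
    have hden : denom (γ : GL (Fin 2) ℝ) τ ≠ 0 := denom_ne_zero _ _
    rw [ModularGroup.denom_apply] at hden
    constructor
    · ext
      rw [coe_heckeDiagMatrix_smul hp, coe_specialLinearGroup_apply,
        coe_specialLinearGroup_apply, coe_heckeDiagMatrix_smul hp]
      simp only [Matrix.of_apply, Matrix.cons_val_zero,
        Matrix.cons_val_one, Matrix.cons_val', Matrix.cons_val_fin_one, algebraMap_int_eq,
        eq_intCast, hc'] at hden ⊢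
      push_cast at hden ⊢
      have hden' : (c' : ℂ) * ((p : ℂ) * τ) + (γ 1 1 : ℂ) ≠ 0 := by
        convert hden using 1
        ring
      field_simp
    · rw [ModularGroup.denom_apply, ModularGroup.denom_apply, coe_heckeDiagMatrix_smul hp]
      simp only [Matrix.of_apply, Matrix.cons_val_zero,
        Matrix.cons_val_one, Matrix.cons_val', Matrix.cons_val_fin_one, hc']
      push_cast
      ring

theorem dl_inv (d : ℕ) (hd : d ≠ 0) (γ : SL(2, ℤ)) (hγ : γ ∈ Gamma0 d) (τ : ℍ) :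
    dl d (γ • τ) = dl d τ := by
  obtain ⟨γ', h⟩ := exists_conj_dl d hd γ hγ
  unfold dl
  rw [(h τ).1, disc_apply_smul, disc_apply_smul, (h τ).2]
  have hden : denom (γ : GL (Fin 2) ℝ) τ ≠ 0 := denom_ne_zero _ _
  rw [mul_div_mul_left _ _ (zpow_ne_zero _ hden)]

theorem dl_mdiff (d : ℕ) : MDiff (dl d) :=
  (disc_mdiff.comp (mdifferentiable_smul (det_heckeDiagMatrix_pos d))).div disc_mdiff
    discriminant_ne_zero

theorem mdiff_zpow {f : ℍ → ℂ} (hf : MDiff f) (h0 : ∀ τ, f τ ≠ 0) (k : ℤ) :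
    MDiff (fun τ => f τ ^ k) := by
  rcases k with k | k
  · simp only [Int.ofNat_eq_natCast, zpow_natCast]
    exact hf.pow k
  · simp only [zpow_negSucc, ← one_div]
    exact mdifferentiable_const.div (hf.pow (k + 1)) fun τ => pow_ne_zero _ (h0 τ)

theorem mdiff_prod {ι : Type*} (s : Finset ι) (F : ι → ℍ → ℂ) (h : ∀ i ∈ s, MDiff (F i)) :
    MDiff (fun τ => ∏ i ∈ s, F i τ) := by
  classical
  induction s using Finset.induction_on with
  | empty =>
    simp only [Finset.prod_empty]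
    exact mdifferentiable_const
  | insert i s hi ih =>
    simp only [Finset.prod_insert hi]
    exact (h i (Finset.mem_insert_self i s)).mul
      (ih fun j hj => h j (Finset.mem_insert_of_mem hj))

/-- the exponents -/
def we (N d : ℕ) : ℤ := (ArithmeticFunction.moebius (N / d) : ℤ) * (d : ℤ)

/-- the modular unit -/
noncomputable def wW (N : ℕ) (τ : ℍ) : ℂ := ∏ d ∈ N.divisors, dl d τ ^ we N d

theorem wW_ne_zero (N : ℕ) (τ : ℍ) : wW N τ ≠ 0 :=
  Finset.prod_ne_zero_iff.2 fun d _ => zpow_ne_zero _ (dl_ne_zero d τ)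

theorem wW_mdiff (N : ℕ) : MDiff (wW N) :=
  mdiff_prod _ _ fun d _ => mdiff_zpow (dl_mdiff d) (dl_ne_zero d) _

theorem wW_inv_mdiff (N : ℕ) : MDiff (fun τ => (wW N τ)⁻¹) := by
  simp only [← one_div]
  exact mdifferentiable_const.div (wW_mdiff N) (wW_ne_zero N)

theorem wW_isInv (N : ℕ) : IsInv N (wW N) := by
  intro γ hγ τ
  unfold wW
  refine Finset.prod_congr rfl fun d hd => ?_
  have hdN := Nat.dvd_of_mem_divisors hd
  have hd0 : d ≠ 0 := (Nat.pos_of_mem_divisors hd).ne'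
  rw [dl_inv d hd0 γ (Gamma0_le_of_dvd hdN hγ)]

theorem wW_exp (N : ℕ) [NeZero N] (V : ValuationSubring ℂ)
    (hNV : ∀ D : ℕ, D ∣ N → ((D : ℂ))⁻¹ ∈ V) (γ : SL(2, ℤ)) :
    ∃ (φ : LaurentSeries ℂ) (n : ℤ), HasExp atImInfty (qN N) (fun τ => wW N (γ • τ)) φ ∧
      IsVU V φ n ∧ (¬ (N : ℤ) ∣ γ 1 0 → n < 0) := by
  have hN : N ≠ 0 := NeZero.ne N
  have h := fun d : ℕ => fun hd : d ∣ N => dl_exp N V hNV d hd γ
  choose φ m h1 h2 h3 using h
  classical
  let Φ : ℕ → LaurentSeries ℂ := fun d => if hd : d ∣ N then φ d hd else 1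
  let M : ℕ → ℤ := fun d => if hd : d ∣ N then m d hd else 0
  have hΦ : ∀ d (hd : d ∣ N), Φ d = φ d hd := fun d hd => dif_pos hd
  have hM : ∀ d (hd : d ∣ N), M d = m d hd := fun d hd => dif_pos hd
  refine ⟨∏ d ∈ N.divisors, Φ d ^ we N d, ∑ d ∈ N.divisors, we N d * (M d - N), ?_, ?_, ?_⟩
  · refine hasExp_prod _ (fun d τ => dl d (γ • τ) ^ we N d) _ fun d hd => ?_
    have hdN := Nat.dvd_of_mem_divisors hd
    rw [hΦ d hdN]
    exact hasExp_zpow (isChart_infty N) (h1 d hdN) _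
  · refine IsVU.prod _ _ _ fun d hd => ?_
    have hdN := Nat.dvd_of_mem_divisors hd
    rw [hΦ d hdN, hM d hdN]
    exact (h2 d hdN).zpow _
  · intro hc
    have e : ∑ d ∈ N.divisors, we N d * (M d - N) =
        (N : ℤ) * (∑ d ∈ N.divisors, (ArithmeticFunction.moebius (N / d) : ℤ) *
          ((Int.gcd d (γ 1 0) : ℕ) : ℤ) ^ 2) -
        (N : ℤ) * ∑ d ∈ N.divisors, (ArithmeticFunction.moebius (N / d) : ℤ) * (d : ℤ) := by
      rw [Finset.mul_sum, Finset.mul_sum, ← Finset.sum_sub_distrib]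
      refine Finset.sum_congr rfl fun d hd => ?_
      have hdN := Nat.dvd_of_mem_divisors hd
      rw [hM d hdN]
      unfold we
      linear_combination (ArithmeticFunction.moebius (N / d) : ℤ) * h3 d hdN
    rw [e, warith_sum_zero N hN _ hc, mul_zero, zero_sub, neg_lt_zero]
    exact mul_pos (by exact_mod_cast Nat.pos_of_ne_zero hN) (warith_sum_pos N hN)

theorem not_dvd_of_ne_x0 (N : ℕ) (x : X0 N) (hx : x ≠ x0 N) :
    ¬ (N : ℤ) ∣ ((x.out)⁻¹ : SL(2, ℤ)) 1 0 := by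
  intro h
  apply hx
  have h1 : ((x.out)⁻¹ : SL(2, ℤ)) ∈ Gamma0 N := by
    rw [Gamma0_mem, ZMod.intCast_zmod_eq_zero_iff_dvd]
    exact h
  have h2 : ((x.out : SL(2, ℤ)) : X0 N) = x := QuotientGroup.out_eq' _
  rw [← h2]
  unfold x0
  rw [QuotientGroup.eq]
  simpa using h1

theorem exists_wV (N : ℕ) [NeZero N] (ℓ : ℕ) [Fact ℓ.Prime] (hℓN : ¬ ℓ ∣ N)
    (V : ValuationSubring ℂ) (hV : ((ℓ : ℂ))⁻¹ ∉ V) :
    ∃ (W W' : ℍ → ℂ) (wV wV' : X0 N → LaurentSeries V), MDiff W ∧ MDiff W' ∧ IsInv N W ∧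
      IsInv N W' ∧ (∀ x, wV x * wV' x = 1) ∧
      (∀ x, HasExp atImInfty (qN N) (fun τ => cvec N W τ x) (iV V (wV x))) ∧
      (∀ x, HasExp atImInfty (qN N) (fun τ => cvec N W' τ x) (iV V (wV' x))) ∧
      ∀ x, x ≠ x0 N → (wV x).order < 0 := by
  have hNV : ∀ D : ℕ, D ∣ N → ((D : ℂ))⁻¹ ∈ V := fun D hD =>
    natCast_inv_mem_V hV D fun h => hℓN (h.trans hD)
  have h := fun x : X0 N => wW_exp N V hNV ((x.out)⁻¹)
  choose φ n h1 h2 h3 using h
  choose a ha1 ha2 using h2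
  refine ⟨wW N, fun τ => (wW N τ)⁻¹, fun x => (a x : LaurentSeries V),
    fun x => ((a x)⁻¹ : (LaurentSeries V)ˣ), wW_mdiff N, wW_inv_mdiff N, wW_isInv N, ?_, ?_, ?_,
    ?_, ?_⟩
  · intro γ hγ τ
    show (wW N (γ • τ))⁻¹ = (wW N τ)⁻¹
    rw [wW_isInv N γ hγ]
  · intro x
    exact Units.mul_inv _
  · intro x
    rw [ha1]
    exact h1 x
  · intro x
    have e : iV V (((a x)⁻¹ : (LaurentSeries V)ˣ) : LaurentSeries V) = (φ x)⁻¹ := by
      have h4 : iV V (a x : LaurentSeries V) *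
          iV V (((a x)⁻¹ : (LaurentSeries V)ˣ) : LaurentSeries V) = 1 := by
        rw [← map_mul, Units.mul_inv, map_one]
      rw [ha1] at h4
      exact eq_inv_of_mul_eq_one_right h4
    rw [e]
    exact (h1 x).inv (isChart_infty N)
  · intro x hx
    rw [ha2]
    exact h3 x (not_dvd_of_ne_x0 N x hx)

end Fermat.Agent.S28Lib
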