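import Fermat.Agent.S28.Basic
import Fermat.Agent.S28.Val
import Fermat.Agent.S28.Irr
import Fermat.Agent.S28.SymAux
import Fermat.Agent.S28.Descent
import Fermat.Agent.S28.WUnit

/-!
# S28 [IRRK] : irreducibility modulo `ℓ`
-/

set_option autoImplicit false

open UpperHalfPlane hiding I
open ModularCurve ModularCurve.IgusaScheme Polynomial Filter
open scoped MatrixGroups Manifold

namespace Fermat.Agent.S28Lib

open Fermat.Agent.S20Lib Fermat.Agent.S24Lib

/-- reduction of a polynomial identity over `V[J]` -/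
theorem irrk_red_pol (N : ℕ) [NeZero N] (V : ValuationSubring ℂ) {P : (↥V)[X][X]}
    {Q : (LaurentSeries V)[X]} (h : P.map (evJ V N) = Q) :
    (P.map (Polynomial.mapRingHom (IsLocalRing.residue V))).map
      (aeval (JJ (kV V) N) : (kV V)[X] →ₐ[kV V] LaurentSeries (kV V)).toRingHom =
      Q.map (redV V) := by
  rw [Polynomial.map_map, ← h, Polynomial.map_map]
  congr 1
  exact (coeffMap_comp_evJ (IsLocalRing.residue V) N).symm

theorem irr_k (N : ℕ) [NeZero N] (ℓ : ℕ) [Fact ℓ.Prime] (hℓN : ¬ ℓ ∣ N)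
    (V : ValuationSubring ℂ) (hV : ((ℓ : ℂ))⁻¹ ∉ V) (tV : X0 N → LaurentSeries V)
    (ht : ∀ x, HasExp atImInfty (qN N) (fun τ => cvec N (jD N) τ x) (iV V (tV x)))
    (hu : ∀ x y, x ≠ y → IsUnit (tV x - tV y))
    (β : Fin (Fintype.card (X0 N)) → LaurentSeries (kV V))
    (hβ : ∀ i, β i ∈ IntermediateField.adjoin (kV V) {JJ (kV V) N})
    (h : ∑ i, β i * redV V (tV (x0 N)) ^ (i : ℕ) = 0) : β = 0 := by
  obtain ⟨W, W', wV, wV', hW, hW', hWi, hWi', hww, hw, hw', hord⟩ := exists_wV N ℓ hℓN V hV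
  have hT : MDiff (jD N) := jD_holo N
  have hTi : IsInv N (jD N) := IsInv.jD dvd_rfl
  have hD : DescentProp N V := fun h hh hinv g hexp => descent N V h hh hinv g hexp
  obtain ⟨P1, hP1⟩ := sym_pol1_aux N V hD (jD N) hT hTi tV ht
  obtain ⟨P2, hP2⟩ := sym_pol2_aux N V hD (jD N) W hT hW hTi hWi tV wV ht hw
  obtain ⟨P2', hP2'⟩ := sym_pol2_aux N V hD (jD N) W' hT hW' hTi hWi' tV wV' ht hw'
  obtain ⟨P3, hP3⟩ := sym_pol1_aux N V hD W hW hWi wV hw
  obtain ⟨P3', hP3'⟩ := sym_pol1_aux N V hD W' hW' hWi' wV' hw'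
  refine irr_of_unit' (JJ (kV V) N) ?_ (x0 N) (fun x => redV V (tV x)) (fun x => redV V (wV x))
    (fun x => redV V (wV' x)) ?_ ?_ ⟨_, (irrk_red_pol N V hP1).trans (pol1_map _ _)⟩
    ⟨_, (irrk_red_pol N V hP2).trans (pol2_map _ _ _)⟩
    ⟨_, (irrk_red_pol N V hP2').trans (pol2_map _ _ _)⟩
    ⟨_, (irrk_red_pol N V hP3).trans (pol1_map _ _)⟩
    ⟨_, (irrk_red_pol N V hP3').trans (pol1_map _ _)⟩ ?_ β hβ h
  · rw [order_JJ]
    have : (0 : ℤ) < N := by exact_mod_cast Nat.pos_of_ne_zero (NeZero.ne N)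
    omega
  · intro x y hxy
    by_contra hne
    have h1 := (hu x y hne).map (redV V)
    rw [map_sub] at h1
    simp only at hxy
    rw [hxy, sub_self] at h1
    exact not_isUnit_zero h1
  · intro x
    show redV V (wV x) * redV V (wV' x) = 1
    rw [← map_mul, hww, map_one]
  · intro x hx
    show (redV V (wV x)).order < 0
    rw [order_redV_of_isUnit V _ (IsUnit.of_mul_eq_one _ (hww x))]
    exact hord x hx

end Fermat.Agent.S28Lib
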