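import Fermat.Agent.S28.Basic
import Fermat.Agent.S28.Val
import Fermat.Agent.S24.DegreeAlg

/-!
# S28 [QEPS] : preliminaries on `ℤ_(ℓ)[j] ⊆ FF N`
-/

set_option autoImplicit false
set_option linter.unusedSectionVars false

open UpperHalfPlane hiding I
open ModularCurve ModularCurve.IgusaScheme Polynomial Filter
open scoped MatrixGroups

namespace Fermat.Agent.S28Lib

open Fermat.Agent.S20Lib Fermat.Agent.S24Lib

variable (N : ℕ) [NeZero N] (ℓ : ℕ) [Fact ℓ.Prime]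

theorem algebraMap_Zl_FF (r : Zl ℓ) :
    algebraMap (Zl ℓ) (FF N) r = algebraMap ℚ (FF N) (r : ℚ) := rfl

/-- ring homomorphisms out of `FF N` agree on `ℤ_(ℓ)` -/
theorem ringHom_algebraMap_Zl (σ : FF N →+* LaurentSeries ℂ) (r : Zl ℓ) :
    σ (algebraMap (Zl ℓ) (FF N) r) = algebraMap ℚ (LaurentSeries ℂ) (r : ℚ) := by
  rw [algebraMap_Zl_FF, RingHom.map_rat_algebraMap]

theorem ringHom_aeval_jFull (σ : FF N →+* LaurentSeries ℂ) (hσ : σ (jFull N) = JJ ℂ N)
    (a : (Zl ℓ)[X]) :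
    σ (aeval (jFull N) a) =
      ∑ i ∈ Finset.range (a.natDegree + 1),
        algebraMap ℚ (LaurentSeries ℂ) ((a.coeff i : Zl ℓ) : ℚ) * JJ ℂ N ^ i := by
  rw [aeval_eq_sum_range, map_sum]
  refine Finset.sum_congr rfl fun i _ => ?_
  rw [Algebra.smul_def, map_mul, map_pow, hσ, ringHom_algebraMap_Zl]

theorem ringHom_eq_eStd (σ : FF N →+* LaurentSeries ℂ) (hσ : σ (jFull N) = JJ ℂ N)
    (a : (Zl ℓ)[X]) : σ (aeval (jFull N) a) = eStd N (aeval (jFull N) a) := by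
  rw [ringHom_aeval_jFull N ℓ σ hσ, ringHom_aeval_jFull N ℓ (eStd N) (eStd_jFull N)]

theorem algebraMap_rat_LC (q : ℚ) :
    algebraMap ℚ (LaurentSeries ℂ) q = HahnSeries.C (q : ℂ) := by
  have h := RingHom.map_rat_algebraMap (HahnSeries.C : ℂ →+* LaurentSeries ℂ) q
  rw [← h]
  simp

variable {ℓ}

theorem JJ_mem_OV (V : ValuationSubring ℂ) : JJ ℂ N ∈ OV V := ⟨JJ V N, iV_JJ V N⟩

theorem JJ_inv_mem_OV (V : ValuationSubring ℂ) : (JJ ℂ N)⁻¹ ∈ OV V := by
  obtain ⟨u, hu⟩ := isUnit_JJ (↥V) N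
  refine ⟨((u⁻¹ : (LaurentSeries V)ˣ) : LaurentSeries V), ?_⟩
  have h1 : iV V (u : LaurentSeries V) * iV V ((u⁻¹ : (LaurentSeries V)ˣ) : LaurentSeries V) = 1 := by
    rw [← map_mul]; simp
  rw [hu, iV_JJ] at h1
  exact eq_inv_of_mul_eq_one_right h1

theorem eStd_aeval_mem_OV {V : ValuationSubring ℂ} (hV : ((ℓ : ℂ))⁻¹ ∉ V) (a : (Zl ℓ)[X]) :
    eStd N (aeval (jFull N) a) ∈ OV V := by
  rw [ringHom_aeval_jFull N ℓ (eStd N) (eStd_jFull N)]
  refine Subring.sum_mem _ fun i _ => Subring.mul_mem _ ?_ (Subring.pow_mem _ (JJ_mem_OV N V) _)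
  rw [algebraMap_rat_LC, mem_OV_iff]
  intro n
  show (HahnSeries.single (0 : ℤ) (((a.coeff i : Zl ℓ) : ℚ) : ℂ)).coeff n ∈ V
  rw [HahnSeries.coeff_single]
  split_ifs
  · exact (ratCast_mem_V_iff hV _).mpr (a.coeff i).2
  · exact V.zero_mem

variable (ℓ)

theorem transcendental_jq : Transcendental ℚ jq :=
  transcendental_of_coeff_neg jq (n := -1) (by norm_num) (by rw [coeff_jq_neg_one]; exact one_ne_zero)

theorem aeval_jFull_injective :
    Function.Injective (aeval (jFull N) : (Zl ℓ)[X] →ₐ[Zl ℓ] FF N) := by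
  rw [injective_iff_map_eq_zero]
  intro a ha
  have h1 : aeval jq (a.map (algebraMap (Zl ℓ) ℚ)) = 0 := by
    have h2 := congrArg (fun x : FF N => (x : LaurentSeries ℚ)) ha
    simp only [ZeroMemClass.coe_zero] at h2
    rw [← h2]
    have h3 : ((aeval (jFull N) a : FF N) : LaurentSeries ℚ) =
        algebraMap (FF N) (LaurentSeries ℚ) (aeval (jFull N) a) := rfl
    rw [h3, aeval_eq_sum_range' (n := a.natDegree + 1)
      (lt_of_le_of_lt natDegree_map_le (Nat.lt_succ_self _)), aeval_eq_sum_range, map_sum]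
    refine Finset.sum_congr rfl fun i _ => ?_
    rw [Algebra.smul_def, Algebra.smul_def, map_mul, map_pow, coeff_map, algebraMap_Zl_FF]
    have h5 : algebraMap ℚ (LaurentSeries ℚ) =
        (algebraMap (FF N) (LaurentSeries ℚ)).comp (algebraMap ℚ (FF N)) := Subsingleton.elim _ _
    rw [h5]
    rfl
  have h4 := (transcendental_iff.mp transcendental_jq) _ h1
  exact Polynomial.map_injective _ (Subtype.val_injective) (by rw [h4, Polynomial.map_zero])

/-- integrality over `ℤ_(ℓ)[X]` (acting through `X ↦ j`) is membership in the chart -/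
theorem mem_chartAlgFin_iff (x : FF N) :
    x ∈ chartAlgFin N ℓ ↔
      (aeval (jFull N) : (Zl ℓ)[X] →ₐ[Zl ℓ] FF N).toRingHom.IsIntegralElem x := by
  set φ : (Zl ℓ)[X] →+* Algebra.adjoin (Zl ℓ) {jFull N} :=
    ((aeval (jFull N) : (Zl ℓ)[X] →ₐ[Zl ℓ] FF N).codRestrict (Algebra.adjoin (Zl ℓ) {jFull N})
      (fun a => by
        rw [Algebra.adjoin_singleton_eq_range_aeval]
        exact ⟨a, rfl⟩)).toRingHom with hφ
  have hφs : Function.Surjective φ := by
    rintro ⟨y, hy⟩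
    have hy' := hy
    rw [Algebra.adjoin_singleton_eq_range_aeval] at hy'
    obtain ⟨a, ha⟩ := hy'
    exact ⟨a, Subtype.ext ha⟩
  have hcomp : (algebraMap (Algebra.adjoin (Zl ℓ) {jFull N}) (FF N)).comp φ =
      (aeval (jFull N) : (Zl ℓ)[X] →ₐ[Zl ℓ] FF N).toRingHom := by
    ext <;> rfl
  rw [mem_chartAlg_iff]
  constructor
  · rintro ⟨p, hp, hpx⟩
    obtain ⟨q, hq, -, hqm⟩ := lifts_and_natDegree_eq_and_monic
      ((lifts_iff_coeff_lifts p).mpr fun i => hφs (p.coeff i)) hp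
    refine ⟨q, hqm, ?_⟩
    rw [← hcomp, ← eval₂_map, hq]
    exact hpx
  · rintro ⟨q, hqm, hqx⟩
    refine ⟨q.map φ, hqm.map φ, ?_⟩
    rw [eval₂_map, hcomp]
    exact hqx

end Fermat.Agent.S28Lib
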