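import Mathlib
import Fermat.Prelude.Def_ModularCurve_LaurentCoeff

/-!
# S28 : leaf [B]  (`q`-expansion principle ⟹ the special fibre of a chart is geometrically integral)
-/

set_option autoImplicit false

open scoped TensorProduct

namespace Fermat.Agent.S28Lib

universe u v w

section abstract

variable (R : Type u) (K : Type v) [CommRing R] [Field K] [Algebra R K]

/-- a "basis of `K` over the residue field of `R`", phrased without the residue field -/
theorem exists_good_family (hmax : (RingHom.ker (algebraMap R K)).IsMaximal) :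
    ∃ (ι : Type v) (b : ι → K), Submodule.span R (Set.range b) = ⊤ ∧
      ∀ (s : Finset ι) (r : ι → R), ∑ j ∈ s, algebraMap R K (r j) * b j = 0 →
        ∀ j ∈ s, algebraMap R K (r j) = 0 := by
  let _ : Field (R ⧸ RingHom.ker (algebraMap R K)) := Ideal.Quotient.field _
  let _ : Algebra (R ⧸ RingHom.ker (algebraMap R K)) K :=
    (RingHom.kerLift (algebraMap R K)).toAlgebra
  have tower : IsScalarTower R (R ⧸ RingHom.ker (algebraMap R K)) K :=
    IsScalarTower.of_algebraMap_eq (fun r => (RingHom.kerLift_mk _ r).symm)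
  let b := Module.Basis.ofVectorSpace (R ⧸ RingHom.ker (algebraMap R K)) K
  refine ⟨_, b, ?_, ?_⟩
  · have h := Submodule.restrictScalars_span R (R ⧸ RingHom.ker (algebraMap R K))
      Ideal.Quotient.mk_surjective (Set.range b)
    rw [b.span_eq, Submodule.restrictScalars_top] at h
    exact h.symm
  · intro s r h j hj
    have h1 := linearIndependent_iff'.1 b.linearIndependent s
      (fun j => Ideal.Quotient.mk _ (r j)) (by
        rw [← h]
        refine Finset.sum_congr rfl fun i _ => ?_
        rw [Algebra.smul_def]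
        rfl) j hj
    have h2 : r j ∈ RingHom.ker (algebraMap R K) := Ideal.Quotient.eq_zero_iff_mem.mp h1
    exact h2

variable {R K}
variable {C : Type w} [CommRing C] [Algebra R C]

/-- **abstract form of leaf [B]** -/
theorem isDomain_tensor_of_hom (hmax : (RingHom.ker (algebraMap R K)).IsMaximal)
    (ρ : C →+* LaurentSeries K)
    (hρ₀ : ∀ r, ρ (algebraMap R C r) = HahnSeries.C (algebraMap R K r))
    (hρ₁ : ∀ c n, (ρ c).coeff n ∈ (algebraMap R K).range)
    (hρ₂ : ∀ c, ρ c = 0 → c ⊗ₜ[R] (1 : K) = 0) : IsDomain (C ⊗[R] K) := by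
  classical
  obtain ⟨ι, b, hspan, hind⟩ := exists_good_family R K hmax
  letI algL : Algebra R (LaurentSeries K) := (HahnSeries.C.comp (algebraMap R K)).toAlgebra
  let ρ' : C →ₐ[R] LaurentSeries K := { ρ with commutes' := hρ₀ }
  let g : K →ₐ[R] LaurentSeries K :=
    { (HahnSeries.C : K →+* LaurentSeries K) with commutes' := fun r => rfl }
  let φ : C ⊗[R] K →ₐ[R] LaurentSeries K := Algebra.TensorProduct.productMap ρ' g
  have hφ : ∀ c l, φ (c ⊗ₜ l) = ρ c * HahnSeries.single 0 l := by
    intro c l
    simp only [φ, Algebra.TensorProduct.productMap_apply_tmul]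
    rfl
  -- every element is a combination of the `c ⊗ b j`
  have hrep : ∀ z : C ⊗[R] K, ∃ f : ι →₀ C, z = f.sum (fun j c => c ⊗ₜ[R] b j) := by
    let Ψ : (ι →₀ C) →ₗ[R] C ⊗[R] K :=
      Finsupp.lsum R (fun j => (TensorProduct.mk R C K).flip (b j))
    have hΨ : ∀ f, Ψ f = f.sum (fun j c => c ⊗ₜ[R] b j) := fun f => by
      simp only [Ψ, Finsupp.lsum_apply]
      rfl
    have hsurj : LinearMap.range Ψ = ⊤ := by
      rw [eq_top_iff, ← TensorProduct.span_tmul_eq_top, Submodule.span_le]
      rintro _ ⟨c, l, rfl⟩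
      have hl : l ∈ (LinearMap.range Ψ).comap (TensorProduct.mk R C K c) := by
        have : Submodule.span R (Set.range b) ≤
            (LinearMap.range Ψ).comap (TensorProduct.mk R C K c) := by
          rw [Submodule.span_le]
          rintro _ ⟨j, rfl⟩
          exact ⟨Finsupp.single j c, by rw [hΨ]; simp⟩
        exact this (hspan ▸ Submodule.mem_top)
      exact hl
    intro z
    obtain ⟨f, hf⟩ := (LinearMap.range_eq_top.mp hsurj) z
    exact ⟨f, by rw [← hf, hΨ]⟩
  have hinj : Function.Injective φ := by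
    rw [injective_iff_map_eq_zero]
    intro z hz
    obtain ⟨f, rfl⟩ := hrep z
    rw [Finsupp.sum, map_sum] at hz
    simp only [hφ] at hz
    have h0 : ∀ j ∈ f.support, ρ (f j) = 0 := by
      intro j hj
      ext n
      choose r hr using fun j => hρ₁ (f j) n
      have h1 := congrArg (fun x : LaurentSeries K => x.coeff n) hz
      simp only [HahnSeries.coeff_sum, HahnSeries.coeff_mul_single_zero,
        HahnSeries.coeff_zero] at h1
      have h2 := hind f.support r (by
        rw [← h1]
        refine Finset.sum_congr rfl fun i _ => ?_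
        rw [hr]) j hj
      rw [← hr, h2, HahnSeries.coeff_zero]
    rw [Finsupp.sum]
    refine Finset.sum_eq_zero fun j hj => ?_
    have h3 : f j ⊗ₜ[R] b j = (f j ⊗ₜ[R] (1 : K)) * ((1 : C) ⊗ₜ[R] b j) := by
      rw [Algebra.TensorProduct.tmul_mul_tmul, mul_one, one_mul]
    rw [h3, hρ₂ _ (h0 j hj), zero_mul]
  exact hinj.isDomain φ.toRingHom

end abstract

end Fermat.Agent.S28Lib
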