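import Fermat.Agent.S28.Defs

/-!
# S28 : the transformation of `Δ(dτ)/Δ(τ)` under `SL₂(ℤ)`
-/

set_option autoImplicit false

open UpperHalfPlane hiding I
open ModularForm CongruenceSubgroup
open scoped MatrixGroups Manifold

namespace Fermat.Agent.S28Lib

open Fermat.Agent.S20Lib Fermat.Agent.S23L Fermat.Agent.S24Lib

/-- `δ_d(τ) = Δ(dτ)/Δ(τ)` -/
noncomputable def dl (d : ℕ) (τ : ℍ) : ℂ :=
  discriminant (heckeDiagMatrix d • τ) / discriminant τ

theorem dl_ne_zero (d : ℕ) (τ : ℍ) : dl d τ ≠ 0 :=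
  div_ne_zero (discriminant_ne_zero _) (discriminant_ne_zero _)

theorem σ_of_det_pos {A : GL (Fin 2) ℝ} (hA : 0 < A.det.val) : UpperHalfPlane.σ A = .refl ℝ ℂ := by
  rw [UpperHalfPlane.σ, if_pos hA]

theorem det_upperTriangularGL (a b d : ℝ) (had : a * d ≠ 0) :
    (upperTriangularGL a b d had).det.val = a * d := by
  rw [Matrix.GeneralLinearGroup.val_det_apply, val_upperTriangularGL, Matrix.det_fin_two_of]
  ring

theorem denom_upperTriangularGL (a b d : ℝ) (had : a * d ≠ 0) (z : ℂ) :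
    denom (upperTriangularGL a b d had) z = d := by
  simp [denom, val_upperTriangularGL]

theorem gcd_of_decomp (d : ℕ) (γ ε : SL(2, ℤ)) (g : ℤ) (hg : 0 < g)
    (h00 : (d : ℤ) * γ 0 0 = ε 0 0 * g) (h10 : γ 1 0 = ε 1 0 * g) :
    g = Int.gcd d (γ 1 0) := by
  have hγ := phi_det γ
  have hε := phi_det ε
  have h1 : g ∣ (d : ℤ) := by
    -- d = d (a δ - b c) = ε00 g δ - d b ε10 g
    refine ⟨ε 0 0 * γ 1 1 - d * γ 0 1 * ε 1 0, ?_⟩
    calc (d : ℤ) = d * (γ 0 0 * γ 1 1 - γ 0 1 * γ 1 0) := by rw [hγ, mul_one]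
      _ = (d * γ 0 0) * γ 1 1 - d * γ 0 1 * γ 1 0 := by ring
      _ = _ := by rw [h00, h10]; ring
  have h2 : g ∣ γ 1 0 := ⟨ε 1 0, by rw [h10]; ring⟩
  have h3 : g ∣ (Int.gcd d (γ 1 0) : ℤ) := Int.dvd_coe_gcd h1 h2
  have h4 : (Int.gcd d (γ 1 0) : ℤ) ∣ g := by
    -- g = g (ε00 ε11 - ε01 ε10) = d a ε11 - ε01 c
    have e : g = (d : ℤ) * (γ 0 0 * ε 1 1) - γ 1 0 * ε 0 1 := by
      calc g = g * (ε 0 0 * ε 1 1 - ε 0 1 * ε 1 0) := by rw [hε, mul_one]
        _ = (ε 0 0 * g) * ε 1 1 - (ε 1 0 * g) * ε 0 1 := by ring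
        _ = _ := by rw [← h00, ← h10]; ring
    rw [e]
    exact dvd_sub (Dvd.dvd.mul_right (Int.gcd_dvd_left _ _) _)
      (Dvd.dvd.mul_right (Int.gcd_dvd_right _ _) _)
  exact Int.dvd_antisymm hg.le (by positivity) h3 h4

theorem dl_smul_eq (d : ℕ) [NeZero d] (γ : SL(2, ℤ)) :
    ∃ (g B D : ℤ) (hgD : ((g : ℝ) * (D : ℝ)) ≠ 0), 0 < g ∧ 0 < D ∧ g * D = d ∧
      g = Int.gcd d (γ 1 0) ∧
      ∀ τ : ℍ, dl d (γ • τ) = ((D : ℂ) ^ 12)⁻¹ *
        (discriminant (upperTriangularGL g B D hgD • τ) / discriminant τ) := by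
  have hd : d ≠ 0 := NeZero.ne d
  obtain ⟨ε, g, B, D, hgD, hg, hD, hgDN, -, hdec⟩ := phi_decomp d γ
  have hposR : (0 : ℝ) < (g : ℝ) * (D : ℝ) := by
    have h1 : (0 : ℝ) < (g : ℝ) := by exact_mod_cast hg
    have h2 : (0 : ℝ) < (D : ℝ) := by exact_mod_cast hD
    positivity
  refine ⟨g, B, D, hgD, hg, hD, hgDN, ?_, fun τ => ?_⟩
  · have hmat := congrArg (fun A : GL (Fin 2) ℝ => (A : Matrix (Fin 2) (Fin 2) ℝ)) hdec
    simp only [Units.val_mul, val_heckeDiagMatrix hd, val_upperTriangularGL] at hmat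
    have e00 := congrFun (congrFun hmat 0) 0
    have e10 := congrFun (congrFun hmat 1) 0
    simp only [Matrix.mul_apply, Fin.sum_univ_two, phi_coe_apply, Matrix.of_apply,
      Matrix.cons_val', Matrix.cons_val_zero, Matrix.cons_val_one, Matrix.cons_val_fin_one,
      mul_zero, add_zero, zero_mul, zero_add, one_mul] at e00 e10
    exact gcd_of_decomp d γ ε g hg (by exact_mod_cast e00) (by exact_mod_cast e10)
  · set U := upperTriangularGL g B D hgD with hU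
    have h1 : heckeDiagMatrix d • (γ • τ) = ε • (U • τ) := by
      show heckeDiagMatrix d • ((γ : GL (Fin 2) ℝ) • τ) = (ε : GL (Fin 2) ℝ) • (U • τ)
      rw [← mul_smul, hdec, mul_smul]
    have hden : denom (ε : GL (Fin 2) ℝ) ((U • τ : ℍ) : ℂ) * (D : ℂ) =
        denom (γ : GL (Fin 2) ℝ) τ := by
      have e1 := denom_cocycle_σ (heckeDiagMatrix d) (γ : GL (Fin 2) ℝ) τ
      have e2 := denom_cocycle_σ (ε : GL (Fin 2) ℝ) U τ
      rw [σ_of_det_pos (by simp), denom_heckeDiagMatrix hd] at e1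
      rw [σ_of_det_pos (by rw [hU, det_upperTriangularGL]; exact hposR), hU,
        denom_upperTriangularGL] at e2
      rw [hdec] at e1
      rw [e1] at e2
      simp only [ContinuousAlgEquiv.refl_apply, one_mul] at e2
      rw [hU]
      exact_mod_cast e2.symm
    unfold dl
    rw [h1, disc_apply_smul, disc_apply_smul, ← hden]
    have hDC : (D : ℂ) ≠ 0 := by exact_mod_cast hD.ne'
    have hε : denom (ε : GL (Fin 2) ℝ) ((U • τ : ℍ) : ℂ) ≠ 0 := denom_ne_zero _ _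
    have hΔ := discriminant_ne_zero τ
    rw [mul_zpow]
    have e12 : ∀ z : ℂ, z ^ (12 : ℤ) = z ^ 12 := fun z => by norm_cast
    rw [e12, e12]
    field_simp

end Fermat.Agent.S28Lib
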