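import Fermat.Agent.S28.WVU
import Fermat.Agent.S28.WTransf
import Fermat.Agent.S24.Charts
import Fermat.Agent.S24.JExp

/-!
# S28 : the expansions of the conjugates of `Δ(dτ)/Δ(τ)`
-/

set_option autoImplicit false

open UpperHalfPlane hiding I
open ModularForm ModularCurve CongruenceSubgroup Filter
open scoped MatrixGroups Manifold

namespace Fermat.Agent.S28Lib

open Fermat.Agent.S20Lib Fermat.Agent.S23L Fermat.Agent.S24Lib

/-! ### more `HasExp` calculus -/

theorem hasExp_zpow {l : Filter ℍ} {π f : ℍ → ℂ} {L : LaurentSeries ℂ} (hc : IsChart l π)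
    (h : HasExp l π f L) (k : ℤ) : HasExp l π (fun τ => f τ ^ k) (L ^ k) := by
  rcases k with k | k
  · simpa using h.pow k
  · simp only [zpow_negSucc]
    exact (h.pow (k + 1)).inv hc

theorem hasExp_prod {l : Filter ℍ} {π : ℍ → ℂ} {ι : Type*} (s : Finset ι) (F : ι → ℍ → ℂ)
    (L : ι → LaurentSeries ℂ) (h : ∀ i ∈ s, HasExp l π (F i) (L i)) :
    HasExp l π (fun τ => ∏ i ∈ s, F i τ) (∏ i ∈ s, L i) := by
  classical
  induction s using Finset.induction_on with
  | empty =>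
    simp only [Finset.prod_empty]
    have := HasExp.const l π 1
    rwa [map_one] at this
  | insert i s hi ih =>
    simp only [Finset.prod_insert hi]
    exact (h i (Finset.mem_insert_self i s)).mul
      (ih fun j hj => h j (Finset.mem_insert_of_mem hj))

/-! ### coefficients of `Δ` -/

theorem dR_coeff (n : ℤ) : (dR ℂ).coeff n =
    (HahnSeries.ofPowerSeries ℤ ℂ (dedekindEtaUnit.map (Int.castRingHom ℂ))).coeff (n - 1) := by
  have := HahnSeries.coeff_single_mul_add (r := (1 : ℂ))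
    (x := HahnSeries.ofPowerSeries ℤ ℂ (dedekindEtaUnit.map (Int.castRingHom ℂ))) (a := n - 1)
    (b := 1)
  rw [sub_add_cancel, one_mul] at this
  exact this

theorem dR_coeff_int (n : ℤ) : ∃ z : ℤ, (dR ℂ).coeff n = z := by
  rw [dR_coeff]
  rcases lt_or_ge (n - 1) 0 with h | h
  · exact ⟨0, by rw [ofPowerSeries_coeff_of_neg _ h]; simp⟩
  · obtain ⟨m, hm⟩ := Int.eq_ofNat_of_zero_le h
    rw [hm, HahnSeries.ofPowerSeries_apply_coeff, PowerSeries.coeff_map]
    exact ⟨_, rfl⟩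

theorem dR_coeff_nonpos {n : ℤ} (hn : n ≤ 0) : (dR ℂ).coeff n = 0 := by
  rw [dR_coeff, ofPowerSeries_coeff_of_neg _ (by omega)]

theorem dR_coeff_one : (dR ℂ).coeff 1 = 1 := by
  rw [dR_coeff]
  have : ((1 : ℤ) - 1) = ((0 : ℕ) : ℤ) := by simp
  rw [this, HahnSeries.ofPowerSeries_apply_coeff, PowerSeries.coeff_map,
    PowerSeries.coeff_zero_eq_constantCoeff_apply, constantCoeff_dedekindEtaUnit]
  simp

/-! ### the pieces -/

theorem hasExp_disc_one : HasExp atImInfty (qN 1) discriminant (dR ℂ) := by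
  rw [hasExp_iff, ← qq_eq_qN]
  exact hasExpG_discriminant

theorem hasExp_disc_upper (N : ℕ) [NeZero N] (g B D k : ℤ) (hgD : ((g : ℝ) * (D : ℝ)) ≠ 0)
    (hg : 0 < g) (hD : 0 < D) (hk : D * k = N) (m : ℕ) [NeZero m] (hm : (m : ℤ) = g * k) :
    HasExp atImInfty (qN N) (fun τ => discriminant (upperTriangularGL g B D hgD • τ))
      (qExpand ℂ m (rot (Units.mk0 (Complex.exp (2 * Real.pi * Complex.I * B / D))
        (Complex.exp_ne_zero _)) (dR ℂ))) := by
  refine hasExp_disc_one.comp (tendsto_upperTriangularGL_smul g B D hgD) _ m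
    (Eventually.of_forall fun τ => ?_)
  rw [qN_one_upper N g B D k hgD hg hD hk, ← hm, zpow_natCast]
  rfl

theorem qN_one_eq_qN_pow (N : ℕ) [NeZero N] (τ : ℍ) : qN 1 τ = qN N τ ^ N := by
  have hN : (N : ℂ) ≠ 0 := by exact_mod_cast NeZero.ne N
  unfold qN Function.Periodic.qParam
  rw [← Complex.exp_nat_mul]
  congr 1
  push_cast
  field_simp

theorem hasExp_disc_N (N : ℕ) [NeZero N] :
    HasExp atImInfty (qN N) discriminant (qExpand ℂ N (dR ℂ)) := by
  have := hasExp_disc_one.comp (s := fun τ => τ) tendsto_id 1 N (π' := qN N)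
    (Eventually.of_forall fun τ => by simpa using qN_one_eq_qN_pow N τ)
  rwa [rot_one] at this

theorem zpow_mem_V_of_pow_eq_one (V : ValuationSubring ℂ) (ζ : ℂ) (n : ℕ) (hn : 0 < n)
    (h : ζ ^ n = 1) (k : ℤ) : ζ ^ k ∈ V := by
  have h1 : ∀ x : ℂ, x ^ n = 1 → x ∈ V := by
    intro x hx
    rcases V.mem_or_inv_mem x with h | h
    · exact h
    · have : x = (x⁻¹) ^ (n - 1) := by
        have hx0 : x ≠ 0 := by
          rintro rfl
          rw [zero_pow hn.ne'] at hx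
          exact zero_ne_one hx
        have e : x ^ (n - 1) * x = 1 := by
          rw [← pow_succ, Nat.sub_add_cancel hn, hx]
        rw [inv_pow]
        exact eq_inv_of_mul_eq_one_right e
      rw [this]
      exact pow_mem h _
  apply h1
  rw [← zpow_natCast, ← zpow_mul, mul_comm, zpow_mul, zpow_natCast, h, one_zpow]

theorem isVU_piece (V : ValuationSubring ℂ) (ζ : ℂˣ) (n : ℕ) (hn : 0 < n) (hζ : (ζ : ℂ) ^ n = 1)
    (m : ℕ) [NeZero m] : IsVU V (qExpand ℂ m (rot ζ (dR ℂ))) m := by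
  have hm : (0 : ℤ) < m := by exact_mod_cast Nat.pos_of_ne_zero (NeZero.ne m)
  have hc : ∀ j : ℤ, (qExpand ℂ m (rot ζ (dR ℂ))).coeff ((m : ℤ) * j) =
      (ζ : ℂ) ^ j * (dR ℂ).coeff j := by
    intro j
    rw [qExpand_coeff_mul, rot_coeff]
  refine IsVU.of_coeff ?_ ?_ ?_ ?_
  · intro k
    by_cases hk : (m : ℤ) ∣ k
    · obtain ⟨j, rfl⟩ := hk
      rw [hc]
      obtain ⟨z, hz⟩ := dR_coeff_int j
      rw [hz]
      exact V.mul_mem _ _ (zpow_mem_V_of_pow_eq_one V ζ n hn hζ j) (intCast_mem V z)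
    · rw [qExpand_coeff_of_not_dvd _ _ hk]
      exact V.zero_mem
  · intro k hk
    by_cases hk' : (m : ℤ) ∣ k
    · obtain ⟨j, rfl⟩ := hk'
      have hj : j ≤ 0 := by
        by_contra hj
        push Not at hj
        nlinarith
      rw [hc, dR_coeff_nonpos hj, mul_zero]
    · exact qExpand_coeff_of_not_dvd _ _ hk'
  · have := hc 1
    rw [mul_one] at this
    rw [this, dR_coeff_one]
    simp
  · have := hc 1
    rw [mul_one] at this
    rw [this, dR_coeff_one, mul_one, zpow_one, ← zpow_neg_one]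
    exact zpow_mem_V_of_pow_eq_one V ζ n hn hζ (-1)

theorem isVU_C (V : ValuationSubring ℂ) (c : ℂ) (hc0 : c ≠ 0) (hc : c ∈ V) (hc' : c⁻¹ ∈ V) :
    IsVU V (HahnSeries.C c) 0 := by
  have e : (HahnSeries.C c : LaurentSeries ℂ) = HahnSeries.single 0 c := rfl
  rw [e]
  refine IsVU.of_coeff ?_ ?_ ?_ ?_
  · intro k
    by_cases hk : k = 0
    · subst hk
      rw [HahnSeries.coeff_single_same]
      exact hc
    · rw [HahnSeries.coeff_single_of_ne hk]
      exact V.zero_mem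
  · intro k hk
    rw [HahnSeries.coeff_single_of_ne hk.ne]
  · rw [HahnSeries.coeff_single_same]; exact hc0
  · rw [HahnSeries.coeff_single_same]; exact hc'

/-- the expansion of a conjugate of `δ_d` -/
theorem dl_exp (N : ℕ) [NeZero N] (V : ValuationSubring ℂ)
    (hNV : ∀ D : ℕ, D ∣ N → ((D : ℂ))⁻¹ ∈ V) (d : ℕ) (hd : d ∣ N) (γ : SL(2, ℤ)) :
    ∃ (φ : LaurentSeries ℂ) (m : ℤ), HasExp atImInfty (qN N) (fun τ => dl d (γ • τ)) φ ∧
      IsVU V φ (m - N) ∧ (d : ℤ) * m = ((Int.gcd d (γ 1 0) : ℕ) : ℤ) ^ 2 * N := by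
  have hN : N ≠ 0 := NeZero.ne N
  have : NeZero d := ⟨fun h => hN (by rw [h] at hd; exact Nat.eq_zero_of_zero_dvd hd)⟩
  obtain ⟨g, B, D, hgD, hg, hD, hgDd, hgcd, heq⟩ := dl_smul_eq d γ
  have hDN : D ∣ (N : ℤ) := by
    have h1 : D ∣ (d : ℤ) := ⟨g, by rw [← hgDd]; ring⟩
    exact h1.trans (Int.natCast_dvd_natCast.mpr hd)
  obtain ⟨k, hk⟩ := hDN
  have hk' : D * k = N := hk.symm
  have hkpos : 0 < k := by
    have : 0 < D * k := by rw [hk']; exact_mod_cast Nat.pos_of_ne_zero hN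
    exact (mul_pos_iff_of_pos_left hD).1 this
  have hgk : 0 < g * k := mul_pos hg hkpos
  obtain ⟨m, hm⟩ := Int.eq_ofNat_of_zero_le hgk.le
  have : NeZero m := ⟨fun h => by rw [h] at hm; simp at hm; omega⟩
  obtain ⟨Dn, hDn⟩ := Int.eq_ofNat_of_zero_le hD.le
  have hDn0 : 0 < Dn := by
    rw [hDn] at hD
    exact_mod_cast hD
  have hDnN : Dn ∣ N := by
    have : (Dn : ℤ) ∣ (N : ℤ) := ⟨k, by rw [← hk', hDn]⟩
    exact_mod_cast this
  set ζ : ℂˣ := Units.mk0 (Complex.exp (2 * Real.pi * Complex.I * B / D)) (Complex.exp_ne_zero _)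
    with hζ
  have hζD : (ζ : ℂ) ^ Dn = 1 := by
    have hDC : (D : ℂ) ≠ 0 := by exact_mod_cast hD.ne'
    rw [hζ, Units.val_mk0, ← Complex.exp_nat_mul]
    have : (Dn : ℂ) * (2 * Real.pi * Complex.I * B / D) = B * (2 * Real.pi * Complex.I) := by
      have e : (Dn : ℂ) = (D : ℂ) := by rw [hDn]; simp
      rw [e]
      field_simp
    rw [this, Complex.exp_int_mul_two_pi_mul_I]
  have h1 := hasExp_disc_upper N g B D k hgD hg hD hk' m hm.symm
  have h2 := hasExp_disc_N N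
  have h3 := (HasExp.const atImInfty (qN N) (((D : ℂ) ^ 12)⁻¹)).mul
    (h1.div (isChart_infty N) h2)
  refine ⟨_, m, h3.congr (Eventually.of_forall fun τ => (heq τ).symm), ?_, ?_⟩
  · have hDC : (D : ℂ) ≠ 0 := by exact_mod_cast hD.ne'
    have hDV : ((D : ℂ))⁻¹ ∈ V := by
      have := hNV Dn hDnN
      rw [hDn]
      exact_mod_cast this
    have v1 : IsVU V (HahnSeries.C (((D : ℂ) ^ 12)⁻¹)) 0 := by
      refine isVU_C V _ (inv_ne_zero (pow_ne_zero _ hDC)) ?_ ?_
      · rw [← inv_pow]; exact pow_mem hDV 12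
      · rw [inv_inv]; exact pow_mem (intCast_mem V D) 12
    have v2 := isVU_piece V ζ Dn hDn0 hζD m
    have v3 : IsVU V (qExpand ℂ N (dR ℂ)) N := by
      have := isVU_piece V 1 1 one_pos (by simp) N
      rwa [rot_one] at this
    have v4 := v1.mul (v2.mul v3.inv)
    rw [div_eq_mul_inv]
    convert v4 using 1
    ring
  · rw [← hgcd, ← hm, ← hgDd, ← hk']
    ring

end Fermat.Agent.S28Lib
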