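import Fermat.Agent.S28.Defs

/-!
# S28 : Laurent series over `ℂ` which are units of `V((u))`
-/

set_option autoImplicit false

open ModularCurve

namespace Fermat.Agent.S28Lib

/-- `φ` is (the image of) a unit of `V((u))`, of order `n` -/
def IsVU (V : ValuationSubring ℂ) (φ : LaurentSeries ℂ) (n : ℤ) : Prop :=
  ∃ a : (LaurentSeries V)ˣ, iV V (a : LaurentSeries V) = φ ∧ (a : LaurentSeries V).order = n

namespace IsVU

variable {V : ValuationSubring ℂ} {φ ψ : LaurentSeries ℂ} {n m : ℤ}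

theorem one : IsVU V 1 0 := ⟨1, by simp, by simp⟩

theorem mul (h : IsVU V φ n) (h' : IsVU V ψ m) : IsVU V (φ * ψ) (n + m) := by
  obtain ⟨a, rfl, rfl⟩ := h
  obtain ⟨b, rfl, rfl⟩ := h'
  refine ⟨a * b, by simp, ?_⟩
  rw [Units.val_mul, HahnSeries.order_mul a.ne_zero b.ne_zero]

theorem inv (h : IsVU V φ n) : IsVU V φ⁻¹ (-n) := by
  obtain ⟨a, rfl, rfl⟩ := h
  refine ⟨a⁻¹, ?_, ?_⟩
  · have h1 : iV V (a : LaurentSeries V) * iV V ((a⁻¹ : (LaurentSeries V)ˣ) : LaurentSeries V) = 1 := by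
      rw [← map_mul, Units.mul_inv, map_one]
    exact eq_inv_of_mul_eq_one_right h1
  · have h1 := HahnSeries.order_mul a.ne_zero (a⁻¹).ne_zero
    rw [Units.mul_inv, HahnSeries.order_one] at h1
    linarith

theorem pow (h : IsVU V φ n) (k : ℕ) : IsVU V (φ ^ k) (k * n) := by
  induction k with
  | zero => simpa using one
  | succ k ih =>
    rw [pow_succ]
    have := ih.mul h
    convert this using 1
    push_cast
    ring

theorem zpow (h : IsVU V φ n) (k : ℤ) : IsVU V (φ ^ k) (k * n) := by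
  rcases k with k | k
  · simpa using h.pow k
  · rw [zpow_negSucc]
    have := (h.pow (k + 1)).inv
    convert this using 1
    rw [Int.negSucc_eq]
    push_cast
    ring

theorem prod {ι : Type*} (s : Finset ι) (F : ι → LaurentSeries ℂ) (o : ι → ℤ)
    (h : ∀ i ∈ s, IsVU V (F i) (o i)) : IsVU V (∏ i ∈ s, F i) (∑ i ∈ s, o i) := by
  classical
  induction s using Finset.induction_on with
  | empty => simpa using one
  | insert i s hi ih =>
    rw [Finset.prod_insert hi, Finset.sum_insert hi]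
    exact (h i (Finset.mem_insert_self i s)).mul
      (ih fun j hj => h j (Finset.mem_insert_of_mem hj))

/-- the criterion -/
theorem of_coeff (hV : ∀ k, φ.coeff k ∈ V) (h0 : ∀ k < n, φ.coeff k = 0)
    (hn : φ.coeff n ≠ 0) (hn' : (φ.coeff n)⁻¹ ∈ V) : IsVU V φ n := by
  set g : LaurentSeries V :=
    ⟨fun k => ⟨φ.coeff k, hV k⟩, φ.isPWO_support.mono (by
      intro k hk
      simp only [Function.mem_support, ne_eq] at hk
      rw [HahnSeries.mem_support]
      intro h
      exact hk (Subtype.ext h))⟩ with hg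
  have hgc : ∀ k, ((g.coeff k : V) : ℂ) = φ.coeff k := fun k => rfl
  have hgn : g.coeff n ≠ 0 := fun h => hn (by rw [← hgc, h]; rfl)
  have hg0 : g ≠ 0 := fun h => hgn (by rw [h]; rfl)
  have hord : g.order = n := by
    apply le_antisymm
    · exact HahnSeries.order_le_of_coeff_ne_zero hgn
    · by_contra hlt
      push Not at hlt
      have h1 : g.coeff g.order ≠ 0 := fun h => hg0 (HahnSeries.coeff_order_eq_zero.1 h)
      exact h1 (Subtype.ext (by rw [hgc, h0 _ hlt]; rfl))
  have hunit : IsUnit g := by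
    rw [HahnSeries.isUnit_iff, HahnSeries.leadingCoeff_eq, hord]
    refine ⟨⟨g.coeff n, ⟨(φ.coeff n)⁻¹, hn'⟩, ?_, ?_⟩, rfl⟩
    · apply Subtype.ext
      show φ.coeff n * (φ.coeff n)⁻¹ = 1
      exact mul_inv_cancel₀ hn
    · apply Subtype.ext
      show (φ.coeff n)⁻¹ * φ.coeff n = 1
      exact inv_mul_cancel₀ hn
  refine ⟨hunit.unit, ?_, hord⟩
  ext k
  rfl

end IsVU

end Fermat.Agent.S28Lib
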